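import Mathlib

/-!
# Abstract field theory: the degree of a field generated by two elements
-/

set_option autoImplicit false

noncomputable section

open scoped IntermediateField

namespace Fermat.Agent.FG

section

variable {K F : Type*} [Field K] [Field F] [Algebra K F]

theorem adjoin_adjoin_eq_top' {j y : F} (htop : IntermediateField.adjoin K ({j, y} : Set F) = ⊤) :
    (K⟮j⟯⟮y⟯ : IntermediateField K⟮j⟯ F) = ⊤ := by
  have h1 := IntermediateField.adjoin_simple_adjoin_simple K j y
  rw [htop] at h1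
  rw [eq_top_iff]
  rintro x -
  have h2 : x ∈ (K⟮j⟯⟮y⟯).restrictScalars K := by
    rw [h1]
    trivial
  exact h2

/-- `K[X] → K(j)`. -/
def polyMap (j : F) : Polynomial K →+* K⟮j⟯ :=
  (Polynomial.aeval (IntermediateField.AdjoinSimple.gen K j)).toRingHom

theorem coe_polyMap (j : F) (p : Polynomial K) :
    ((polyMap j p : K⟮j⟯) : F) = Polynomial.aeval j p := by
  rw [polyMap]
  have := Polynomial.aeval_algHom_apply (K⟮j⟯).val (IntermediateField.AdjoinSimple.gen K j) p
  rw [IntermediateField.coe_val, IntermediateField.AdjoinSimple.coe_gen] at this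
  exact this.symm

theorem aeval_map_polyMap {j y : F} {P : Polynomial (Polynomial K)}
    (hP : P.eval₂ (Polynomial.aeval j : Polynomial K →ₐ[K] F).toRingHom y = 0) :
    Polynomial.aeval y (P.map (polyMap j)) = 0 := by
  rw [Polynomial.aeval_def, Polynomial.eval₂_map, ← hP]
  congr 1
  exact RingHom.ext fun p => coe_polyMap j p

theorem isIntegral_of_eval₂ {j y : F} {P : Polynomial (Polynomial K)} (hPm : P.Monic)
    (hP : P.eval₂ (Polynomial.aeval j : Polynomial K →ₐ[K] F).toRingHom y = 0) :
    IsIntegral K⟮j⟯ y :=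
  ⟨P.map (polyMap j), hPm.map _, aeval_map_polyMap hP⟩

theorem finrank_eq_natDegree_minpoly {j y : F}
    (htop : IntermediateField.adjoin K ({j, y} : Set F) = ⊤) (hy : IsIntegral K⟮j⟯ y) :
    Module.finrank K⟮j⟯ F = (minpoly K⟮j⟯ y).natDegree := by
  rw [← IntermediateField.adjoin.finrank hy]
  have h1 := adjoin_adjoin_eq_top' htop
  rw [h1, IntermediateField.finrank_top']

theorem finiteDimensional_of_top {j y : F}
    (htop : IntermediateField.adjoin K ({j, y} : Set F) = ⊤) (hy : IsIntegral K⟮j⟯ y) :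
    FiniteDimensional K⟮j⟯ F := by
  have h1 : FiniteDimensional K⟮j⟯ (K⟮j⟯⟮y⟯ : IntermediateField K⟮j⟯ F) :=
    IntermediateField.adjoin.finiteDimensional hy
  rw [adjoin_adjoin_eq_top' htop] at h1
  exact (IntermediateField.topEquiv (F := K⟮j⟯) (E := F)).toLinearEquiv.finiteDimensional

theorem algHom_comp_val_eq {L : Type*} [Field L] [Algebra K L] {j : F} {φ ψ : F →ₐ[K] L}
    (h : φ j = ψ j) : φ.comp (K⟮j⟯).val = ψ.comp (K⟮j⟯).val := by
  refine IntermediateField.algHom_ext_of_eq_adjoin K rfl ?_
  rintro x hx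
  rw [Set.mem_singleton_iff] at hx
  subst hx
  exact h

/-- Distinct embeddings give a lower bound for the degree. -/
theorem card_le_natDegree_minpoly {L : Type*} [Field L] [Algebra K L] {j y : F}
    (hy : IsIntegral K⟮j⟯ y) {I : Type*} [Fintype I] (φ : I → F →ₐ[K] L)
    (hj : ∀ i i', φ i j = φ i' j) (hinj : Function.Injective fun i => φ i y) :
    Fintype.card I ≤ (minpoly K⟮j⟯ y).natDegree := by
  classical
  rcases isEmpty_or_nonempty I with hI | ⟨⟨i0⟩⟩
  · simp
  set m := minpoly K⟮j⟯ y with hm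
  have hmm : m.Monic := minpoly.monic hy
  set σ : K⟮j⟯ →+* L := ((φ i0).comp (K⟮j⟯).val).toRingHom with hσ
  have hroot : ∀ i, (m.map σ).IsRoot (φ i y) := by
    intro i
    have h1 : σ = ((φ i).comp (K⟮j⟯).val).toRingHom := by
      rw [hσ, algHom_comp_val_eq (hj i0 i)]
    rw [Polynomial.IsRoot.def, Polynomial.eval_map, h1]
    have h2 := Polynomial.hom_eval₂ m (algebraMap K⟮j⟯ F) (φ i).toRingHom y
    have h3 : m.eval₂ (algebraMap K⟮j⟯ F) y = 0 := minpoly.aeval _ _
    rw [h3, map_zero] at h2
    exact h2.symm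
  have hne : m.map σ ≠ 0 := (hmm.map σ).ne_zero
  have hcard : (Finset.univ.image fun i => φ i y).card ≤ (m.map σ).natDegree := by
    refine (Finset.card_le_card (t := (m.map σ).roots.toFinset) ?_).trans
      ((Multiset.toFinset_card_le _).trans (Polynomial.card_roots' _))
    intro x hx
    rw [Finset.mem_image] at hx
    obtain ⟨q, -, rfl⟩ := hx
    rw [Multiset.mem_toFinset, Polynomial.mem_roots hne]
    exact hroot _
  rwa [Finset.card_image_of_injective _ hinj, Finset.card_univ, hmm.natDegree_map] at hcard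

/-- The degree formula. -/
theorem finrank_eq_card {L : Type*} [Field L] [Algebra K L] {j y : F}
    (htop : IntermediateField.adjoin K ({j, y} : Set F) = ⊤)
    {P : Polynomial (Polynomial K)} (hPm : P.Monic)
    (hP : P.eval₂ (Polynomial.aeval j : Polynomial K →ₐ[K] F).toRingHom y = 0)
    {I : Type*} [Fintype I] (hd : P.natDegree ≤ Fintype.card I) (φ : I → F →ₐ[K] L)
    (hj : ∀ i i', φ i j = φ i' j) (hinj : Function.Injective fun i => φ i y) :
    Module.finrank K⟮j⟯ F = Fintype.card I := by
  have hy := isIntegral_of_eval₂ hPm hP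
  rw [finrank_eq_natDegree_minpoly htop hy]
  refine le_antisymm ?_ (card_le_natDegree_minpoly hy φ hj hinj)
  refine le_trans ?_ hd
  rw [← hPm.natDegree_map (polyMap j)]
  exact Polynomial.natDegree_le_of_dvd (minpoly.dvd _ _ (aeval_map_polyMap hP)) (hPm.map _).ne_zero

/-- The minimal polynomial of a generator. -/
theorem minpoly_eq_map {L : Type*} [Field L] [Algebra K L] {j y : F}
    {P : Polynomial (Polynomial K)} (hPm : P.Monic)
    (hP : P.eval₂ (Polynomial.aeval j : Polynomial K →ₐ[K] F).toRingHom y = 0)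
    {I : Type*} [Fintype I] (hd : P.natDegree ≤ Fintype.card I) (φ : I → F →ₐ[K] L)
    (hj : ∀ i i', φ i j = φ i' j) (hinj : Function.Injective fun i => φ i y) :
    minpoly K⟮j⟯ y = P.map (polyMap j) := by
  have hy := isIntegral_of_eval₂ hPm hP
  refine (Polynomial.eq_of_monic_of_dvd_of_natDegree_le (minpoly.monic hy) (hPm.map (polyMap j))
    (minpoly.dvd _ _ (aeval_map_polyMap hP)) ?_).symm
  rw [hPm.natDegree_map]
  exact hd.trans (card_le_natDegree_minpoly hy φ hj hinj)

end

end Fermat.Agent.FG
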