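import Mathlib
import Fermat.Agent.X0Emb.JExp
import Fermat.Agent.ModFun.Basic
import Fermat.Agent.ModFun.Descent

/-!
# Modular functions on general finite index subgroups, with coefficients in a field `K`

`K` is a field with an embedding `ι : K →+* ℂ`, `Γ` a subgroup of `SL(2, ℤ)` and `h : ℕ` a width.
`IsMF ι Γ h F y` says that `F` is holomorphic on `ℍ`, `Γ`-invariant, meromorphic at all cusps
and that `F = ∑ ι(yₙ) exp(2πi n τ / h)`.
`AG ι Γ h` is the algebra of all such Laurent series `y` and `FG ι Γ h` its field of fractions.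
-/

set_option autoImplicit false
set_option linter.dupNamespace false

open UpperHalfPlane hiding I
open ModularForm Matrix.SpecialLinearGroup Filter Asymptotics
open scoped MatrixGroups Manifold ModularForm Polynomial Topology

noncomputable section

namespace Fermat.Agent.FG

open Fermat.Agent.JLevelOne Fermat.Agent.X0Emb Fermat.Agent.ModFun ModularCurve

local notation "𝕢" => Function.Periodic.qParam

/-! ### Laurent expansions -/

theorem norm_qParam' (h : ℝ) (τ : ℍ) : ‖𝕢 h (τ : ℂ)‖ = Real.exp (-2 * Real.pi * τ.im / h) :=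
  Function.Periodic.norm_qParam h τ

theorem mdiff_qParam_zpow (h : ℝ) (m : ℤ) : MDiff (fun τ : ℍ => 𝕢 h (τ : ℂ) ^ m) := by
  rw [UpperHalfPlane.mdifferentiable_iff]
  have : DifferentiableOn ℂ (fun z : ℂ ↦ 𝕢 h z ^ m) upperHalfPlaneSet := by
    intro z hz
    refine DifferentiableAt.differentiableWithinAt ?_
    refine DifferentiableAt.zpow ?_ (Or.inl (qParam_ne h z))
    unfold Function.Periodic.qParam
    fun_prop
  refine this.congr fun z hz ↦ ?_
  simp [ofComplex_apply_of_im_pos hz]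

theorem periodic_of_vadd {f : ℍ → ℂ} {c : ℝ} (h : ∀ τ : ℍ, f (c +ᵥ τ) = f τ) :
    Function.Periodic (f ∘ ofComplex) (c : ℂ) := by
  intro z
  by_cases hz : 0 < z.im
  · have hz' : 0 < (z + c).im := by simpa using hz
    simp only [Function.comp_apply, ofComplex_apply_of_im_pos hz, ofComplex_apply_of_im_pos hz']
    rw [← h ⟨z, hz⟩]
    congr 1
    ext1
    simp [add_comm]
  · have hz' : ¬ 0 < (z + c).im := by simpa using hz
    rw [not_lt] at hz hz'
    simp only [Function.comp_apply, ofComplex_apply_of_im_nonpos hz,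
      ofComplex_apply_of_im_nonpos hz']

theorem exists_lexp {h : ℕ} [NeZero h] {F : ℍ → ℂ} (hd : MDiff F)
    (hT : ∀ τ : ℍ, F ((h : ℝ) +ᵥ τ) = F τ) (hg : GrowthInf F) :
    ∃ G : LaurentSeries ℂ, LExp h F G := by
  have hh : (0 : ℝ) < h := by exact_mod_cast Nat.pos_of_ne_zero (NeZero.ne h)
  obtain ⟨m, hm⟩ := hg
  obtain ⟨M, hM⟩ := exists_nat_ge ((m : ℝ) * h / (2 * Real.pi))
  set F1 : ℍ → ℂ := fun τ => F τ * 𝕢 h (τ : ℂ) ^ (M : ℤ) with hF1
  have hd1 : MDiff F1 := hd.mul (mdiff_qParam_zpow h M)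
  have hT1 : ∀ τ : ℍ, F1 ((h : ℝ) +ᵥ τ) = F1 τ := by
    intro τ
    simp only [hF1, hT]
    congr 2
    rw [coe_vadd, Function.Periodic.qParam, Function.Periodic.qParam]
    have hne : (h : ℂ) ≠ 0 := by exact_mod_cast NeZero.ne h
    have h2 : 2 * (Real.pi : ℂ) * Complex.I * (((h : ℝ) : ℂ) + τ) / ((h : ℝ) : ℂ) =
        2 * Real.pi * Complex.I * τ / ((h : ℝ) : ℂ) + 2 * Real.pi * Complex.I := by
      push_cast
      field_simp
      ring
    rw [h2, Complex.exp_add, Complex.exp_two_pi_mul_I, mul_one]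
  have hb1 : IsBoundedAtImInfty F1 := by
    have h1 : (fun τ : ℍ => 𝕢 h (τ : ℂ) ^ (M : ℤ)) =O[atImInfty]
        (fun τ : ℍ => Real.exp (-(m : ℝ) * τ.im)) := by
      refine IsBigO.of_norm_le fun τ => ?_
      rw [norm_zpow, norm_qParam', zpow_natCast, ← Real.exp_nat_mul]
      refine Real.exp_le_exp.mpr ?_
      have h2 : (m : ℝ) ≤ M * (2 * Real.pi) / h := by
        rw [div_le_iff₀ (by positivity)] at hM
        rw [le_div_iff₀ hh]
        exact hM
      have h3 := mul_le_mul_of_nonneg_right h2 τ.im_pos.le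
      calc (M : ℝ) * (-2 * Real.pi * τ.im / h) = -(M * (2 * Real.pi) / h * τ.im) := by ring
        _ ≤ -(m * τ.im) := neg_le_neg h3
        _ = -(m : ℝ) * τ.im := by ring
    refine (hm.mul h1).trans (IsBigO.of_norm_le fun τ => ?_)
    rw [← Real.exp_add]
    simp
  set P := qExpansion h F1
  have h2 : LExp h F1 (HahnSeries.ofPowerSeries ℤ ℂ P) := by
    refine LExp.of_hasSum fun τ ↦ ?_
    have := UpperHalfPlane.hasSum_qExpansion (h := h) hh (by simpa using periodic_of_vadd hT1)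
      hd1 hb1 τ
    simpa using this
  have h3 := (LExp.single (h : ℝ) (-(M : ℤ)) 1).mul h2
  refine ⟨HahnSeries.single (-(M : ℤ)) 1 * HahnSeries.ofPowerSeries ℤ ℂ P, ?_⟩
  convert! h3 using 1
  funext τ
  simp only [Pi.mul_apply, hF1, one_mul, zpow_neg]
  rw [mul_left_comm, inv_mul_cancel₀ (zpow_ne_zero _ (qParam_ne _ _)), mul_one]

theorem _root_.Fermat.Agent.X0Emb.LExp.expand {h : ℝ} (hh : h ≠ 0) {f : ℍ → ℂ}
    {G : LaurentSeries ℂ} (hf : LExp h f G) (e : ℕ) [NeZero e] :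
    LExp (e * h) f (qExpand ℂ e G) := by
  intro τ
  have h1 := hf τ
  have hinj : Function.Injective (fun n : ℤ ↦ (e : ℤ) * n) :=
    mul_right_injective₀ (by exact_mod_cast NeZero.ne e)
  have he : (e : ℂ) ≠ 0 := by exact_mod_cast NeZero.ne e
  have hhc : (h : ℂ) ≠ 0 := by exact_mod_cast hh
  have hq : 𝕢 h (τ : ℂ) = 𝕢 (e * h) (τ : ℂ) ^ (e : ℤ) := by
    rw [zpow_natCast, Function.Periodic.qParam, Function.Periodic.qParam, ← Complex.exp_nat_mul]
    congr 1
    push_cast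
    field_simp
  rw [← hinj.hasSum_iff]
  · convert! h1 using 2 with n
    simp only [Function.comp, qExpand_coeff_mul]
    rw [hq, ← zpow_mul]
  · intro n hn
    rw [qExpand_coeff_of_not_dvd, zero_mul]
    rintro ⟨m, rfl⟩
    exact hn ⟨m, rfl⟩

theorem coeffMap_qExpand' {R S : Type*} [CommRing R] [CommRing S] (f : R →+* S) (n : ℕ)
    [NeZero n] (x : LaurentSeries R) :
    coeffMap f (qExpand R n x) = qExpand S n (coeffMap f x) := by
  ext k
  rw [coeffMap_coeff]
  by_cases hk : (n : ℤ) ∣ k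
  · obtain ⟨m, rfl⟩ := hk
    rw [qExpand_coeff_mul, qExpand_coeff_mul, coeffMap_coeff]
  · rw [qExpand_coeff_of_not_dvd _ _ hk, qExpand_coeff_of_not_dvd _ _ hk, map_zero]

theorem coeffMap_injective {K L : Type*} [Field K] [Field L] (ι : K →+* L) :
    Function.Injective (coeffMap ι : LaurentSeries K →+* LaurentSeries L) :=
  (coeffMap ι).injective

/-! ### Modular functions with coefficients in `K` -/

variable {K : Type*} [Field K] (ι : K →+* ℂ)

/-- `F` is a modular function on `Γ`, holomorphic on `ℍ`, with Laurent expansion `y` (with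
coefficients in `K`) in the parameter `exp (2πiτ/h)`. -/
structure IsMF (Γ : Subgroup SL(2, ℤ)) (h : ℕ) (F : ℍ → ℂ) (y : LaurentSeries K) : Prop where
  mdiff : MDiff F
  inv : ∀ γ ∈ Γ, ∀ τ : ℍ, F (γ • τ) = F τ
  growth : ModGrowth F
  lexp : LExp h F (coeffMap ι y)

variable {ι} {Γ Γ' : Subgroup SL(2, ℤ)} {h : ℕ} {F G : ℍ → ℂ} {x y : LaurentSeries K}

namespace IsMF

theorem add (hF : IsMF ι Γ h F x) (hG : IsMF ι Γ h G y) : IsMF ι Γ h (F + G) (x + y) where
  mdiff := hF.mdiff.add hG.mdiff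
  inv γ hγ τ := by simp only [Pi.add_apply, hF.inv γ hγ, hG.inv γ hγ]
  growth := hF.growth.add hG.growth
  lexp := by rw [map_add]; exact hF.lexp.add hG.lexp

theorem neg (hF : IsMF ι Γ h F x) : IsMF ι Γ h (-F) (-x) where
  mdiff := hF.mdiff.neg
  inv γ hγ τ := by simp only [Pi.neg_apply, hF.inv γ hγ]
  growth := hF.growth.neg
  lexp := by rw [map_neg]; exact hF.lexp.neg

theorem sub (hF : IsMF ι Γ h F x) (hG : IsMF ι Γ h G y) : IsMF ι Γ h (F - G) (x - y) := by
  rw [sub_eq_add_neg, sub_eq_add_neg]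
  exact hF.add hG.neg

theorem mul (hF : IsMF ι Γ h F x) (hG : IsMF ι Γ h G y) : IsMF ι Γ h (F * G) (x * y) where
  mdiff := hF.mdiff.mul hG.mdiff
  inv γ hγ τ := by simp only [Pi.mul_apply, hF.inv γ hγ, hG.inv γ hγ]
  growth := hF.growth.mul hG.growth
  lexp := by rw [map_mul]; exact hF.lexp.mul hG.lexp

theorem const (Γ : Subgroup SL(2, ℤ)) (h : ℕ) (c : K) :
    IsMF ι Γ h (fun _ => ι c) (algebraMap K (LaurentSeries K) c) where
  mdiff := mdifferentiable_const
  inv _ _ _ := rfl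
  growth := ModGrowth.const _
  lexp := by
    rw [algebraMap_laurentSeries_eq_single, coeffMap_single]
    have := LExp.single (h : ℝ) 0 (ι c)
    simpa using this

theorem zero (Γ : Subgroup SL(2, ℤ)) (h : ℕ) : IsMF ι Γ h 0 (0 : LaurentSeries K) := by
  have := const (ι := ι) Γ h 0
  rwa [map_zero, map_zero] at this

theorem one (Γ : Subgroup SL(2, ℤ)) (h : ℕ) : IsMF ι Γ h 1 (1 : LaurentSeries K) := by
  have := const (ι := ι) Γ h 1
  rwa [map_one, map_one] at this

theorem smul (c : K) (hF : IsMF ι Γ h F x) :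
    IsMF ι Γ h (ι c • F) (algebraMap K (LaurentSeries K) c * x) :=
  (const (ι := ι) Γ h c).mul hF

theorem pow (hF : IsMF ι Γ h F x) (n : ℕ) : IsMF ι Γ h (F ^ n) (x ^ n) := by
  induction n with
  | zero => simpa only [pow_zero] using one Γ h
  | succ n ih => rw [pow_succ, pow_succ]; exact ih.mul hF

theorem sum {α : Type*} (s : Finset α) {F : α → ℍ → ℂ} {x : α → LaurentSeries K}
    (hF : ∀ i ∈ s, IsMF ι Γ h (F i) (x i)) : IsMF ι Γ h (∑ i ∈ s, F i) (∑ i ∈ s, x i) := by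
  classical
  induction s using Finset.induction_on with
  | empty => simpa only [Finset.sum_empty] using zero Γ h
  | insert a s ha ih =>
    rw [Finset.sum_insert ha, Finset.sum_insert ha]
    exact (hF a (Finset.mem_insert_self _ _)).add (ih fun i hi => hF i (Finset.mem_insert_of_mem hi))

theorem prod {α : Type*} (s : Finset α) {F : α → ℍ → ℂ} {x : α → LaurentSeries K}
    (hF : ∀ i ∈ s, IsMF ι Γ h (F i) (x i)) : IsMF ι Γ h (∏ i ∈ s, F i) (∏ i ∈ s, x i) := by
  classical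
  induction s using Finset.induction_on with
  | empty => simpa only [Finset.prod_empty] using one Γ h
  | insert a s ha ih =>
    rw [Finset.prod_insert ha, Finset.prod_insert ha]
    exact (hF a (Finset.mem_insert_self _ _)).mul (ih fun i hi => hF i (Finset.mem_insert_of_mem hi))

theorem mono (hΓ : Γ' ≤ Γ) (hF : IsMF ι Γ h F x) : IsMF ι Γ' h F x :=
  ⟨hF.mdiff, fun γ hγ => hF.inv γ (hΓ hγ), hF.growth, hF.lexp⟩

theorem congr_fun {F' : ℍ → ℂ} (hF : IsMF ι Γ h F x) (e : F = F') : IsMF ι Γ h F' x := e ▸ hF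

/-- Uniqueness of the expansion. -/
theorem unique [NeZero h] (h1 : IsMF ι Γ h F x) (h2 : IsMF ι Γ' h F y) : x = y := by
  have hh : (0 : ℝ) < h := by exact_mod_cast Nat.pos_of_ne_zero (NeZero.ne h)
  exact coeffMap_injective ι (h1.lexp.unique hh h2.lexp)

/-- Uniqueness of the function. -/
theorem funext' (h1 : IsMF ι Γ h F x) (h2 : IsMF ι Γ' h G x) : F = G :=
  h1.lexp.funext h2.lexp

theorem eq_zero_iff [NeZero h] (hF : IsMF ι Γ h F x) : F = 0 ↔ x = 0 := by
  constructor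
  · rintro rfl
    exact hF.unique (zero Γ h)
  · rintro rfl
    exact hF.funext' (zero Γ h)

/-- Change of the width. -/
theorem expand [NeZero h] (hF : IsMF ι Γ h F x) (e : ℕ) [NeZero e] :
    IsMF ι Γ (e * h) F (qExpand K e x) where
  mdiff := hF.mdiff
  inv := hF.inv
  growth := hF.growth
  lexp := by
    rw [coeffMap_qExpand']
    have := hF.lexp.expand (by exact_mod_cast NeZero.ne h) e
    simpa using! this

/-- The function is constant on the group generated by `Γ` and `-1`. -/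
theorem inv_neg (hF : IsMF ι Γ h F x) {γ : SL(2, ℤ)} (hγ : -γ ∈ Γ) (τ : ℍ) :
    F (γ • τ) = F τ := by
  rw [← hF.inv _ hγ τ, ModularGroup.SL_neg_smul]

end IsMF

/-! ### The algebra and the field of modular functions -/

variable (ι)

/-- The algebra of Laurent expansions (with coefficients in `K`) of modular functions on `Γ`,
holomorphic on `ℍ`. -/
def AG (Γ : Subgroup SL(2, ℤ)) (h : ℕ) : Subalgebra K (LaurentSeries K) where
  carrier := {y | ∃ F : ℍ → ℂ, IsMF ι Γ h F y}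
  mul_mem' := by
    rintro a b ⟨F, hF⟩ ⟨G, hG⟩
    exact ⟨F * G, hF.mul hG⟩
  add_mem' := by
    rintro a b ⟨F, hF⟩ ⟨G, hG⟩
    exact ⟨F + G, hF.add hG⟩
  algebraMap_mem' c := ⟨_, IsMF.const Γ h c⟩

/-- The field of modular functions on `Γ` with coefficients in `K`. -/
def FG (Γ : Subgroup SL(2, ℤ)) (h : ℕ) : IntermediateField K (LaurentSeries K) :=
  IntermediateField.adjoin K (AG ι Γ h : Set (LaurentSeries K))

variable {ι}

theorem mem_AG : y ∈ AG ι Γ h ↔ ∃ F : ℍ → ℂ, IsMF ι Γ h F y := Iff.rfl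

theorem AG_le_FG : (AG ι Γ h : Set (LaurentSeries K)) ⊆ FG ι Γ h :=
  IntermediateField.subset_adjoin _ _

theorem IsMF.mem_AG (hF : IsMF ι Γ h F x) : x ∈ AG ι Γ h := ⟨F, hF⟩

theorem IsMF.mem_FG (hF : IsMF ι Γ h F x) : x ∈ FG ι Γ h := AG_le_FG ⟨F, hF⟩

theorem mem_FG_iff : x ∈ FG ι Γ h ↔ ∃ a ∈ AG ι Γ h, ∃ b ∈ AG ι Γ h, b ≠ 0 ∧ x = a / b := by
  rw [FG, IntermediateField.mem_adjoin_iff_div, Algebra.adjoin_eq]
  constructor
  · rintro ⟨r, hr, s, hs, rfl⟩
    by_cases h0 : s = 0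
    · exact ⟨0, zero_mem _, 1, one_mem _, one_ne_zero, by simp [h0]⟩
    · exact ⟨r, hr, s, hs, h0, rfl⟩
  · rintro ⟨r, hr, s, hs, -, rfl⟩
    exact ⟨r, hr, s, hs, rfl⟩

theorem AG_mono (hΓ : Γ' ≤ Γ) : AG ι Γ h ≤ AG ι Γ' h := fun _ ⟨F, hF⟩ => ⟨F, hF.mono hΓ⟩

theorem FG_mono (hΓ : Γ' ≤ Γ) : FG ι Γ h ≤ FG ι Γ' h :=
  IntermediateField.adjoin.mono _ _ _ (AG_mono hΓ)

/-- The expansion of `j` at width `h`. -/
def jE (K : Type*) [Field K] (h : ℕ) [NeZero h] : LaurentSeries K := qExpand K h (jqModC K)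

theorem growthInf_jFun : GrowthInf jFun := LExp_growthInf one_pos lexp_jFun

theorem modGrowth_jFun : ModGrowth jFun := by
  intro σ
  have : (fun τ : ℍ => jFun (σ • τ)) = jFun := funext fun τ => jFun_smul σ τ
  rw [this]
  exact growthInf_jFun

theorem isMF_j (Γ : Subgroup SL(2, ℤ)) (h : ℕ) [NeZero h] : IsMF ι Γ h jFun (jE K h) where
  mdiff := jFun_mdiff
  inv γ _ τ := jFun_smul γ τ
  growth := modGrowth_jFun
  lexp := by
    have h1 : coeffMap ι (jqModC K) = jqModC ℂ := map_jqModC ι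
    rw [jE, coeffMap_qExpand', h1]
    have := lexp_jFun.expand one_ne_zero h
    simpa using! this

theorem jE_mem_AG (Γ : Subgroup SL(2, ℤ)) (h : ℕ) [NeZero h] : jE K h ∈ AG ι Γ h :=
  (isMF_j Γ h).mem_AG

theorem jE_mem_FG (Γ : Subgroup SL(2, ℤ)) (h : ℕ) [NeZero h] : jE K h ∈ FG ι Γ h :=
  (isMF_j Γ h).mem_FG

theorem qExpand_jE (e h : ℕ) [NeZero e] [NeZero h] : qExpand K e (jE K h) = jE K (e * h) := by
  rw [jE, jE, qExpand_qExpand]

end Fermat.Agent.FG
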