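import Mathlib
import Fermat.Agent.FG.Basic

/-!
# Algebraicity of modular functions and of their coefficients
-/

set_option autoImplicit false
set_option linter.dupNamespace false

open UpperHalfPlane hiding I
open ModularForm Matrix.SpecialLinearGroup Filter Asymptotics
open scoped MatrixGroups Manifold ModularForm Topology

noncomputable section

namespace Fermat.Agent.FG

open Fermat.Agent.JLevelOne Fermat.Agent.X0Emb Fermat.Agent.ModFun ModularCurve

/-! ### Coefficients of algebraic Laurent series -/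

theorem eq_single_mul_ofPowerSeries {K : Type*} [Field K] {m : ℤ} {x : LaurentSeries K}
    (hx : ∀ n < m, x.coeff n = 0) :
    x = HahnSeries.single m 1 *
      HahnSeries.ofPowerSeries ℤ K (PowerSeries.mk fun k => x.coeff (m + k)) := by
  ext n
  have h1 : n = n - m + m := by ring
  rw [h1, HahnSeries.coeff_single_mul_add, one_mul]
  rcases le_or_gt 0 (n - m) with hk | hk
  · obtain ⟨k, hk⟩ := Int.eq_ofNat_of_zero_le hk
    rw [hk, HahnSeries.ofPowerSeries_apply_coeff, PowerSeries.coeff_mk]
    congr 1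
    ring
  · rw [ofPowerSeries_coeff_of_neg _ hk, hx _ (by omega)]

/-- Reduction of an algebraic equation modulo `t`. -/
theorem exists_reduced_equation {K L : Type*} [Field K] [Field L] (ι : K →+* L)
    {Q : Polynomial (LaurentSeries K)} (hQ : Q ≠ 0) {w : LaurentSeries L}
    (hw : ∀ n < 0, w.coeff n = 0) (h : Q.eval₂ (coeffMap ι) w = 0) :
    ∃ R : Polynomial K, R ≠ 0 ∧ R.eval₂ ι (w.coeff 0) = 0 := by
  classical
  -- the minimal order of the coefficients
  obtain ⟨i0, hi0, hmin⟩ := Finset.exists_min_image Q.support (fun i => (Q.coeff i).order)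
    (Polynomial.support_nonempty.mpr hQ)
  set m : ℤ := (Q.coeff i0).order with hm
  have hc0 : (Q.coeff i0).coeff m ≠ 0 := by
    rw [hm]
    intro h0
    exact Polynomial.mem_support_iff.mp hi0 (HahnSeries.coeff_order_eq_zero.mp h0)
  have hlt : ∀ i, ∀ n < m, (Q.coeff i).coeff n = 0 := by
    intro i n hn
    by_cases hi : i ∈ Q.support
    · exact HahnSeries.coeff_eq_zero_of_lt_order (lt_of_lt_of_le hn (hmin i hi))
    · rw [Polynomial.notMem_support_iff.mp hi, HahnSeries.coeff_zero]
  set q : ℕ → PowerSeries K := fun i => PowerSeries.mk fun k => (Q.coeff i).coeff (m + k) with hq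
  have hQi : ∀ i, Q.coeff i = HahnSeries.single m 1 * HahnSeries.ofPowerSeries ℤ K (q i) :=
    fun i => eq_single_mul_ofPowerSeries (hlt i)
  set W : PowerSeries L := PowerSeries.mk fun k => w.coeff (0 + k) with hW
  have hwW : w = HahnSeries.ofPowerSeries ℤ L W := by
    have := eq_single_mul_ofPowerSeries hw
    rwa [HahnSeries.single_zero_one, one_mul] at this
  refine ⟨∑ i ∈ Q.support, Polynomial.monomial i ((Q.coeff i).coeff m), ?_, ?_⟩
  · intro h0
    have h1 := congrArg (fun R => Polynomial.coeff R i0) h0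
    simp only [Polynomial.finsetSum_coeff, Polynomial.coeff_monomial, Polynomial.coeff_zero] at h1
    rw [Finset.sum_ite_eq' , if_pos hi0] at h1
    exact hc0 h1
  · -- the power series identity
    have h1 : ∑ i ∈ Q.support, (q i).map ι * W ^ i = 0 := by
      have h2 : HahnSeries.ofPowerSeries ℤ L (∑ i ∈ Q.support, (q i).map ι * W ^ i) = 0 := by
        have h3 : (HahnSeries.single m (1 : L)) *
            HahnSeries.ofPowerSeries ℤ L (∑ i ∈ Q.support, (q i).map ι * W ^ i) = 0 := by
          rw [← h, Polynomial.eval₂_eq_sum, Polynomial.sum_def, map_sum, Finset.mul_sum]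
          refine Finset.sum_congr rfl fun i _ => ?_
          rw [map_mul, map_pow, ← hwW, ← mul_assoc]
          congr 1
          rw [hQi i, map_mul, coeffMap_single, show ι 1 = 1 from map_one ι]
          congr 1
          exact (X0Emb.coeffMap_ofPowerSeries ι (q i)).symm
        have h4 : (HahnSeries.single m (1 : L)) ≠ 0 := HahnSeries.single_ne_zero one_ne_zero
        exact (mul_eq_zero.mp h3).resolve_left h4
      exact HahnSeries.ofPowerSeries_injective (by rw [h2, map_zero])
    have h5 := congrArg (PowerSeries.constantCoeff (R := L)) h1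
    rw [map_sum, map_zero] at h5
    rw [Polynomial.eval₂_finsetSum, ← h5]
    refine Finset.sum_congr rfl fun i _ => ?_
    rw [Polynomial.eval₂_monomial, map_mul, map_pow]
    congr 1
    rw [← PowerSeries.coeff_zero_eq_constantCoeff_apply, PowerSeries.coeff_map]
    simp [hq]

theorem mem_range_of_algebraic {K L : Type*} [Field K] [IsAlgClosed K] [Field L] (ι : K →+* L)
    {x : L} {R : Polynomial K} (hR : R ≠ 0) (h : R.eval₂ ι x = 0) : x ∈ ι.range := by
  let := ι.toAlgebra
  have hx : IsAlgebraic K x := ⟨R, hR, h⟩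
  have h1 := IsAlgClosed.degree_eq_one_of_irreducible K (minpoly.irreducible hx.isIntegral)
  exact minpoly.mem_range_of_degree_eq_one K x h1

/-- A Laurent series over `L ⊇ K` which is algebraic over `K((t))` has coefficients in `K` if `K`
is algebraically closed. -/
theorem exists_coeffMap_eq {K L : Type*} [Field K] [IsAlgClosed K] [Field L] (ι : K →+* L)
    (G : LaurentSeries L) {P : Polynomial (LaurentSeries K)} (hP : P ≠ 0)
    (h : P.eval₂ (coeffMap ι) G = 0) : ∃ G0 : LaurentSeries K, coeffMap ι G0 = G := by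
  classical
  by_cases hall : ∀ n, G.coeff n ∈ ι.range
  · choose c hc using hall
    refine ⟨⟨c, G.isPWO_support.mono fun n hn => ?_⟩, ?_⟩
    · rw [HahnSeries.mem_support, ← hc n]
      exact fun h0 => hn ((map_eq_zero ι).mp h0)
    · ext n
      rw [coeffMap_coeff]
      exact hc n
  · exfalso
    push Not at hall
    obtain ⟨n1, hn1⟩ := hall
    set S : Set ℤ := {n | G.coeff n ∉ ι.range} with hS
    have hSsub : S ⊆ G.support := fun n hn h0 => hn (by
      rw [show G.coeff n = 0 from h0]; exact zero_mem _)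
    have hPWO : S.IsPWO := G.isPWO_support.mono hSsub
    obtain ⟨n, hnS, hnmin⟩ : ∃ n ∈ S, ∀ m ∈ S, n ≤ m := by
      have hne : S.Nonempty := ⟨n1, hn1⟩
      refine ⟨hPWO.isWF.min hne, hPWO.isWF.min_mem hne, fun m hm => ?_⟩
      exact hPWO.isWF.min_le hne hm
    have hlt : ∀ k, k < n → G.coeff k ∈ ι.range := by
      intro k hk
      by_contra hk'
      exact absurd (hnmin k hk') (not_le.mpr hk)
    choose! c hc using hlt
    -- the truncation
    let a : LaurentSeries K :=
      { coeff := fun k => if k < n then c k else 0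
        isPWO_support' := G.isPWO_support.mono fun k hk => by
          rw [HahnSeries.mem_support]
          rw [Function.mem_support] at hk
          by_cases hkn : k < n
          · rw [if_pos hkn] at hk
            rw [← hc k hkn]
            exact fun h0 => hk ((map_eq_zero ι).mp h0)
          · rw [if_neg hkn] at hk
            exact absurd rfl hk }
    have ha : ∀ k, a.coeff k = if k < n then c k else 0 := fun k => rfl
    set w : LaurentSeries L := HahnSeries.single (-n) 1 * (G - coeffMap ι a) with hw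
    have hwc : ∀ k, w.coeff k = (G - coeffMap ι a).coeff (k + n) := by
      intro k
      have : k = (k + n) + (-n) := by ring
      conv_lhs => rw [this]
      rw [hw, HahnSeries.coeff_single_mul_add, one_mul]
    have hw0 : ∀ k < 0, w.coeff k = 0 := by
      intro k hk
      have hkn : k + n < n := by omega
      rw [hwc, HahnSeries.coeff_sub, coeffMap_coeff, ha, if_pos hkn, hc _ hkn, sub_self]
    have hG : G = coeffMap ι a + coeffMap ι (HahnSeries.single n 1) * w := by
      rw [coeffMap_single, map_one, hw, ← mul_assoc, HahnSeries.single_mul_single]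
      simp
    set Q : Polynomial (LaurentSeries K) :=
      P.comp (Polynomial.C (HahnSeries.single n 1) * Polynomial.X + Polynomial.C a) with hQ
    have hsn : (HahnSeries.single n (1 : K)) ≠ 0 := HahnSeries.single_ne_zero one_ne_zero
    have hQ0 : Q ≠ 0 := by
      rw [hQ]
      intro h0
      rw [Polynomial.comp_eq_zero_iff] at h0
      rcases h0 with h0 | ⟨-, h0⟩
      · exact hP h0
      · have h1 := congrArg (fun R => Polynomial.coeff R 1) h0
        simp [Polynomial.coeff_C] at h1
    have hQw : Q.eval₂ (coeffMap ι) w = 0 := by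
      rw [hQ, Polynomial.eval₂_comp]
      simp only [Polynomial.eval₂_add, Polynomial.eval₂_mul, Polynomial.eval₂_C,
        Polynomial.eval₂_X]
      rw [add_comm, ← hG]
      exact h
    obtain ⟨R, hR, hRw⟩ := exists_reduced_equation ι hQ0 hw0 hQw
    have h1 := mem_range_of_algebraic ι hR hRw
    rw [hwc, zero_add, HahnSeries.coeff_sub, coeffMap_coeff, ha, if_neg (lt_irrefl n),
      map_zero, sub_zero] at h1
    exact hnS h1

/-! ### Descent of linear relations -/

theorem exists_descent_sum {K L : Type*} [Field K] [Field L] (ι : K →+* L) {α : Type*}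
    (s : Finset α) (v : α → LaurentSeries K) (c : α → L) (v0 : LaurentSeries K)
    (h : ∑ a ∈ s, coeffMap ι (v a) * HahnSeries.C (c a) + coeffMap ι v0 = 0) :
    ∃ c' : α → K, ∑ a ∈ s, v a * HahnSeries.C (c' a) + v0 = 0 := by
  classical
  let := ι.toAlgebra
  obtain ⟨π, hπ⟩ : ∃ π : L →ₗ[K] K, π 1 ≠ 0 := by
    by_contra h0
    push Not at h0
    exact one_ne_zero ((Module.forall_dual_apply_eq_zero_iff K (1 : L)).mp h0)
  have hC : ∀ c : L, mapFun π (HahnSeries.C c) = HahnSeries.C (π c) := by
    intro c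
    ext n
    rw [mapFun_coeff]
    by_cases hn : n = 0
    · subst hn; simp
    · simp [HahnSeries.coeff_single_of_ne hn, hn]
  have hsum : ∀ (t : Finset α) (f : α → LaurentSeries L), mapFun π (∑ a ∈ t, f a) =
      ∑ a ∈ t, mapFun π (f a) := by
    intro t f
    induction t using Finset.induction_on with
    | empty => ext n; simp
    | insert a t ha ih => rw [Finset.sum_insert ha, Finset.sum_insert ha, mapFun_add, ih]
  have h1 := congrArg (mapFun π) h
  have h2 : coeffMap ι v0 = coeffMap (algebraMap K L) v0 * HahnSeries.C 1 := by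
    rw [map_one, mul_one]; rfl
  rw [mapFun_add, hsum, h2, mapFun_mul, hC] at h1
  have h3 : mapFun π (0 : LaurentSeries L) = 0 := by ext n; simp
  rw [h3] at h1
  refine ⟨fun a => (π 1)⁻¹ * π (c a), ?_⟩
  have h4 : ∑ a ∈ s, v a * HahnSeries.C ((π 1)⁻¹ * π (c a)) + v0 =
      HahnSeries.C (π 1)⁻¹ * (∑ a ∈ s, mapFun π (coeffMap ι (v a) * HahnSeries.C (c a)) +
        v0 * HahnSeries.C (π 1)) := by
    have h5 : ∀ a, mapFun π (coeffMap ι (v a) * HahnSeries.C (c a)) =
        v a * HahnSeries.C (π (c a)) := fun a => by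
      rw [← hC]
      exact mapFun_mul π (v a) (HahnSeries.C (c a))
    simp only [h5]
    rw [mul_add, Finset.mul_sum]
    congr 1
    · refine Finset.sum_congr rfl fun a _ => ?_
      rw [map_mul]; ring
    · rw [mul_comm v0, ← mul_assoc, ← map_mul, inv_mul_cancel₀ hπ, map_one, one_mul]
  rw [h4, h1, mul_zero]

/-! ### Algebraicity of modular functions -/

variable {K : Type*} [Field K] {ι : K →+* ℂ} {Γ : Subgroup SL(2, ℤ)} {h : ℕ} {F : ℍ → ℂ}
  {y : LaurentSeries K}

theorem IsMF.isModFun (hF : IsMF ι Γ h F y) : IsModFun Γ F where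
  inv := hF.inv
  conj γ := hF.growth.mem_polInf hF.mdiff γ

open Classical in
/-- The characteristic polynomial of a modular function. -/
def chi [Γ.FiniteIndex] (hu : IsModFun Γ F) : Polynomial polInf :=
  ∏ q : SL(2, ℤ) ⧸ Γ, (Polynomial.X - Polynomial.C (conjF hu q))

theorem chi_monic [Γ.FiniteIndex] (hu : IsModFun Γ F) : (chi hu).Monic :=
  Polynomial.monic_prod_of_monic _ _ fun _ _ => Polynomial.monic_X_sub_C _

theorem chi_natDegree [Γ.FiniteIndex] (hu : IsModFun Γ F) :
    (chi hu).natDegree = Nat.card (SL(2, ℤ) ⧸ Γ) := by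
  classical
  rw [chi, Polynomial.natDegree_finsetProd_X_sub_C_eq_card, Finset.card_univ,
    Nat.card_eq_fintype_card]

theorem chi_smul [Γ.FiniteIndex] (hu : IsModFun Γ F) (γ : SL(2, ℤ)) (τ : ℍ) :
    (chi hu).map (evP (γ • τ)) = (chi hu).map (evP τ) := by
  classical
  simp only [chi, Polynomial.map_prod, Polynomial.map_sub, Polynomial.map_X, Polynomial.map_C,
    evP_apply, conjF_smul]
  exact Equiv.prod_comp (MulAction.toPerm (γ⁻¹) : Equiv.Perm (SL(2, ℤ) ⧸ Γ))
    (fun q => Polynomial.X - Polynomial.C ((conjF hu q : ℍ → ℂ) τ))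

theorem chi_eval [Γ.FiniteIndex] (hu : IsModFun Γ F) (τ : ℍ) :
    ((chi hu).map (evP τ)).eval (F τ) = 0 := by
  classical
  rw [chi, Polynomial.map_prod, Polynomial.eval_prod]
  refine Finset.prod_eq_zero (Finset.mem_univ ((1 : SL(2, ℤ)) : SL(2, ℤ) ⧸ Γ)) ?_
  rw [Polynomial.map_sub, Polynomial.map_X, Polynomial.map_C, Polynomial.eval_sub,
    Polynomial.eval_X, Polynomial.eval_C, evP_apply, conjF_one, sub_self]

/-- The coefficients of the characteristic polynomial are polynomials in `j`. -/
theorem exists_chi_coeff [Γ.FiniteIndex] (hu : IsModFun Γ F) :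
    ∃ P : ℕ → Polynomial ℂ, ∀ i τ, ((chi hu).coeff i : ℍ → ℂ) τ = (P i).eval (jFun τ) := by
  have h1 : ∀ i : ℕ, ∃ P : Polynomial ℂ, ∀ τ, ((chi hu).coeff i : ℍ → ℂ) τ =
      P.eval (jFun τ) := by
    intro i
    refine exists_polynomial _ fun γ τ => ?_
    have h := congrArg (fun P => Polynomial.coeff P i) (chi_smul hu γ τ)
    simpa only [Polynomial.coeff_map, evP_apply] using h
  choose P hP using h1
  exact ⟨P, hP⟩

/-- Evaluation of polynomials at `j(τ)`. -/
def evJ (ι : K →+* ℂ) (τ : ℍ) : Polynomial K →+* ℂ := Polynomial.eval₂RingHom ι (jFun τ)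

@[simp] theorem evJ_apply (τ : ℍ) (p : Polynomial K) : evJ ι τ p = p.eval₂ ι (jFun τ) := rfl

/-- A polynomial relation between expansions gives one between functions. -/
theorem isMF_eval₂ [NeZero h] (hF : IsMF ι Γ h F y) (P : Polynomial (Polynomial K)) :
    IsMF ι Γ h (fun τ => P.eval₂ (evJ ι τ) (F τ))
      (P.eval₂ (Polynomial.aeval (jE K h) : Polynomial K →ₐ[K] LaurentSeries K).toRingHom y) := by
  have hj : ∀ p : Polynomial K, IsMF ι Γ h (fun τ => evJ ι τ p) (Polynomial.aeval (jE K h) p) := by
    intro p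
    rw [Polynomial.aeval_eq_sum_range]
    have h1 := IsMF.sum (Finset.range (p.natDegree + 1))
      (F := fun i => ι (p.coeff i) • jFun ^ i)
      (x := fun i => algebraMap K (LaurentSeries K) (p.coeff i) * jE K h ^ i)
      (fun i _ => ((isMF_j (ι := ι) Γ h).pow i).smul (p.coeff i))
    simp only [Algebra.smul_def]
    refine h1.congr_fun ?_
    funext τ
    rw [evJ_apply, Polynomial.eval₂_eq_sum_range]
    simp [Finset.sum_apply]
  rw [Polynomial.eval₂_eq_sum_range]
  have h1 := IsMF.sum (Finset.range (P.natDegree + 1))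
    (F := fun i => (fun τ => evJ ι τ (P.coeff i)) * F ^ i)
    (x := fun i => Polynomial.aeval (jE K h) (P.coeff i) * y ^ i)
    (fun i _ => (hj (P.coeff i)).mul (hF.pow i))
  refine h1.congr_fun ?_
  funext τ
  rw [Polynomial.eval₂_eq_sum_range]
  simp [Finset.sum_apply]

/-- Every modular function with coefficients in `K` is integral over `K[j]`, of degree at most the
index. -/
theorem IsMF.exists_monic [NeZero h] [Γ.FiniteIndex] (hF : IsMF ι Γ h F y) :
    ∃ P : Polynomial (Polynomial K), P.Monic ∧ P.natDegree = Nat.card (SL(2, ℤ) ⧸ Γ) ∧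
      P.eval₂ (Polynomial.aeval (jE K h) : Polynomial K →ₐ[K] LaurentSeries K).toRingHom y = 0 ∧
      ∀ τ, P.eval₂ (evJ ι τ) (F τ) = 0 := by
  classical
  set d := Nat.card (SL(2, ℤ) ⧸ Γ) with hd
  obtain ⟨P, hP⟩ := exists_chi_coeff hF.isModFun
  -- the complex relation
  set N := (Finset.range d).sup (fun i => (P i).natDegree) + 1 with hN
  have hrel : ∀ τ, ∑ p ∈ Finset.range d ×ˢ Finset.range N,
      (P p.1).coeff p.2 * (jFun τ ^ p.2 * F τ ^ p.1) + F τ ^ d = 0 := by
    intro τ
    have h1 := chi_eval hF.isModFun τ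
    rw [Polynomial.eval_eq_sum_range, (chi_monic hF.isModFun).natDegree_map, chi_natDegree, ← hd,
      Finset.sum_range_succ] at h1
    have h2 : ((chi hF.isModFun).map (evP τ)).coeff d = 1 := by
      rw [hd, ← chi_natDegree hF.isModFun, ← (chi_monic hF.isModFun).natDegree_map (evP τ)]
      exact ((chi_monic hF.isModFun).map (evP τ))
    rw [h2, one_mul] at h1
    rw [← h1, Finset.sum_product]
    congr 1
    refine Finset.sum_congr rfl fun i hi => ?_
    rw [Polynomial.coeff_map, evP_apply, hP, Polynomial.eval_eq_sum_range'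
      (n := N) (Nat.lt_succ_of_le (Finset.le_sup (f := fun i => (P i).natDegree) hi)),
      Finset.sum_mul]
    refine Finset.sum_congr rfl fun k _ => ?_
    ring
  -- the relation between Laurent series
  have hh : (0 : ℝ) < h := by exact_mod_cast Nat.pos_of_ne_zero (NeZero.ne h)
  have hterm : ∀ p : ℕ × ℕ, IsMF ι Γ h (jFun ^ p.2 * F ^ p.1) (jE K h ^ p.2 * y ^ p.1) :=
    fun p => ((isMF_j Γ h).pow p.2).mul (hF.pow p.1)
  have hL : LExp h (∑ p ∈ Finset.range d ×ˢ Finset.range N,
      (jFun ^ p.2 * F ^ p.1) * (fun _ => (P p.1).coeff p.2) + F ^ d)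
      (∑ p ∈ Finset.range d ×ˢ Finset.range N, coeffMap ι (jE K h ^ p.2 * y ^ p.1) *
        HahnSeries.C ((P p.1).coeff p.2) + coeffMap ι (y ^ d)) := by
    refine LExp.add ?_ (hF.pow d).lexp
    generalize Finset.range d ×ˢ Finset.range N = s
    induction s using Finset.induction_on with
    | empty => simpa only [Finset.sum_empty] using LExp.zero (h : ℝ)
    | insert a s ha ih =>
      rw [Finset.sum_insert ha, Finset.sum_insert ha]
      exact ((hterm a).lexp.mul (LExp.const _ _)).add ih
  have hzero : (∑ p ∈ Finset.range d ×ˢ Finset.range N,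
      (jFun ^ p.2 * F ^ p.1) * (fun _ => (P p.1).coeff p.2) + F ^ d) = 0 := by
    funext τ
    rw [Pi.zero_apply, ← hrel τ]
    simp only [Pi.add_apply, Finset.sum_apply, Pi.mul_apply, Pi.pow_apply]
    congr 1
    refine Finset.sum_congr rfl fun p _ => ?_
    ring
  rw [hzero] at hL
  obtain ⟨c, hc⟩ := exists_descent_sum ι _ (fun p : ℕ × ℕ => jE K h ^ p.2 * y ^ p.1)
    (fun p => (P p.1).coeff p.2) (y ^ d) (hL.eq_zero hh)
  -- the polynomial over `K`
  set R : Polynomial (Polynomial K) := Polynomial.X ^ d +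
    ∑ i ∈ Finset.range d, Polynomial.C (∑ k ∈ Finset.range N,
      Polynomial.C (c (i, k)) * Polynomial.X ^ k) * Polynomial.X ^ i with hR
  have hdeg : (∑ i ∈ Finset.range d, Polynomial.C (∑ k ∈ Finset.range N,
      Polynomial.C (c (i, k)) * Polynomial.X ^ k) * Polynomial.X ^ i :
      Polynomial (Polynomial K)).degree < d := by
    rw [← Polynomial.mem_degreeLT]
    refine Submodule.sum_mem _ fun i hi => ?_
    rw [Polynomial.mem_degreeLT]
    refine lt_of_le_of_lt (Polynomial.degree_C_mul_X_pow_le _ _) ?_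
    exact_mod_cast Finset.mem_range.mp hi
  have hRy : R.eval₂ (Polynomial.aeval (jE K h) : Polynomial K →ₐ[K] LaurentSeries K).toRingHom y
      = 0 := by
    rw [hR, Polynomial.eval₂_add, Polynomial.eval₂_pow, Polynomial.eval₂_X,
      Polynomial.eval₂_finsetSum, add_comm, ← hc, Finset.sum_product]
    congr 1
    refine Finset.sum_congr rfl fun i _ => ?_
    rw [Polynomial.eval₂_mul, Polynomial.eval₂_C, Polynomial.eval₂_pow, Polynomial.eval₂_X]
    simp only [AlgHom.toRingHom_eq_coe, RingHom.coe_coe, map_sum, map_mul, map_pow,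
      Polynomial.aeval_X, Polynomial.aeval_C, Finset.sum_mul]
    refine Finset.sum_congr rfl fun k _ => ?_
    rw [algebraMap_laurentSeries_eq_single]
    rw [← HahnSeries.C_apply]
    ring
  refine ⟨R, Polynomial.monic_X_pow_add hdeg, ?_, hRy, ?_⟩
  · rw [hR, Polynomial.natDegree_add_eq_left_of_degree_lt (by rwa [Polynomial.degree_X_pow]),
      Polynomial.natDegree_X_pow]
  · have h1 := isMF_eval₂ hF R
    rw [hRy] at h1
    intro τ
    exact congrFun (h1.funext' (IsMF.zero Γ h)) τ

end Fermat.Agent.FG
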