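import Mathlib
import Fermat.Agent.FG.Algebraic
import Fermat.Agent.X0Emb.Hol

/-!
# Conjugation of modular functions by `SL(2, ℤ)`
-/

set_option autoImplicit false
set_option linter.dupNamespace false

open UpperHalfPlane hiding I
open ModularForm Matrix.SpecialLinearGroup Filter Asymptotics
open scoped MatrixGroups Manifold ModularForm Topology

noncomputable section

namespace Fermat.Agent.FG

open Fermat.Agent.JLevelOne Fermat.Agent.X0Emb Fermat.Agent.ModFun ModularCurve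

local notation "𝕢" => Function.Periodic.qParam

/-- The conjugate `γ⁻¹ Γ γ`. -/
def cG (γ : SL(2, ℤ)) (Γ : Subgroup SL(2, ℤ)) : Subgroup SL(2, ℤ) :=
  Γ.comap (MulAut.conj γ).toMonoidHom

theorem mem_cG {γ δ : SL(2, ℤ)} {Γ : Subgroup SL(2, ℤ)} : δ ∈ cG γ Γ ↔ γ * δ * γ⁻¹ ∈ Γ := Iff.rfl

theorem cG_of_mem {γ : SL(2, ℤ)} {Γ : Subgroup SL(2, ℤ)} (hγ : γ ∈ Γ) : cG γ Γ = Γ := by
  ext δ
  rw [mem_cG, Γ.mul_mem_cancel_right (inv_mem hγ), Γ.mul_mem_cancel_left hγ]

theorem cG_of_normal {γ : SL(2, ℤ)} {Γ : Subgroup SL(2, ℤ)} [hΓ : Γ.Normal] : cG γ Γ = Γ := by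
  ext δ
  rw [mem_cG]
  constructor
  · intro h
    have := hΓ.conj_mem _ h γ⁻¹
    simpa [mul_assoc] using this
  · intro h
    exact hΓ.conj_mem _ h γ

theorem cG_one {Γ : Subgroup SL(2, ℤ)} : cG 1 Γ = Γ := cG_of_mem (one_mem _)

theorem cG_cG {γ δ : SL(2, ℤ)} {Γ : Subgroup SL(2, ℤ)} : cG δ (cG γ Γ) = cG (γ * δ) Γ := by
  ext x
  simp only [mem_cG, mul_inv_rev, mul_assoc]

theorem index_cG {γ : SL(2, ℤ)} {Γ : Subgroup SL(2, ℤ)} : (cG γ Γ).index = Γ.index :=
  Subgroup.index_comap_of_surjective _ (MulAut.conj γ).surjective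

instance {γ : SL(2, ℤ)} {Γ : Subgroup SL(2, ℤ)} [Γ.FiniteIndex] : (cG γ Γ).FiniteIndex :=
  ⟨by rw [index_cG]; exact Subgroup.FiniteIndex.index_ne_zero⟩

theorem mem_cG_T_pow {γ : SL(2, ℤ)} {Γ : Subgroup SL(2, ℤ)} {H : ℕ} :
    ModularGroup.T ^ H ∈ cG γ Γ ↔ γ * ModularGroup.T ^ H * γ⁻¹ ∈ Γ := Iff.rfl

variable {K : Type*} [Field K] {ι : K →+* ℂ} {Γ : Subgroup SL(2, ℤ)} {h H : ℕ} {F : ℍ → ℂ}
  {y : LaurentSeries K}

theorem T_pow_smul (H : ℕ) (τ : ℍ) : (ModularGroup.T ^ H) • τ = (H : ℝ) +ᵥ τ := by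
  have := UpperHalfPlane.modular_T_zpow_smul τ (H : ℤ)
  simpa using this

theorem lexp_finset_sum {α : Type*} {H : ℝ} (s : Finset α) {f : α → ℍ → ℂ}
    {g : α → LaurentSeries ℂ} (hf : ∀ i ∈ s, LExp H (f i) (g i)) :
    LExp H (∑ i ∈ s, f i) (∑ i ∈ s, g i) := by
  classical
  induction s using Finset.induction_on with
  | empty => simpa only [Finset.sum_empty] using LExp.zero H
  | insert a s ha ih =>
    rw [Finset.sum_insert ha, Finset.sum_insert ha]
    exact (hf a (Finset.mem_insert_self _ _)).add (ih fun i hi => hf i (Finset.mem_insert_of_mem hi))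

theorem lexp_evJ [NeZero H] (p : Polynomial K) : LExp H (fun τ => evJ ι τ p)
    (coeffMap ι (Polynomial.aeval (jE K H) p)) := by
  have h1 := (isMF_eval₂ (IsMF.one (ι := ι) (⊤ : Subgroup SL(2, ℤ)) H) (Polynomial.C p)).lexp
  simpa using! h1

/-- A polynomial relation evaluated on a complex expansion. -/
theorem lexp_eval₂ [NeZero H] {G : LaurentSeries ℂ} (hF : LExp H F G)
    (P : Polynomial (Polynomial K)) :
    LExp H (fun τ => P.eval₂ (evJ ι τ) (F τ)) (P.eval₂ ((coeffMap ι).comp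
      (Polynomial.aeval (jE K H) : Polynomial K →ₐ[K] LaurentSeries K).toRingHom) G) := by
  rw [Polynomial.eval₂_eq_sum_range]
  have h1 := lexp_finset_sum (Finset.range (P.natDegree + 1))
    (f := fun i => (fun τ => evJ ι τ (P.coeff i)) * F ^ i)
    (g := fun i => coeffMap ι (Polynomial.aeval (jE K H) (P.coeff i)) * G ^ i)
    (fun i _ => (lexp_evJ (P.coeff i)).mul (hF.pow i))
  convert! h1 using 1
  funext τ
  rw [Polynomial.eval₂_eq_sum_range]
  simp [Finset.sum_apply]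

/-- Conjugates of modular functions with coefficients in an algebraically closed field. -/
theorem IsMF.exists_conj [IsAlgClosed K] [Γ.FiniteIndex] [NeZero h] [NeZero H]
    {γ : SL(2, ℤ)} (hH : γ * ModularGroup.T ^ H * γ⁻¹ ∈ Γ) (hF : IsMF ι Γ h F y) :
    ∃ y' : LaurentSeries K, IsMF ι (cG γ Γ) H (fun τ => F (γ • τ)) y' := by
  have hinv : ∀ δ ∈ cG γ Γ, ∀ τ : ℍ, F (γ • δ • τ) = F (γ • τ) := by
    intro δ hδ τ
    rw [← hF.inv _ hδ (γ • τ)]
    congr 1
    simp only [MulEquiv.toMonoidHom_eq_coe, MonoidHom.coe_coe, MulAut.conj_apply, smul_smul]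
    congr 1
    group
  have hmd : MDiff (fun τ => F (γ • τ)) :=
    hF.mdiff.comp (UpperHalfPlane.mdifferentiable_smul (by simp))
  obtain ⟨G, hG⟩ := exists_lexp (h := H) hmd (fun τ => by
    rw [← T_pow_smul]; exact hinv _ hH τ) (hF.growth.smul γ).growthInf
  obtain ⟨P, hPm, -, -, hP⟩ := hF.exists_monic
  have h1 := lexp_eval₂ (ι := ι) hG P
  have h2 : (fun τ => P.eval₂ (evJ ι τ) (F (γ • τ))) = 0 := by
    funext τ
    have := hP (γ • τ)
    rw [evJ, jFun_smul] at this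
    exact this
  rw [h2] at h1
  have hH0 : (0 : ℝ) < H := by exact_mod_cast Nat.pos_of_ne_zero (NeZero.ne H)
  have h3 := h1.eq_zero hH0
  obtain ⟨y', hy'⟩ := exists_coeffMap_eq ι G
    (P := P.map (Polynomial.aeval (jE K H) : Polynomial K →ₐ[K] LaurentSeries K).toRingHom)
    (hPm.map _).ne_zero (by rw [Polynomial.eval₂_map]; exact h3)
  exact ⟨y', hmd, hinv, hF.growth.smul γ, by rw [hy']; exact hG⟩

/-! ### The function attached to an expansion -/

/-- The function attached to an expansion. -/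
def fn (a : AG ι Γ h) : ℍ → ℂ := Classical.choose a.2

theorem fn_spec (a : AG ι Γ h) : IsMF ι Γ h (fn a) (a : LaurentSeries K) :=
  Classical.choose_spec a.2

theorem fn_eq {a : AG ι Γ h} (hF : IsMF ι Γ h F (a : LaurentSeries K)) : fn a = F :=
  (fn_spec a).funext' hF

/-- `AG → Hol`. -/
def hol : AG ι Γ h →+* Hol where
  toFun a := ⟨fn a, (fn_spec a).mdiff⟩
  map_one' := Subtype.ext (fn_eq (a := (1 : AG ι Γ h)) (IsMF.one Γ h))
  map_zero' := Subtype.ext (fn_eq (a := (0 : AG ι Γ h)) (IsMF.zero Γ h))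
  map_mul' a b := Subtype.ext (fn_eq (a := a * b) ((fn_spec a).mul (fn_spec b)))
  map_add' a b := Subtype.ext (fn_eq (a := a + b) ((fn_spec a).add (fn_spec b)))

@[simp] theorem coe_hol (a : AG ι Γ h) : ((hol a : Hol) : ℍ → ℂ) = fn a := rfl

theorem hol_algebraMap (c : K) : hol (algebraMap K (AG ι Γ h) c) = constHol (ι c) :=
  Subtype.ext (fn_eq (a := algebraMap K (AG ι Γ h) c) (IsMF.const Γ h c))

theorem hol_injective [NeZero h] : Function.Injective (hol : AG ι Γ h →+* Hol) := by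
  rw [injective_iff_map_eq_zero]
  intro a ha
  have h1 : fn a = 0 := congrArg Subtype.val ha
  exact Subtype.ext ((fn_spec a).eq_zero_iff.mp h1)

/-- The inclusion of `AG` in `FG`. -/
def inclAG : AG ι Γ h →ₐ[K] FG ι Γ h where
  toFun a := ⟨a, AG_le_FG a.2⟩
  map_one' := rfl
  map_zero' := rfl
  map_mul' := fun _ _ => rfl
  map_add' := fun _ _ => rfl
  commutes' := fun _ => rfl

instance instAlgebraAGFG : Algebra (AG ι Γ h) (FG ι Γ h) :=
  (inclAG (ι := ι) (Γ := Γ) (h := h)).toRingHom.toAlgebra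

@[simp] theorem coe_algebraMap_AG (a : AG ι Γ h) :
    ((algebraMap (AG ι Γ h) (FG ι Γ h) a : FG ι Γ h) : LaurentSeries K) = a := rfl

instance : IsScalarTower K (AG ι Γ h) (FG ι Γ h) := IsScalarTower.of_algebraMap_eq fun _ => rfl

theorem algebraMap_AG_injective : Function.Injective (algebraMap (AG ι Γ h) (FG ι Γ h)) :=
  fun _ _ hab => Subtype.ext (congrArg (fun x : FG ι Γ h => (x : LaurentSeries K)) hab)

instance : FaithfulSMul (AG ι Γ h) (FG ι Γ h) :=
  (faithfulSMul_iff_algebraMap_injective _ _).mpr algebraMap_AG_injective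

instance instIsFractionRingAGFG : IsFractionRing (AG ι Γ h) (FG ι Γ h) := by
  refine IsFractionRing.of_field _ _ fun z => ?_
  obtain ⟨a, ha, b, hb, -, hz⟩ := mem_FG_iff.mp z.2
  refine ⟨⟨a, ha⟩, ⟨b, hb⟩, Subtype.ext ?_⟩
  rw [hz]
  rfl

/-- `AG → MerH`. -/
def holM : AG ι Γ h →+* MerH := (algebraMap Hol MerH).comp hol

theorem holM_apply (a : AG ι Γ h) : holM a = algebraMap Hol MerH (hol a) := rfl

theorem holM_injective [NeZero h] : Function.Injective (holM : AG ι Γ h →+* MerH) :=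
  (IsFractionRing.injective Hol MerH).comp hol_injective

/-- The embedding of the field of modular functions into the field of meromorphic functions. -/
def toMerH [NeZero h] : FG ι Γ h →+* MerH :=
  IsFractionRing.lift (A := AG ι Γ h) (K := FG ι Γ h) (g := (holM : AG ι Γ h →+* MerH))
    holM_injective

@[simp] theorem toMerH_algebraMap [NeZero h] (a : AG ι Γ h) :
    toMerH (algebraMap (AG ι Γ h) (FG ι Γ h) a) = algebraMap Hol MerH (hol a) :=
  IsFractionRing.lift_algebraMap _ _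

/-- Every element of the field is a quotient. -/
theorem exists_div (x : FG ι Γ h) : ∃ a b : AG ι Γ h, algebraMap (AG ι Γ h) (FG ι Γ h) b ≠ 0 ∧
    x = algebraMap (AG ι Γ h) (FG ι Γ h) a / algebraMap (AG ι Γ h) (FG ι Γ h) b := by
  obtain ⟨a, ha, b, hb, hb0, hz⟩ := mem_FG_iff.mp x.2
  refine ⟨⟨a, ha⟩, ⟨b, hb⟩, fun h0 => hb0 ?_, Subtype.ext ?_⟩
  · exact congrArg (fun x : FG ι Γ h => (x : LaurentSeries K)) h0
  · rw [hz]
    rfl

/-! ### The conjugation maps -/

section conj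

variable (ι h) [IsAlgClosed K] [Γ.FiniteIndex] [NeZero h] [NeZero H] {γ : SL(2, ℤ)}
  (hH : γ * ModularGroup.T ^ H * γ⁻¹ ∈ Γ)

/-- The expansion of `F ∘ γ`. -/
def conjV (a : AG ι Γ h) : LaurentSeries K := Classical.choose ((fn_spec a).exists_conj hH)

theorem conjV_spec (a : AG ι Γ h) :
    IsMF ι (cG γ Γ) H (fun τ => fn a (γ • τ)) (conjV ι h hH a) :=
  Classical.choose_spec ((fn_spec a).exists_conj hH)

variable {ι h} in
theorem conjV_eq {a : AG ι Γ h} (hF : IsMF ι Γ h F (a : LaurentSeries K)) {Γ' : Subgroup SL(2, ℤ)}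
    {y' : LaurentSeries K} (hy' : IsMF ι Γ' H (fun τ => F (γ • τ)) y') : conjV ι h hH a = y' := by
  have h1 := conjV_spec ι h hH a
  rw [fn_eq hF] at h1
  exact h1.unique hy'

/-- The conjugation map on `AG`. -/
def conjA : AG ι Γ h →ₐ[K] LaurentSeries K where
  toFun a := conjV ι h hH a
  map_one' := conjV_eq hH (IsMF.one Γ h) (IsMF.one Γ H)
  map_zero' := conjV_eq hH (IsMF.zero Γ h) (IsMF.zero Γ H)
  map_mul' a b := conjV_eq hH ((fn_spec a).mul (fn_spec b))
    ((conjV_spec ι h hH a).mul (conjV_spec ι h hH b))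
  map_add' a b := conjV_eq hH ((fn_spec a).add (fn_spec b))
    ((conjV_spec ι h hH a).add (conjV_spec ι h hH b))
  commutes' c := conjV_eq hH (IsMF.const Γ h c) (IsMF.const Γ H c)

variable {ι h} in
theorem conjA_isMF {a : AG ι Γ h} (hF : IsMF ι Γ h F (a : LaurentSeries K)) :
    IsMF ι (cG γ Γ) H (fun τ => F (γ • τ)) (conjA ι h hH a) := by
  have h1 := conjV_spec ι h hH a
  rw [fn_eq hF] at h1
  exact h1

theorem conjA_injective : Function.Injective (conjA ι h hH) := by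
  rw [injective_iff_map_eq_zero]
  intro a ha
  have h1 := conjV_spec ι h hH a
  rw [show conjV ι h hH a = 0 from ha] at h1
  have h2 := h1.funext' (IsMF.zero (cG γ Γ) H)
  apply Subtype.ext
  rw [ZeroMemClass.coe_zero, ← (fn_spec a).eq_zero_iff]
  funext τ
  have := congrFun h2 (γ⁻¹ • τ)
  simpa using this

/-- The conjugation map on the field of modular functions, `F ↦ F ∘ γ`, as a map to Laurent
series. -/
def conjL : FG ι Γ h →ₐ[K] LaurentSeries K :=
  IsFractionRing.liftAlgHom (R := K) (A := AG ι Γ h) (K := FG ι Γ h) (L := LaurentSeries K)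
    (g := (conjA ι h hH : AG ι Γ h →ₐ[K] LaurentSeries K)) (conjA_injective ι h hH)

theorem conjL_algebraMap (a : AG ι Γ h) :
    conjL ι h hH (algebraMap (AG ι Γ h) (FG ι Γ h) a) = conjA ι h hH a :=
  IsFractionRing.lift_algebraMap (A := AG ι Γ h) (K := FG ι Γ h) (L := LaurentSeries K)
    (g := (conjA ι h hH : AG ι Γ h →ₐ[K] LaurentSeries K).toRingHom) (conjA_injective ι h hH) a

variable {ι h} in
/-- The defining property of the conjugation map. -/
theorem conjL_isMF (hF : IsMF ι Γ h F y) :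
    IsMF ι (cG γ Γ) H (fun τ => F (γ • τ)) (conjL ι h hH ⟨y, hF.mem_FG⟩) := by
  have := conjL_algebraMap ι h hH (⟨y, hF.mem_AG⟩ : AG ι Γ h)
  rw [show (⟨y, hF.mem_FG⟩ : FG ι Γ h) = algebraMap (AG ι Γ h) (FG ι Γ h) ⟨y, hF.mem_AG⟩ from rfl,
    this]
  exact conjA_isMF hH hF

theorem conjL_mem (x : FG ι Γ h) : conjL ι h hH x ∈ FG ι (cG γ Γ) H := by
  obtain ⟨a, b, -, rfl⟩ := exists_div x
  rw [map_div₀, conjL_algebraMap, conjL_algebraMap]
  exact div_mem (conjA_isMF hH (fn_spec a)).mem_FG (conjA_isMF hH (fn_spec b)).mem_FG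

/-- The conjugation map with values in the field of modular functions on `γ⁻¹Γγ`. -/
def conjHom : FG ι Γ h →ₐ[K] FG ι (cG γ Γ) H :=
  (conjL ι h hH).codRestrict (FG ι (cG γ Γ) H).toSubalgebra (conjL_mem ι h hH)

@[simp] theorem coe_conjHom (x : FG ι Γ h) :
    ((conjHom ι h hH x : FG ι (cG γ Γ) H) : LaurentSeries K) = conjL ι h hH x := rfl

theorem toMerH_conjHom_algebraMap (a : AG ι Γ h) :
    toMerH (conjHom ι h hH (algebraMap (AG ι Γ h) (FG ι Γ h) a)) =
      γ⁻¹ • toMerH (algebraMap (AG ι Γ h) (FG ι Γ h) a) := by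
  have h2 := conjA_isMF hH (fn_spec a)
  have h3 : conjHom ι h hH (algebraMap (AG ι Γ h) (FG ι Γ h) a) =
      algebraMap (AG ι (cG γ Γ) H) (FG ι (cG γ Γ) H) ⟨_, h2.mem_AG⟩ :=
    Subtype.ext (conjL_algebraMap ι h hH a)
  rw [h3, toMerH_algebraMap, toMerH_algebraMap, smul_algebraMap_merH]
  congr 1
  apply Subtype.ext
  rw [coe_hol, fn_eq (a := ⟨_, h2.mem_AG⟩) h2]
  funext τ
  show fn a (γ • τ) = (γ⁻¹ • hol a) τ
  rw [Hol.smul_apply, inv_inv, coe_hol]

theorem toMerH_conjHom (x : FG ι Γ h) : toMerH (conjHom ι h hH x) = γ⁻¹ • toMerH x := by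
  obtain ⟨a, b, -, rfl⟩ := exists_div x
  rw [map_div₀, map_div₀, toMerH_conjHom_algebraMap, toMerH_conjHom_algebraMap, map_div₀,
    smul_div₀']

theorem conjL_jE : conjL ι h hH ⟨jE K h, jE_mem_FG Γ h⟩ = jE K H := by
  have h1 := conjL_isMF hH (isMF_j (ι := ι) Γ h)
  have h2 : (fun τ => jFun (γ • τ)) = jFun := funext fun τ => jFun_smul γ τ
  rw [h2] at h1
  exact h1.unique (isMF_j (ι := ι) Γ H)

end conj

end Fermat.Agent.FG
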