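import Mathlib
import Fermat.Agent.FG.Conj

/-!
# Separating functions and the degree of the field of modular functions
-/

set_option autoImplicit false
set_option linter.dupNamespace false

open UpperHalfPlane hiding I
open ModularForm Matrix.SpecialLinearGroup Filter Asymptotics
open scoped MatrixGroups Manifold ModularForm Topology IntermediateField

noncomputable section

namespace Fermat.Agent.FG

open Fermat.Agent.JLevelOne Fermat.Agent.X0Emb Fermat.Agent.ModFun ModularCurve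

/-- The group generated by `Γ` and `-1`. -/
def pm (Γ : Subgroup SL(2, ℤ)) : Subgroup SL(2, ℤ) where
  carrier := {γ | γ ∈ Γ ∨ -γ ∈ Γ}
  one_mem' := Or.inl (one_mem _)
  mul_mem' := by
    rintro a b (ha | ha) (hb | hb)
    · exact Or.inl (mul_mem ha hb)
    · refine Or.inr ?_
      rw [← mul_neg]
      exact mul_mem ha hb
    · refine Or.inr ?_
      rw [← neg_mul]
      exact mul_mem ha hb
    · refine Or.inl ?_
      have := mul_mem ha hb
      rwa [neg_mul_neg] at this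
  inv_mem' := by
    rintro a (ha | ha)
    · exact Or.inl (inv_mem ha)
    · refine Or.inr ?_
      have := inv_mem ha
      have h1 : (-a)⁻¹ = -a⁻¹ := by
        rw [inv_eq_iff_mul_eq_one, neg_mul_neg, mul_inv_cancel]
      rwa [h1] at this

theorem mem_pm {Γ : Subgroup SL(2, ℤ)} {γ : SL(2, ℤ)} : γ ∈ pm Γ ↔ γ ∈ Γ ∨ -γ ∈ Γ := Iff.rfl

theorem le_pm (Γ : Subgroup SL(2, ℤ)) : Γ ≤ pm Γ := fun _ h => Or.inl h

theorem neg_one_mem_pm (Γ : Subgroup SL(2, ℤ)) : (-1 : SL(2, ℤ)) ∈ pm Γ :=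
  Or.inr (by rw [neg_neg]; exact one_mem _)

theorem pm_eq_self {Γ : Subgroup SL(2, ℤ)} (h : (-1 : SL(2, ℤ)) ∈ Γ) : pm Γ = Γ := by
  ext γ
  refine ⟨?_, fun h => Or.inl h⟩
  rintro (h1 | h1)
  · exact h1
  · have := mul_mem h h1
    rwa [neg_mul_neg, one_mul] at this

theorem pm_mono {Γ Γ' : Subgroup SL(2, ℤ)} (h : Γ ≤ Γ') : pm Γ ≤ pm Γ' := by
  rintro γ (h1 | h1)
  · exact Or.inl (h h1)
  · exact Or.inr (h h1)

theorem cG_pm {Γ : Subgroup SL(2, ℤ)} (γ : SL(2, ℤ)) : cG γ (pm Γ) = pm (cG γ Γ) := by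
  ext δ
  simp only [mem_cG, mem_pm, mul_neg, neg_mul]

instance {Γ : Subgroup SL(2, ℤ)} [Γ.FiniteIndex] : (pm Γ).FiniteIndex :=
  Subgroup.finiteIndex_of_le (le_pm Γ)

variable {K : Type*} [Field K] {ι : K →+* ℂ} {Γ : Subgroup SL(2, ℤ)} {h H : ℕ} {F : ℍ → ℂ}
  {y : LaurentSeries K}

theorem IsMF.pm (hF : IsMF ι Γ h F y) : IsMF ι (FG.pm Γ) h F y where
  mdiff := hF.mdiff
  inv := by
    rintro γ (hγ | hγ) τ
    · exact hF.inv γ hγ τ
    · exact hF.inv_neg hγ τ
  growth := hF.growth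
  lexp := hF.lexp

theorem AG_pm : AG ι (pm Γ) h = AG ι Γ h :=
  le_antisymm (AG_mono (le_pm Γ)) fun _ ⟨F, hF⟩ => ⟨F, hF.pm⟩

theorem FG_pm : FG ι (pm Γ) h = FG ι Γ h := by rw [FG, FG, AG_pm]

/-! ### Polynomials in `j` -/

theorem eval_jFun_eq_zero {p : Polynomial K} (hp : ∀ τ, evJ ι τ p = 0) : p = 0 := by
  have h1 : p.map ι = 0 := by
    apply Polynomial.funext
    intro z
    obtain ⟨τ, hτ⟩ := jFun_surjective z
    rw [Polynomial.eval_map, ← hτ, Polynomial.eval_zero]
    exact hp τ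
  exact (Polynomial.map_eq_zero ι).mp h1

variable (ι) in
include ι in
theorem aeval_jE_injective [NeZero h] :
    Function.Injective (Polynomial.aeval (jE K h) : Polynomial K →ₐ[K] LaurentSeries K) := by
  rw [injective_iff_map_eq_zero]
  intro p hp
  apply eval_jFun_eq_zero (ι := ι)
  have h1 := isMF_eval₂ (IsMF.one (ι := ι) (⊤ : Subgroup SL(2, ℤ)) h) (Polynomial.C p)
  rw [Polynomial.eval₂_C] at h1
  have h2 : (Polynomial.aeval (jE K h) : Polynomial K →ₐ[K] LaurentSeries K).toRingHom p = 0 := hp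
  rw [h2] at h1
  intro τ
  have := congrFun (h1.funext' (IsMF.zero (⊤ : Subgroup SL(2, ℤ)) h)) τ
  simp only [Polynomial.eval₂_C] at this
  exact this

variable (ι) in
include ι in
theorem transcendental_jE [NeZero h] : Transcendental K (jE K h) :=
  transcendental_iff_injective.mpr (aeval_jE_injective ι)

/-- Level one: `AG ι ⊤ h = K[j]`. -/
theorem exists_aeval_eq_of_inv [NeZero h] (hF : IsMF ι Γ h F y)
    (hinv : ∀ (γ : SL(2, ℤ)) (τ : ℍ), F (γ • τ) = F τ) :
    ∃ p : Polynomial K, y = Polynomial.aeval (jE K h) p ∧ ∀ τ, F τ = evJ ι τ p := by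
  have hh : (0 : ℝ) < h := by exact_mod_cast Nat.pos_of_ne_zero (NeZero.ne h)
  obtain ⟨P, hP⟩ := exists_polynomial ⟨F, by
    have := hF.growth.mem_polInf hF.mdiff 1
    simpa only [one_smul] using this⟩ hinv
  have hP' : ∀ τ, F τ = P.eval (jFun τ) := hP
  have h1 : LExp h (∑ k ∈ Finset.range (P.natDegree + 1), jFun ^ k * (fun _ => P.coeff k) + -F)
      (∑ k ∈ Finset.range (P.natDegree + 1), coeffMap ι (jE K h ^ k) * HahnSeries.C (P.coeff k) +
        coeffMap ι (-y)) := by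
    refine LExp.add ?_ hF.neg.lexp
    refine lexp_finset_sum _ fun k _ => ?_
    exact ((isMF_j Γ h).pow k).lexp.mul (LExp.const _ _)
  have h2 : (∑ k ∈ Finset.range (P.natDegree + 1), jFun ^ k * (fun _ => P.coeff k) + -F) = 0 := by
    funext τ
    simp only [Pi.add_apply, Finset.sum_apply, Pi.mul_apply, Pi.pow_apply, Pi.neg_apply, hP' τ,
      Pi.zero_apply, Polynomial.eval_eq_sum_range]
    rw [add_neg_eq_zero]
    exact Finset.sum_congr rfl fun k _ => mul_comm _ _
  rw [h2] at h1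
  obtain ⟨c, hc⟩ := exists_descent_sum ι _ (fun k : ℕ => jE K h ^ k) (fun k => P.coeff k) (-y)
    (h1.eq_zero hh)
  have h3 : y = Polynomial.aeval (jE K h)
      (∑ k ∈ Finset.range (P.natDegree + 1), Polynomial.C (c k) * Polynomial.X ^ k) := by
    rw [map_sum, ← sub_eq_zero, ← neg_eq_zero, neg_sub, ← hc, sub_eq_add_neg]
    congr 1
    refine Finset.sum_congr rfl fun k _ => ?_
    rw [map_mul, map_pow, Polynomial.aeval_X, Polynomial.aeval_C,
      algebraMap_laurentSeries_eq_single, ← HahnSeries.C_apply, mul_comm]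
  refine ⟨_, h3, fun τ => ?_⟩
  have h4 := isMF_eval₂ (IsMF.one (ι := ι) (⊤ : Subgroup SL(2, ℤ)) h) (Polynomial.C
    (∑ k ∈ Finset.range (P.natDegree + 1), Polynomial.C (c k) * Polynomial.X ^ k))
  rw [Polynomial.eval₂_C, AlgHom.toRingHom_eq_coe, RingHom.coe_coe, ← h3] at h4
  have h5 := congrFun (hF.funext' h4) τ
  simp only [Polynomial.eval₂_C] at h5
  exact h5

/-! ### Separating functions -/

/-- A modular function with coefficients in `K` whose stabiliser is `±Γ`. -/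
structure SepData (ι : K →+* ℂ) (Γ : Subgroup SL(2, ℤ)) (h : ℕ) where
  v : ℍ → ℂ
  y : LaurentSeries K
  mf : IsMF ι Γ h v y
  sep : ∀ γ : SL(2, ℤ), (∀ τ, v (γ • τ) = v τ) → γ ∈ pm Γ

theorem SepData.mem_adjoin [Γ.FiniteIndex] [NeZero h] (S : SepData ι Γ h)
    (hF : IsMF ι Γ h F y) : y ∈ IntermediateField.adjoin K ({jE K h, S.y} : Set (LaurentSeries K)) := by
  have hh : (0 : ℝ) < h := by exact_mod_cast Nat.pos_of_ne_zero (NeZero.ne h)
  obtain ⟨n, n', P, Q, hPQ, τ0, hτ0⟩ := exists_interp_modFun S.mf.pm.isModFun S.sep hF.pm.isModFun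
  have key : ∀ (n : ℕ) (P : ℕ → Polynomial ℂ), ∃ A ∈ Algebra.adjoin ℂ (coeffMap ι ''
      ({jE K h, S.y} : Set (LaurentSeries K))),
      LExp h (fun τ => ∑ i ∈ Finset.range n, (P i).eval (jFun τ) * S.v τ ^ i) A := by
    intro n P
    have hj : coeffMap ι (jE K h) ∈ Algebra.adjoin ℂ (coeffMap ι ''
      ({jE K h, S.y} : Set (LaurentSeries K))) :=
      Algebra.subset_adjoin ⟨_, Set.mem_insert _ _, rfl⟩
    have hv : coeffMap ι S.y ∈ Algebra.adjoin ℂ (coeffMap ι ''
      ({jE K h, S.y} : Set (LaurentSeries K))) :=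
      Algebra.subset_adjoin ⟨_, Set.mem_insert_of_mem _ rfl, rfl⟩
    refine ⟨∑ i ∈ Finset.range n, (∑ k ∈ Finset.range ((P i).natDegree + 1),
      HahnSeries.C ((P i).coeff k) * coeffMap ι (jE K h) ^ k) * coeffMap ι S.y ^ i, ?_, ?_⟩
    · refine sum_mem fun i _ => mul_mem (sum_mem fun k _ => mul_mem ?_ (pow_mem hj _))
        (pow_mem hv _)
      have := (Algebra.adjoin ℂ (coeffMap ι ''
        ({jE K h, S.y} : Set (LaurentSeries K)))).algebraMap_mem ((P i).coeff k)
      rwa [algebraMap_laurentSeries_eq_single, ← HahnSeries.C_apply] at this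
    · have h1 := lexp_finset_sum (H := (h : ℝ)) (Finset.range n)
        (f := fun i => (∑ k ∈ Finset.range ((P i).natDegree + 1),
          (fun _ => (P i).coeff k) * jFun ^ k) * S.v ^ i)
        (g := fun i => (∑ k ∈ Finset.range ((P i).natDegree + 1),
          HahnSeries.C ((P i).coeff k) * coeffMap ι (jE K h) ^ k) * coeffMap ι S.y ^ i)
        (fun i _ => LExp.mul (lexp_finset_sum _ fun k _ =>
          (LExp.const _ _).mul ((isMF_j Γ h).lexp.pow k)) (S.mf.lexp.pow i))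
      convert! h1 using 1
      funext τ
      simp only [Finset.sum_apply, Pi.mul_apply, Pi.pow_apply, Polynomial.eval_eq_sum_range]
  obtain ⟨A, hA, hA'⟩ := key n P
  obtain ⟨B, hB, hB'⟩ := key n' Q
  refine mem_adjoin_of_relation' ι _ y hA hB ?_ ?_
  · rintro rfl
    apply hτ0
    exact congrFun (hB'.funext (LExp.zero (h : ℝ))) τ0
  · have h1 := hF.lexp.mul hB'
    refine h1.unique hh ?_
    convert! hA' using 1
    funext τ
    exact hPQ τ

theorem SepData.FG_eq [Γ.FiniteIndex] [NeZero h] (S : SepData ι Γ h) :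
    FG ι Γ h = IntermediateField.adjoin K ({jE K h, S.y} : Set (LaurentSeries K)) := by
  apply le_antisymm
  · rw [FG, IntermediateField.adjoin_le_iff]
    rintro y ⟨F, hF⟩
    exact S.mem_adjoin hF
  · rw [IntermediateField.adjoin_le_iff]
    rintro x (rfl | rfl)
    · exact jE_mem_FG Γ h
    · exact S.mf.mem_FG

end Fermat.Agent.FG
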