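import Mathlib
import Fermat.Agent.FG.Sep
import Fermat.Agent.FG.AbsDegree

/-!
# The degree of the field of modular functions over `K(j)`
-/

set_option autoImplicit false
set_option linter.dupNamespace false

open UpperHalfPlane hiding I
open ModularForm Matrix.SpecialLinearGroup Filter Asymptotics
open scoped MatrixGroups Manifold ModularForm Topology IntermediateField

noncomputable section

namespace Fermat.Agent.FG

open Fermat.Agent.JLevelOne Fermat.Agent.X0Emb Fermat.Agent.ModFun ModularCurve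

variable {K : Type*} [Field K] {ι : K →+* ℂ} {Γ : Subgroup SL(2, ℤ)} {h H : ℕ} {F : ℍ → ℂ}
  {y : LaurentSeries K}

variable (ι Γ h) in
/-- `j` as an element of the field of modular functions. -/
def jG [NeZero h] : FG ι Γ h := ⟨jE K h, jE_mem_FG Γ h⟩

@[simp] theorem coe_jG [NeZero h] : ((jG ι Γ h : FG ι Γ h) : LaurentSeries K) = jE K h := rfl

theorem transcendental_jG [NeZero h] : Transcendental K (jG ι Γ h) := by
  rw [← transcendental_algebraMap_iff (FaithfulSMul.algebraMap_injective (FG ι Γ h) (LaurentSeries K))]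
  exact transcendental_jE ι

/-- The separating element of the field. -/
def SepData.yG (S : SepData ι Γ h) : FG ι Γ h := ⟨S.y, S.mf.mem_FG⟩

@[simp] theorem SepData.coe_yG (S : SepData ι Γ h) : ((S.yG : FG ι Γ h) : LaurentSeries K) = S.y :=
  rfl

theorem SepData.adjoin_eq_top [Γ.FiniteIndex] [NeZero h] (S : SepData ι Γ h) :
    IntermediateField.adjoin K ({jG ι Γ h, S.yG} : Set (FG ι Γ h)) = ⊤ := by
  rw [eq_top_iff]
  rintro x -
  have h1 : (IntermediateField.adjoin K ({jG ι Γ h, S.yG} : Set (FG ι Γ h))).map (FG ι Γ h).val =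
      FG ι Γ h := by
    rw [IntermediateField.adjoin_map, Set.image_pair]
    exact S.FG_eq.symm
  have h2 : (x : LaurentSeries K) ∈
      (IntermediateField.adjoin K ({jG ι Γ h, S.yG} : Set (FG ι Γ h))).map (FG ι Γ h).val := by
    rw [h1]
    exact x.2
  obtain ⟨x', hx', hx''⟩ := h2
  rwa [← show x' = x from Subtype.ext hx'']

/-- Integrality over `K[j]` with a degree bound. -/
theorem IsMF.exists_monic_FG [NeZero h] [Γ.FiniteIndex] (hF : IsMF ι Γ h F y) :
    ∃ P : Polynomial (Polynomial K), P.Monic ∧ P.natDegree = (FG.pm Γ).index ∧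
      P.eval₂ (Polynomial.aeval (jG ι Γ h) : Polynomial K →ₐ[K] FG ι Γ h).toRingHom
        (⟨y, hF.mem_FG⟩ : FG ι Γ h) = 0 := by
  obtain ⟨P, hPm, hPd, hP, -⟩ := hF.pm.exists_monic
  refine ⟨P, hPm, hPd, ?_⟩
  apply Subtype.ext
  rw [ZeroMemClass.coe_zero, ← hP]
  have h1 := Polynomial.hom_eval₂ P
    (Polynomial.aeval (jG ι Γ h) : Polynomial K →ₐ[K] FG ι Γ h).toRingHom
    (FG ι Γ h).val.toRingHom (⟨y, hF.mem_FG⟩ : FG ι Γ h)
  refine h1.trans ?_
  congr 1
  refine RingHom.ext fun p => ?_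
  exact (Polynomial.aeval_algHom_apply (FG ι Γ h).val (jG ι Γ h) p).symm

theorem SepData.finiteDimensional [NeZero h] [Γ.FiniteIndex] (S : SepData ι Γ h) :
    FiniteDimensional K⟮jG ι Γ h⟯ (FG ι Γ h) := by
  obtain ⟨P, hPm, -, hP⟩ := S.mf.exists_monic_FG
  exact finiteDimensional_of_top S.adjoin_eq_top (isIntegral_of_eval₂ hPm hP)

/-! ### A common width -/

/-- A common width for all conjugates of `Γ`. -/
def wid (Γ : Subgroup SL(2, ℤ)) : ℕ := Γ.normalCore.index

instance [Γ.FiniteIndex] : NeZero (wid Γ) := ⟨Subgroup.FiniteIndex.index_ne_zero⟩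

theorem T_pow_wid_mem (Γ : Subgroup SL(2, ℤ)) (γ : SL(2, ℤ)) :
    γ * ModularGroup.T ^ wid Γ * γ⁻¹ ∈ Γ := by
  have h1 : ModularGroup.T ^ wid Γ ∈ Γ.normalCore := Subgroup.pow_index_mem _ _
  exact Subgroup.normalCore_le _ (Γ.normalCore_normal.conj_mem _ h1 γ)

section degree

variable [IsAlgClosed K] [Γ.FiniteIndex] [NeZero h]

/-- Equality of conjugates of the separating element. -/
theorem SepData.conjL_eq_iff [NeZero H] (S : SepData ι Γ h) {γ γ' : SL(2, ℤ)}
    (hH : γ * ModularGroup.T ^ H * γ⁻¹ ∈ Γ) (hH' : γ' * ModularGroup.T ^ H * γ'⁻¹ ∈ Γ) :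
    conjL ι h hH S.yG = conjL ι h hH' S.yG ↔ γ * γ'⁻¹ ∈ FG.pm Γ := by
  have h1 := conjL_isMF hH S.mf
  have h2 := conjL_isMF hH' S.mf
  constructor
  · intro heq
    rw [show (⟨S.y, S.mf.mem_FG⟩ : FG ι Γ h) = S.yG from rfl, heq] at h1
    have h3 := h1.funext' h2
    apply S.sep
    intro τ
    have := congrFun h3 (γ'⁻¹ • τ)
    simp only [smul_inv_smul] at this
    rw [mul_smul]
    exact this
  · intro hmem
    refine h1.unique (Γ' := cG γ' Γ) ?_
    have h3 : (fun τ => S.v (γ • τ)) = fun τ => S.v (γ' • τ) := by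
      funext τ
      have := S.mf.pm.inv _ hmem (γ' • τ)
      rw [← this, smul_smul, inv_mul_cancel_right]
    rw [h3]
    exact h2

/-- The family of embeddings indexed by cosets. -/
def embQ (ι : K →+* ℂ) (Γ : Subgroup SL(2, ℤ)) [Γ.FiniteIndex] (h : ℕ) [NeZero h]
    (q : SL(2, ℤ) ⧸ FG.pm Γ) : FG ι Γ h →ₐ[K] LaurentSeries K :=
  conjL ι h (T_pow_wid_mem Γ (q.out)⁻¹)

theorem embQ_jG (q : SL(2, ℤ) ⧸ FG.pm Γ) : embQ ι Γ h q (jG ι Γ h) = jE K (wid Γ) :=
  conjL_jE ι h _

theorem SepData.embQ_injective (S : SepData ι Γ h) :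
    Function.Injective (fun q => embQ ι Γ h q S.yG) := by
  intro q q' hqq
  have h1 := (S.conjL_eq_iff _ _).mp hqq
  rw [inv_inv] at h1
  have h2 := QuotientGroup.eq.mpr h1
  rwa [QuotientGroup.out_eq', QuotientGroup.out_eq'] at h2

/-- **The degree of the field of modular functions over `K(j)`.** -/
theorem SepData.finrank_eq (S : SepData ι Γ h) :
    Module.finrank K⟮jG ι Γ h⟯ (FG ι Γ h) = (FG.pm Γ).index := by
  classical
  obtain ⟨P, hPm, hPd, hP⟩ := S.mf.exists_monic_FG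
  have : Fintype (SL(2, ℤ) ⧸ FG.pm Γ) := Fintype.ofFinite _
  have hcard : (FG.pm Γ).index = Fintype.card (SL(2, ℤ) ⧸ FG.pm Γ) := by
    rw [Subgroup.index, Nat.card_eq_fintype_card]
  rw [hcard]
  exact finrank_eq_card S.adjoin_eq_top hPm hP (by rw [hPd, hcard]) (embQ ι Γ h)
    (fun q q' => (embQ_jG q).trans (embQ_jG q').symm) S.embQ_injective

end degree

end Fermat.Agent.FG
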