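import Mathlib
import Fermat.Agent.FG.Degree
import Fermat.Agent.Igusa.DeltaQ
import Fermat.Agent.IntStruct.EN
import Fermat.Agent.DS.EisGamma1

/-!
# Weakly holomorphic forms with coefficients in `K`, and separating functions from forms
-/

set_option autoImplicit false
set_option linter.dupNamespace false

open UpperHalfPlane hiding I
open ModularForm Matrix.SpecialLinearGroup Filter Asymptotics
open scoped MatrixGroups Manifold ModularForm Topology IntermediateField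

noncomputable section

namespace Fermat.Agent.FG

open Fermat.Agent.JLevelOne Fermat.Agent.X0Emb Fermat.Agent.ModFun ModularCurve
  Fermat.Agent.IntStruct Fermat.Agent.S28aux

local notation "𝕢" => Function.Periodic.qParam

variable {K : Type*} [Field K] {ι : K →+* ℂ} {Γ Γ' : Subgroup SL(2, ℤ)} {h H : ℕ}
  {F f g : ℍ → ℂ} {x y : LaurentSeries K} {k l : ℤ}

variable (ι) in
/-- Weakly holomorphic modular forms of weight `k` on `Γ`, with expansion `y` in
`exp (2πiτ/h)`, with coefficients in `K`. -/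
structure IsWF (Γ : Subgroup SL(2, ℤ)) (h : ℕ) (k : ℤ) (g : ℍ → ℂ) (y : LaurentSeries K) :
    Prop where
  mdiff : MDiff g
  slash : ∀ γ ∈ Γ, g ∣[k] γ = g
  growth : ∀ σ : SL(2, ℤ), GrowthInf (g ∣[k] σ)
  lexp : LExp h g (coeffMap ι y)

theorem slash_zero_apply (g : ℍ → ℂ) (γ : SL(2, ℤ)) (τ : ℍ) :
    (g ∣[(0 : ℤ)] γ) τ = g (γ • τ) := by
  rw [SL_slash_apply, neg_zero, zpow_zero, mul_one]

namespace IsWF

theorem isMF (hg : IsWF ι Γ h 0 g y) : IsMF ι Γ h g y where
  mdiff := hg.mdiff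
  inv γ hγ τ := by rw [← slash_zero_apply g γ τ, hg.slash γ hγ]
  growth σ := by
    have h1 := hg.growth σ
    rwa [show g ∣[(0 : ℤ)] σ = fun τ => g (σ • τ) from funext fun τ => slash_zero_apply g σ τ] at h1
  lexp := hg.lexp

theorem of_isMF (hg : IsMF ι Γ h g y) : IsWF ι Γ h 0 g y where
  mdiff := hg.mdiff
  slash γ hγ := funext fun τ => by rw [slash_zero_apply, hg.inv γ hγ]
  growth σ := by
    rw [show g ∣[(0 : ℤ)] σ = fun τ => g (σ • τ) from funext fun τ => slash_zero_apply g σ τ]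
    exact hg.growth σ
  lexp := hg.lexp

theorem mul (hf : IsWF ι Γ h k f x) (hg : IsWF ι Γ h l g y) :
    IsWF ι Γ h (k + l) (f * g) (x * y) where
  mdiff := hf.mdiff.mul hg.mdiff
  slash γ hγ := by rw [mul_slash_SL2, hf.slash γ hγ, hg.slash γ hγ]
  growth σ := by rw [mul_slash_SL2]; exact (hf.growth σ).mul (hg.growth σ)
  lexp := by rw [map_mul]; exact hf.lexp.mul hg.lexp

theorem cast (hf : IsWF ι Γ h k f x) (e : k = l) : IsWF ι Γ h l f x := e ▸ hf

theorem add (hf : IsWF ι Γ h k f x) (hg : IsWF ι Γ h k g y) :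
    IsWF ι Γ h k (f + g) (x + y) where
  mdiff := hf.mdiff.add hg.mdiff
  slash γ hγ := by rw [SlashAction.add_slash, hf.slash γ hγ, hg.slash γ hγ]
  growth σ := by rw [SlashAction.add_slash]; exact (hf.growth σ).add (hg.growth σ)
  lexp := by rw [map_add]; exact hf.lexp.add hg.lexp

theorem smul (c : K) (hf : IsWF ι Γ h k f x) :
    IsWF ι Γ h k (ι c • f) (algebraMap K (LaurentSeries K) c * x) := by
  have h1 := (of_isMF (IsMF.const (ι := ι) Γ h c)).mul hf
  exact h1.cast (zero_add k)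

theorem one : IsWF ι Γ h 0 1 (1 : LaurentSeries K) := of_isMF (IsMF.one Γ h)

theorem pow (hf : IsWF ι Γ h k f x) (n : ℕ) : IsWF ι Γ h (n * k) (f ^ n) (x ^ n) := by
  induction n with
  | zero =>
    rw [pow_zero, pow_zero]
    exact one.cast (by simp)
  | succ n ih =>
    rw [pow_succ, pow_succ]
    exact (ih.mul hf).cast (by push_cast; ring)

theorem mono (hΓ : Γ' ≤ Γ) (hF : IsWF ι Γ h k f x) : IsWF ι Γ' h k f x :=
  ⟨hF.mdiff, fun γ hγ => hF.slash γ (hΓ hγ), hF.growth, hF.lexp⟩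

/-- Change of the width. -/
theorem expand [NeZero h] (hF : IsWF ι Γ h k f x) (e : ℕ) [NeZero e] :
    IsWF ι Γ (e * h) k f (qExpand K e x) where
  mdiff := hF.mdiff
  slash := hF.slash
  growth := hF.growth
  lexp := by
    rw [coeffMap_qExpand']
    have := hF.lexp.expand (by exact_mod_cast NeZero.ne h) e
    simpa using! this

theorem expand' [NeZero h] (hF : IsWF ι Γ 1 k f x) : IsWF ι Γ h k f (qExpand K h x) := by
  have := hF.expand h
  rwa [mul_one] at this

theorem unique [NeZero h] (h1 : IsWF ι Γ h k f x) (h2 : IsWF ι Γ' h l f y) : x = y := by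
  have hh : (0 : ℝ) < h := by exact_mod_cast Nat.pos_of_ne_zero (NeZero.ne h)
  exact coeffMap_injective ι (h1.lexp.unique hh h2.lexp)

theorem funext' (h1 : IsWF ι Γ h k f x) (h2 : IsWF ι Γ' h l g x) : f = g :=
  h1.lexp.funext h2.lexp

/-- The conjugate of a form is a form on the conjugate group. -/
theorem slash_cG (hf : IsWF ι Γ h k f x) (γ : SL(2, ℤ)) {δ : SL(2, ℤ)} (hδ : δ ∈ cG γ Γ) :
    (f ∣[k] γ) ∣[k] δ = f ∣[k] γ := by
  rw [← SlashAction.slash_mul]
  have h1 := hf.slash _ hδ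
  have h2 : γ * δ = (γ * δ * γ⁻¹) * γ := by group
  rw [h2, SlashAction.slash_mul]
  congr 1

end IsWF

/-! ### Level one forms -/

theorem isWF_disc_inv [NeZero h] : IsWF ι Γ h (-12) (fun τ => (discriminant τ)⁻¹)
    (qExpand K h (deltaInvC K)) := by
  have h1 : ∀ σ : SL(2, ℤ), (fun τ : ℍ => (discriminant τ)⁻¹) ∣[(-12 : ℤ)] σ =
      fun τ => (discriminant τ)⁻¹ := by
    intro σ
    funext τ
    rw [SL_slash_apply, discriminant_smul, neg_neg]
    have hd := denom_ne_zero (σ : GL (Fin 2) ℝ) τ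
    have := zpow_ne_zero 12 hd
    field_simp
  have h2 : IsWF ι Γ 1 (-12) (fun τ => (discriminant τ)⁻¹) (deltaInvC K) := by
    refine ⟨?_, fun γ _ => h1 γ, fun σ => ?_, ?_⟩
    · have h := mdiff_discriminant
      rw [UpperHalfPlane.mdifferentiable_iff] at h ⊢
      exact h.inv fun z _ => discriminant_ne_zero _
    · rw [h1]
      exact LExp_growthInf one_pos Igusa.hasLExp_discriminant_inv
    · rw [coeffMap_deltaInvC]
      have : LExp 1 (fun τ => (discriminant τ)⁻¹) (deltaInvC ℂ) := Igusa.hasLExp_discriminant_inv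
      simpa using this
  exact h2.expand'

/-- Forms with coefficients in the image of `K`. -/
theorem isWF_of_qExpansion {G : Subgroup (GL (Fin 2) ℝ)} [G.IsArithmetic] {E : Type*}
    [FunLike E ℍ ℂ] [ModularFormClass E G k]
    (hG : (1 : ℝ) ∈ G.strictPeriods) (hΓ : ∀ γ ∈ Γ, mapGL ℝ γ ∈ G)
    (f : E) (P : PowerSeries K) (hP : P.map ι = qExpansion 1 f) :
    IsWF ι Γ 1 k f (HahnSeries.ofPowerSeries ℤ K P) where
  mdiff := ModularFormClass.holo f
  slash γ hγ := SlashInvariantFormClass.slash_action_eq f _ (hΓ γ hγ)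
  growth σ := GrowthInf.of_bounded (ModularFormClass.bdd_at_infty_slash f σ)
  lexp := by
    rw [X0Emb.coeffMap_ofPowerSeries, hP]
    refine LExp.of_hasSum fun τ => ?_
    have := UpperHalfPlane.hasSum_qExpansion (h := 1) one_pos
      (by simpa using SlashInvariantFormClass.periodic_comp_ofComplex f hG)
      (ModularFormClass.holo f)
      (by simpa using ModularFormClass.bdd_at_infty_slash f 1) τ
    simpa using this

theorem isWF_of_int {G : Subgroup (GL (Fin 2) ℝ)} [G.IsArithmetic] {E : Type*}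
    [FunLike E ℍ ℂ] [ModularFormClass E G k]
    (hG : (1 : ℝ) ∈ G.strictPeriods) (hΓ : ∀ γ ∈ Γ, mapGL ℝ γ ∈ G)
    (f : E) (P : PowerSeries ℤ) (hP : intMap ℂ P = qExpansion 1 f) :
    IsWF ι Γ 1 k f (HahnSeries.ofPowerSeries ℤ K (intMap K P)) := by
  refine isWF_of_qExpansion hG hΓ f _ ?_
  rw [← hP, intMap, intMap, ← RingHom.comp_apply, ← PowerSeries.map_comp,
    RingHom.ext_int (ι.comp (Int.castRingHom K)) (Int.castRingHom ℂ)]

/-- Weakly holomorphic level one forms with integral coefficients. -/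
structure IsWZ (k : ℤ) (w : ℍ → ℂ) (W : LaurentSeries ℤ) : Prop where
  mdiff : MDiff w
  slash : ∀ σ : SL(2, ℤ), w ∣[k] σ = w
  lexp : LExp 1 w (coeffMap (Int.castRingHom ℂ) W)

theorem coeffMap_comp' {R S T : Type*} [CommRing R] [CommRing S] [CommRing T] (f : R →+* S)
    (g : S →+* T) (x : LaurentSeries R) : coeffMap g (coeffMap f x) = coeffMap (g.comp f) x := by
  ext n
  simp [coeffMap_coeff]

theorem IsWZ.isWF {w : ℍ → ℂ} {W : LaurentSeries ℤ} (hw : IsWZ k w W) [NeZero h] :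
    IsWF ι Γ h k w (qExpand K h (coeffMap (Int.castRingHom K) W)) := by
  refine IsWF.expand' ⟨hw.mdiff, fun γ _ => hw.slash γ, fun σ => ?_, ?_⟩
  · rw [hw.slash]
    exact LExp_growthInf one_pos hw.lexp
  · rw [coeffMap_comp', RingHom.ext_int (ι.comp (Int.castRingHom K)) (Int.castRingHom ℂ)]
    simpa using hw.lexp

theorem IsWZ.mul {w w' : ℍ → ℂ} {W W' : LaurentSeries ℤ} (hw : IsWZ k w W) (hw' : IsWZ l w' W') :
    IsWZ (k + l) (w * w') (W * W') where
  mdiff := hw.mdiff.mul hw'.mdiff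
  slash σ := by rw [mul_slash_SL2, hw.slash, hw'.slash]
  lexp := by rw [map_mul]; exact hw.lexp.mul hw'.lexp

theorem IsWZ.one : IsWZ 0 1 1 where
  mdiff := mdifferentiable_const
  slash σ := by funext τ; rw [slash_zero_apply]; rfl
  lexp := by rw [map_one]; exact LExp.one _

theorem IsWZ.cast {w : ℍ → ℂ} {W : LaurentSeries ℤ} (hw : IsWZ k w W) (e : k = l) :
    IsWZ l w W := e ▸ hw

theorem IsWZ.pow {w : ℍ → ℂ} {W : LaurentSeries ℤ} (hw : IsWZ k w W) (n : ℕ) :
    IsWZ (n * k) (w ^ n) (W ^ n) := by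
  induction n with
  | zero =>
    rw [pow_zero, pow_zero]
    exact IsWZ.one.cast (by simp)
  | succ n ih =>
    rw [pow_succ, pow_succ]
    exact (ih.mul hw).cast (by push_cast; ring)

theorem isWZ_disc_inv : IsWZ (-12) (fun τ => (discriminant τ)⁻¹) (deltaInvC ℤ) where
  mdiff := (isWF_disc_inv (K := ℂ) (ι := RingHom.id ℂ) (Γ := ⊤) (h := 1)).mdiff
  slash σ := (isWF_disc_inv (K := ℂ) (ι := RingHom.id ℂ) (Γ := ⊤) (h := 1)).slash σ trivial
  lexp := by
    rw [coeffMap_deltaInvC]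
    exact Igusa.hasLExp_discriminant_inv

theorem isWZ_of_intForms {f : ModularForm 𝒮ℒ k} (hf : f ∈ intForms 𝒮ℒ k) :
    ∃ W : LaurentSeries ℤ, IsWZ k f W := by
  obtain ⟨P, hP⟩ := hf
  refine ⟨HahnSeries.ofPowerSeries ℤ ℤ P, ModularFormClass.holo f, fun σ =>
    SlashInvariantFormClass.slash_action_eq f (mapGL ℝ σ) ⟨σ, rfl⟩, ?_⟩
  rw [X0Emb.coeffMap_ofPowerSeries]
  refine LExp.of_hasSum fun τ => ?_
  have := UpperHalfPlane.hasSum_qExpansion (h := 1) one_pos
    (by simpa using SlashInvariantFormClass.periodic_comp_ofComplex f one_mem_strictPeriods_SL)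
    (ModularFormClass.holo f) (ModularFormClass.bdd_at_infty f) τ
  rw [← hP] at this
  simpa using this

/-- Weakly holomorphic level one forms of any even weight. -/
theorem exists_wt (k : ℤ) : ∃ (w : ℍ → ℂ) (W : LaurentSeries ℤ),
    w ≠ 0 ∧ IsWZ (2 * k) w W := by
  set m : ℕ := k.natAbs + 1 with hm
  set n : ℕ := (2 * k + 12 * m).toNat with hn
  have hn' : (n : ℤ) = 2 * k + 12 * m := by omega
  obtain ⟨f, hf, hf1⟩ := exists_intForm_coeff_zero_eq_one n (by omega) (by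
    rw [Nat.even_iff]; omega)
  obtain ⟨W, hW⟩ := isWZ_of_intForms hf
  have hf0 : (f : ℍ → ℂ) ≠ 0 := by
    intro h0
    rw [h0, qExpansion_zero, map_zero] at hf1
    exact zero_ne_one hf1
  refine ⟨_, _, ?_, (hW.mul (isWZ_disc_inv.pow m)).cast (by rw [hn']; ring)⟩
  obtain ⟨τ, hτ⟩ := Function.ne_iff.mp hf0
  refine Function.ne_iff.mpr ⟨τ, ?_⟩
  simp only [Pi.mul_apply, Pi.pow_apply, Pi.zero_apply]
  exact mul_ne_zero hτ (pow_ne_zero _ (inv_ne_zero (discriminant_ne_zero τ)))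

/-- A nonzero weakly holomorphic level one form of weight `2 k`. -/
def wt (k : ℤ) : ℍ → ℂ := (exists_wt k).choose

/-- The expansion of `wt k`. -/
def wtZ (k : ℤ) : LaurentSeries ℤ := (exists_wt k).choose_spec.choose

theorem wt_ne_zero (k : ℤ) : wt k ≠ 0 := (exists_wt k).choose_spec.choose_spec.1

theorem isWZ_wt (k : ℤ) : IsWZ (2 * k) (wt k) (wtZ k) :=
  (exists_wt k).choose_spec.choose_spec.2

/-- The expansion of `wt k` at width `h` with coefficients in `K`. -/
def wtE (K : Type*) [Field K] (h : ℕ) [NeZero h] (k : ℤ) : LaurentSeries K :=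
  qExpand K h (coeffMap (Int.castRingHom K) (wtZ k))

theorem isWF_wt (k : ℤ) [NeZero h] : IsWF ι Γ h (2 * k) (wt k) (wtE K h k) := (isWZ_wt k).isWF

theorem coeffMap_wtE {L : Type*} [Field L] (f : K →+* L) [NeZero h] (k : ℤ) :
    coeffMap f (wtE K h k) = wtE L h k := by
  rw [wtE, wtE, coeffMap_qExpand', coeffMap_comp',
    RingHom.ext_int (f.comp (Int.castRingHom K)) (Int.castRingHom L)]

theorem coeffMap_jE {L : Type*} [Field L] (f : K →+* L) [NeZero h] :
    coeffMap f (jE K h) = jE L h := by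
  rw [jE, jE, coeffMap_qExpand']
  congr 1
  exact map_jqModC f

/-! ### Separating functions from forms -/

theorem mdiff_mul_right_cancel {f g w : ℍ → ℂ} (hf : MDiff f) (hg : MDiff g) (hw : MDiff w)
    (hw0 : w ≠ 0) (h : f * w = g * w) : f = g := by
  have h1 : (⟨f, hf⟩ : Hol) * ⟨w, hw⟩ = ⟨g, hg⟩ * ⟨w, hw⟩ := Subtype.ext h
  have h2 : (⟨w, hw⟩ : Hol) ≠ 0 := fun h0 => hw0 (congrArg Subtype.val h0)
  exact congrArg Subtype.val (mul_right_cancel₀ h2 h1)

theorem mdiff_sq_eq {f g : ℍ → ℂ} (hf : MDiff f) (hg : MDiff g) (h : f ^ 2 = g ^ 2) :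
    f = g ∨ f = -g := by
  have h1 : (⟨f, hf⟩ : Hol) ^ 2 = ⟨g, hg⟩ ^ 2 := Subtype.ext h
  rcases sq_eq_sq_iff_eq_or_eq_neg.mp h1 with h2 | h2
  · exact Or.inl (congrArg Subtype.val h2)
  · exact Or.inr (congrArg Subtype.val h2)

theorem mdiff_slash {f : ℍ → ℂ} (hf : MDiff f) (k : ℤ) (γ : SL(2, ℤ)) : MDiff (f ∣[k] γ) :=
  hf.slash k _

/-- Separating functions from forms of even weight. -/
def SepData.ofForm (hg : IsWF ι Γ h (2 * k) g y) [NeZero h]
    (stab : ∀ γ : SL(2, ℤ), g ∣[2 * k] γ = g → γ ∈ pm Γ) : SepData ι Γ h where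
  v := g * wt (-k)
  y := y * wtE K h (-k)
  mf := ((hg.mul (isWF_wt (-k))).cast (by ring)).isMF
  sep γ hγ := by
    apply stab
    have h1 : (g * wt (-k)) ∣[(2 * k + 2 * -k : ℤ)] γ = g * wt (-k) := by
      funext τ
      rw [show (2 * k + 2 * -k : ℤ) = 0 by ring, slash_zero_apply]
      exact hγ τ
    rw [mul_slash_SL2, (isWZ_wt (-k)).slash] at h1
    exact mdiff_mul_right_cancel (mdiff_slash hg.mdiff _ _) hg.mdiff (isWZ_wt (-k)).mdiff
      (wt_ne_zero _) h1

@[simp] theorem SepData.ofForm_y (hg : IsWF ι Γ h (2 * k) g y) [NeZero h]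
    (stab : ∀ γ : SL(2, ℤ), g ∣[2 * k] γ = g → γ ∈ pm Γ) :
    (SepData.ofForm hg stab).y = y * wtE K h (-k) := rfl

theorem slash_neg_odd {k : ℤ} (hk : Odd k) (g : ℍ → ℂ) (γ : SL(2, ℤ)) :
    g ∣[k] (-γ) = -(g ∣[k] γ) := by
  funext τ
  rw [Pi.neg_apply, SL_slash_apply, SL_slash_apply, ModularGroup.SL_neg_smul]
  have h1 : denom ((-γ : SL(2, ℤ)) : GL (Fin 2) ℝ) τ = - denom (γ : GL (Fin 2) ℝ) τ := by
    simp [denom, add_comm]
  have h2 : Odd (-k) := hk.neg
  rw [h1, h2.neg_zpow, mul_neg]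

/-- Separating functions from forms of odd weight. -/
def SepData.ofFormOdd (hg : IsWF ι Γ h k g y) [NeZero h] (hk : Odd k)
    (stab : ∀ γ : SL(2, ℤ), g ∣[k] γ = g → γ ∈ Γ) : SepData ι Γ h :=
  SepData.ofForm (k := k) (g := g ^ 2) (y := y ^ 2) (by simpa using hg.pow 2) (by
    intro γ hγ
    rw [sq, two_mul, mul_slash_SL2, ← sq, ← sq] at hγ
    rcases mdiff_sq_eq (mdiff_slash hg.mdiff _ _) hg.mdiff hγ with h1 | h1
    · exact Or.inl (stab _ h1)
    · refine Or.inr (stab _ ?_)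
      rw [slash_neg_odd hk, h1, neg_neg])

@[simp] theorem SepData.ofFormOdd_y (hg : IsWF ι Γ h k g y) [NeZero h] (hk : Odd k)
    (stab : ∀ γ : SL(2, ℤ), g ∣[k] γ = g → γ ∈ Γ) :
    (SepData.ofFormOdd hg hk stab).y = y ^ 2 * wtE K h (-k) := rfl

end Fermat.Agent.FG
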