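import Mathlib
import Fermat.Agent.FG.Forms

/-!
# Separating functions for congruence subgroups
-/

set_option autoImplicit false
set_option linter.dupNamespace false

open UpperHalfPlane hiding I
open ModularForm Matrix.SpecialLinearGroup Filter Asymptotics CongruenceSubgroup
open scoped MatrixGroups Manifold ModularForm Topology IntermediateField

noncomputable section

namespace Fermat.Agent.FG

open Fermat.Agent.JLevelOne Fermat.Agent.X0Emb Fermat.Agent.ModFun ModularCurve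
  Fermat.Agent.IntStruct Fermat.Agent.S28aux

variable {K : Type*} [Field K] {ι : K →+* ℂ} {Γ Γ' : Subgroup SL(2, ℤ)} {h H : ℕ}
  {F f g : ℍ → ℂ} {x y : LaurentSeries K} {k l : ℤ}

/-! ### `Γ₀(N)` -/

/-- The power series of `EN N`. -/
def enP (N : ℕ) [NeZero N] : PowerSeries ℤ := (EN_mem_intForms N).choose

theorem enP_spec (N : ℕ) [NeZero N] : intMap ℂ (enP N) = qExpansion 1 (EN N) :=
  (EN_mem_intForms N).choose_spec

/-- The Laurent series of the separating function of `Γ₀(N)`. -/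
def sep0Z (N : ℕ) [NeZero N] : LaurentSeries ℤ :=
  HahnSeries.ofPowerSeries ℤ ℤ (enP N) * wtZ (-2)

theorem isWF_EN (N : ℕ) [NeZero N] :
    IsWF ι (Gamma0 N) 1 4 (EN N) (HahnSeries.ofPowerSeries ℤ K (intMap K (enP N))) :=
  isWF_of_int (CongruenceSubgroup.one_mem_strictPeriods_Gamma0 N) (fun γ hγ => ⟨γ, hγ, rfl⟩)
    (EN N) _ (enP_spec N)

variable (ι) in
/-- The separating function of `Γ₀(N)`. -/
def sepGamma0 (N : ℕ) [NeZero N] : SepData ι (Gamma0 N) 1 :=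
  SepData.ofForm (k := 2) ((isWF_EN N).cast (by norm_num)) (by
    intro γ hγ
    exact le_pm _ (mem_Gamma0_of_slash_EN_eq γ hγ))

theorem sepGamma0_y (N : ℕ) [NeZero N] :
    (sepGamma0 ι N).y = coeffMap (Int.castRingHom K) (sep0Z N) := by
  rw [sepGamma0, SepData.ofForm_y, sep0Z, map_mul, X0Emb.coeffMap_ofPowerSeries, wtE, qExpand_one_apply]

/-! ### `Γ₁(N)` -/

/-- The Laurent series of the separating function of `Γ₁(N)`. -/
def sep1Z (N : ℕ) [NeZero N] : LaurentSeries ℤ :=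
  HahnSeries.ofPowerSeries ℤ ℤ (PowerSeries.mk (DSEis.gcoeff N 3)) ^ 2 * wtZ (-3)

theorem isWF_gform (N : ℕ) [NeZero N] (hN : 3 ≤ N) :
    IsWF ι (Gamma1 N) 1 3 (DSEis.gform N 3 le_rfl)
      (HahnSeries.ofPowerSeries ℤ K (intMap K (PowerSeries.mk (DSEis.gcoeff N 3)))) :=
  isWF_of_int (DSEis.one_mem_G1) (fun γ hγ => ⟨γ, hγ, rfl⟩)
    (DSEis.gform N 3 le_rfl) _ (by
      ext n
      rw [DSEis.qExpansion_gform (by omega)]
      simp)

variable (ι) in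
/-- The separating function of `Γ₁(N)`. -/
def sepGamma1 (N : ℕ) [NeZero N] (hN : 3 ≤ N) : SepData ι (Gamma1 N) 1 :=
  SepData.ofFormOdd (k := 3) (isWF_gform N hN) (by decide) (by
    intro γ hγ
    exact DSEis.gform_mem_Gamma1 hN le_rfl (by decide) γ hγ)

theorem sepGamma1_y (N : ℕ) [NeZero N] (hN : 3 ≤ N) :
    (sepGamma1 ι N hN).y = coeffMap (Int.castRingHom K) (sep1Z N) := by
  rw [sepGamma1, SepData.ofFormOdd_y, sep1Z, map_mul, map_pow, X0Emb.coeffMap_ofPowerSeries, wtE,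
    qExpand_one_apply]

/-! ### Operations on separating data -/

/-- Change of width. -/
def SepData.expand (S : SepData ι Γ h) [NeZero h] (e : ℕ) [NeZero e] : SepData ι Γ (e * h) where
  v := S.v
  y := qExpand K e S.y
  mf := S.mf.expand e
  sep := S.sep

/-- Change of width. -/
def SepData.expand' (S : SepData ι Γ 1) (h : ℕ) [NeZero h] : SepData ι Γ h where
  v := S.v
  y := qExpand K h S.y
  mf := by
    have := S.mf.expand h
    rwa [mul_one] at this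
  sep := S.sep

/-- Conjugation of separating data. -/
def SepData.conj' (S : SepData ι Γ h) (γ : SL(2, ℤ)) {y' : LaurentSeries K}
    (hy' : IsMF ι (cG γ Γ) H (fun τ => S.v (γ • τ)) y') : SepData ι (cG γ Γ) H where
  v := fun τ => S.v (γ • τ)
  y := y'
  mf := hy'
  sep δ hδ := by
    rw [← cG_pm, mem_cG]
    apply S.sep
    intro τ
    have := hδ (γ⁻¹ • τ)
    rw [smul_inv_smul] at this
    rw [← this, ← mul_smul, ← mul_smul]

/-- Conjugation of separating data. -/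
def SepData.conj [IsAlgClosed K] [Γ.FiniteIndex] [NeZero h] [NeZero H] (S : SepData ι Γ h)
    {γ : SL(2, ℤ)} (hH : γ * ModularGroup.T ^ H * γ⁻¹ ∈ Γ) : SepData ι (cG γ Γ) H :=
  S.conj' γ (conjL_isMF hH S.mf)

theorem exists_generic {Γ Γ₁ Γ₂ : Subgroup SL(2, ℤ)} [Γ.FiniteIndex] (h1 : Γ ≤ Γ₁) (h2 : Γ ≤ Γ₂)
    (h12 : pm Γ₁ ⊓ pm Γ₂ ≤ pm Γ) {v₁ v₂ : ℍ → ℂ}
    (hv₁ : ∀ γ ∈ Γ₁, ∀ τ : ℍ, v₁ (γ • τ) = v₁ τ) (hv₂ : ∀ γ ∈ Γ₂, ∀ τ : ℍ, v₂ (γ • τ) = v₂ τ)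
    (sep₁ : ∀ γ : SL(2, ℤ), (∀ τ, v₁ (γ • τ) = v₁ τ) → γ ∈ pm Γ₁)
    (sep₂ : ∀ γ : SL(2, ℤ), (∀ τ, v₂ (γ • τ) = v₂ τ) → γ ∈ pm Γ₂) :
    ∃ c : ℕ, ∀ γ : SL(2, ℤ), (∀ τ, v₁ (γ • τ) + c * v₂ (γ • τ) = v₁ τ + c * v₂ τ) →
      γ ∈ pm Γ := by
  classical
  set B : SL(2, ℤ) → Set ℕ := fun γ =>
    {c : ℕ | ∀ τ, v₁ (γ • τ) + c * v₂ (γ • τ) = v₁ τ + c * v₂ τ} with hB
  have hsub : ∀ γ ∉ pm Γ, (B γ).Subsingleton := by
    intro γ hγ c hc d hd
    by_cases hγ2 : γ ∈ pm Γ₂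
    · have hγ1 : γ ∉ pm Γ₁ := fun hγ1 => hγ (h12 ⟨hγ1, hγ2⟩)
      exfalso
      apply hγ1
      apply sep₁
      intro τ
      have h3 := hc τ
      have h4 : v₂ (γ • τ) = v₂ τ := by
        rcases hγ2 with h | h
        · exact hv₂ γ h τ
        · rw [← hv₂ _ h τ, ModularGroup.SL_neg_smul]
      rw [h4] at h3
      exact add_right_cancel h3
    · obtain ⟨τ, hτ⟩ : ∃ τ, v₂ (γ • τ) ≠ v₂ τ := by
        by_contra hcon
        push Not at hcon
        exact hγ2 (sep₂ γ hcon)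
      have h3 := hc τ
      have h4 := hd τ
      have h5 : ((c : ℂ) - d) * (v₂ (γ • τ) - v₂ τ) = 0 := by linear_combination h3 - h4
      rcases mul_eq_zero.mp h5 with h6 | h6
      · exact_mod_cast sub_eq_zero.mp h6
      · exact absurd (sub_eq_zero.mp h6) hτ
  set A : SL(2, ℤ) ⧸ Γ → Set ℕ := fun q => if (q.out)⁻¹ ∈ pm Γ then ∅ else B (q.out)⁻¹ with hA
  have hfin : (⋃ q, A q).Finite := by
    refine Set.finite_iUnion fun q => ?_
    simp only [hA]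
    split_ifs with hq
    · exact Set.finite_empty
    · exact (hsub _ hq).finite
  obtain ⟨c, hc⟩ := hfin.infinite_compl.nonempty
  refine ⟨c, fun γ hγ => ?_⟩
  by_contra hcon
  apply hc
  rw [Set.mem_iUnion]
  refine ⟨(γ⁻¹ : SL(2, ℤ)), ?_⟩
  obtain ⟨δ, hδ⟩ := QuotientGroup.mk_out_eq_mul Γ (γ⁻¹)
  simp only [hA]
  rw [hδ, mul_inv_rev, inv_inv]
  have hδ1 : (δ : SL(2, ℤ))⁻¹ ∈ Γ := inv_mem δ.2
  rw [if_neg]
  · intro τ
    rw [mul_smul, hv₁ _ (h1 hδ1), hv₂ _ (h2 hδ1)]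
    exact hγ τ
  · intro hmem
    apply hcon
    have := mul_mem (le_pm _ δ.2) hmem
    rwa [mul_inv_cancel_left] at this

/-- Separating data for the intersection. -/
theorem SepData.exists_inf {Γ₁ Γ₂ : Subgroup SL(2, ℤ)} [Γ.FiniteIndex] (S₁ : SepData ι Γ₁ h)
    (S₂ : SepData ι Γ₂ h) (h1 : Γ ≤ Γ₁) (h2 : Γ ≤ Γ₂) (h12 : pm Γ₁ ⊓ pm Γ₂ ≤ pm Γ) :
    ∃ (c : ℕ) (S : SepData ι Γ h), S.y = S₁.y + algebraMap K _ (c : K) * S₂.y := by
  obtain ⟨c, hc⟩ := exists_generic h1 h2 h12 S₁.mf.inv S₂.mf.inv S₁.sep S₂.sep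
  refine ⟨c, ⟨S₁.v + ι (c : K) • S₂.v, _, (S₁.mf.mono h1).add ((S₂.mf.mono h2).smul (c : K)), ?_⟩,
    rfl⟩
  intro γ hγ
  apply hc
  intro τ
  have := hγ τ
  simpa using this

/-! ### `Γ₁(N)` and `Γ(N)` for all `N` -/

theorem Gamma1_eq_Gamma0 {N : ℕ} (hN : N ∣ 2) : Gamma1 N = Gamma0 N := by
  have hN2 : N = 1 ∨ N = 2 := (Nat.dvd_prime Nat.prime_two).mp hN
  ext γ
  rw [Gamma1_mem, Gamma0_mem]
  refine ⟨fun h => h.2.2, fun h => ?_⟩
  have hdet : γ 0 0 * γ 1 1 - γ 0 1 * γ 1 0 = 1 := by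
    have h := γ.det_coe
    rwa [Matrix.det_fin_two] at h
  have hdet' : ((γ 0 0 : ℤ) : ZMod N) * ((γ 1 1 : ℤ) : ZMod N) = 1 := by
    have h1 := congrArg (Int.cast : ℤ → ZMod N) hdet
    push_cast at h1
    rw [h] at h1
    simpa using h1
  generalize ((γ 0 0 : ℤ) : ZMod N) = a at *
  generalize ((γ 1 1 : ℤ) : ZMod N) = d at *
  rcases hN2 with rfl | rfl
  · exact ⟨Subsingleton.elim _ _, Subsingleton.elim _ _, h⟩
  · refine ⟨?_, ?_, h⟩ <;> revert a d <;> decide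

variable (ι) in
/-- Separating data for `Γ₁(N)`, all `N`. -/
def sepG1 (N : ℕ) [NeZero N] : SepData ι (Gamma1 N) 1 :=
  if hN : 3 ≤ N then sepGamma1 ι N hN else
    (Gamma1_eq_Gamma0 (N := N) (by
      have := NeZero.ne N
      have h3 : N = 1 ∨ N = 2 := by omega
      rcases h3 with rfl | rfl <;> decide)) ▸ sepGamma0 ι N

/-- The Laurent series of the separating function of `Γ₁(N)`. -/
def sepG1Z (N : ℕ) [NeZero N] : LaurentSeries ℤ := if 3 ≤ N then sep1Z N else sep0Z N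

theorem sepG1_y (N : ℕ) [NeZero N] :
    (sepG1 ι N).y = coeffMap (Int.castRingHom K) (sepG1Z N) := by
  rw [sepG1, sepG1Z]
  split_ifs with hN
  · exact sepGamma1_y N hN
  · have key : ∀ (Γ : Subgroup SL(2, ℤ)) (e : Γ = Gamma0 N),
        ((e ▸ sepGamma0 ι N : SepData ι Γ 1)).y = (sepGamma0 ι N).y := by
      rintro Γ rfl
      rfl
    have hd : N ∣ 2 := by
      have := NeZero.ne N
      have h3 : N = 1 ∨ N = 2 := by omega
      rcases h3 with rfl | rfl <;> decide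
    exact (key _ (Gamma1_eq_Gamma0 hd)).trans (sepGamma0_y N)

theorem mem_cG_S_Gamma1 {M : ℕ} {γ : SL(2, ℤ)} : γ ∈ cG ModularGroup.S (Gamma1 M) ↔
    ((γ 0 0 : ℤ) : ZMod M) = 1 ∧ ((γ 1 1 : ℤ) : ZMod M) = 1 ∧ ((γ 0 1 : ℤ) : ZMod M) = 0 := by
  have h1 : ((ModularGroup.S * γ * ModularGroup.S⁻¹ : SL(2, ℤ)) : Matrix (Fin 2) (Fin 2) ℤ) =
      !![γ 1 1, -γ 1 0; -γ 0 1, γ 0 0] := by
    rw [Matrix.SpecialLinearGroup.coe_mul, Matrix.SpecialLinearGroup.coe_mul,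
      Matrix.SpecialLinearGroup.coe_inv, ModularGroup.S]
    ext i j
    fin_cases i <;> fin_cases j <;>
      simp [Matrix.mul_apply, Fin.sum_univ_two, Matrix.adjugate_fin_two, Matrix.vecMul, dotProduct]
  rw [mem_cG, Gamma1_mem, h1]
  simp
  tauto

theorem Gamma_eq_inf (M : ℕ) : Gamma M = Gamma1 M ⊓ cG ModularGroup.S (Gamma1 M) := by
  ext γ
  rw [Subgroup.mem_inf, mem_cG_S_Gamma1, Gamma1_mem, Gamma_mem]
  tauto

theorem pm_inf_le_pm_Gamma (M : ℕ) :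
    pm (Gamma1 M) ⊓ pm (cG ModularGroup.S (Gamma1 M)) ≤ pm (Gamma M) := by
  intro γ hγ
  obtain ⟨h1, h2⟩ := Subgroup.mem_inf.mp hγ
  rw [mem_pm] at h1 h2 ⊢
  simp only [mem_cG_S_Gamma1, Gamma1_mem, Gamma_mem, Matrix.SpecialLinearGroup.coe_neg,
    Matrix.neg_apply, Int.cast_neg, neg_eq_zero] at h1 h2 ⊢
  tauto

theorem T_pow_mem_Gamma (M : ℕ) : ModularGroup.T ^ M ∈ Gamma M := by
  have := ModularGroup_T_pow_mem_Gamma M M dvd_rfl
  simpa using this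

theorem T_mem_Gamma1 (N : ℕ) : ModularGroup.T ∈ Gamma1 N := by
  rw [Gamma1_mem]
  simp [ModularGroup.T]

theorem T_mem_Gamma0 (N : ℕ) : ModularGroup.T ∈ Gamma0 N := by
  rw [Gamma0_mem]
  simp [ModularGroup.T]

/-- Separating data for the principal congruence subgroup. -/
theorem exists_sepGamma [IsAlgClosed K] (M : ℕ) [NeZero M] :
    Nonempty (SepData ι (Gamma M) M) := by
  have hH : ModularGroup.S * ModularGroup.T ^ M * ModularGroup.S⁻¹ ∈ Gamma1 M := by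
    have h1 : ModularGroup.S * ModularGroup.T ^ M * ModularGroup.S⁻¹ ∈ Gamma M :=
      (Gamma_normal M).conj_mem _ (T_pow_mem_Gamma M) _
    rw [Gamma_eq_inf] at h1
    exact (Subgroup.mem_inf.mp h1).1
  obtain ⟨-, S, -⟩ := SepData.exists_inf (Γ := Gamma M) ((sepG1 ι M).expand' M)
    ((sepG1 ι M).conj hH) ((Gamma_eq_inf M).le.trans inf_le_left)
    ((Gamma_eq_inf M).le.trans inf_le_right) (pm_inf_le_pm_Gamma M)
  exact ⟨S⟩

/-- Separating data for `Γ₁(N) ∩ Γ₀(M)`, with integral coefficients. -/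
theorem exists_sepG10 (N M : ℕ) [NeZero N] [NeZero M] :
    ∃ c : ℕ, ∀ (h : ℕ) [NeZero h], ∃ S : SepData ι (Gamma1 N ⊓ Gamma0 M) h,
      S.y = qExpand K h (coeffMap (Int.castRingHom K) (sepG1Z N + (c : LaurentSeries ℤ) * sep0Z M)) := by
  have h12 : pm (Gamma1 N) ⊓ pm (Gamma0 M) ≤ pm (Gamma1 N ⊓ Gamma0 M) := by
    intro γ hγ
    obtain ⟨h1, h2⟩ := Subgroup.mem_inf.mp hγ
    rw [mem_pm] at h1 h2 ⊢
    simp only [Subgroup.mem_inf, Gamma0_mem, Gamma1_mem, Matrix.SpecialLinearGroup.coe_neg,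
      Matrix.neg_apply, Int.cast_neg, neg_eq_zero] at h1 h2 ⊢
    tauto
  obtain ⟨c, S, hS⟩ := SepData.exists_inf (Γ := Gamma1 N ⊓ Gamma0 M) (sepG1 ι N)
    (sepGamma0 ι M) inf_le_left inf_le_right h12
  refine ⟨c, fun h _ => ⟨S.expand' h, ?_⟩⟩
  show qExpand K h S.y = _
  rw [hS, sepG1_y, sepGamma0_y]
  simp only [map_add, map_mul, map_natCast]

end Fermat.Agent.FG
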