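import Mathlib
import Fermat.Agent.FG.Degree

/-!
# Galois theory of the field of modular functions on a normal subgroup
-/

set_option autoImplicit false
set_option linter.dupNamespace false

open UpperHalfPlane hiding I
open ModularForm Matrix.SpecialLinearGroup Filter Asymptotics
open scoped MatrixGroups Manifold ModularForm Topology IntermediateField

noncomputable section

namespace Fermat.Agent.FG

open Fermat.Agent.JLevelOne Fermat.Agent.X0Emb Fermat.Agent.ModFun ModularCurve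

section Abs

variable {K F : Type*} [Field K] [Field F] [Algebra K F]

/-- Automorphisms fixing `j` are automorphisms over `K(j)`. -/
theorem fix_adjoin {j : F} (ψ : F →ₐ[K] F) (h : ψ j = j) (x : F) (hx : x ∈ K⟮j⟯) : ψ x = x := by
  induction hx using IntermediateField.adjoin_induction with
  | mem x hx => rw [Set.mem_singleton_iff.mp hx, h]
  | algebraMap c => exact ψ.commutes c
  | add x y _ _ hx hy => rw [map_add, hx, hy]
  | inv x _ hx => rw [map_inv₀, hx]
  | mul x y _ _ hx hy => rw [map_mul, hx, hy]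

/-- The action over `K(j)`. -/
def overAdjoin {G : Type*} [Group G] (φ : G →* (F ≃ₐ[K] F)) (j : F) (hj : ∀ g, φ g j = j) :
    G →* (F ≃ₐ[K⟮j⟯] F) where
  toFun g := AlgEquiv.ofRingEquiv (f := (φ g).toRingEquiv)
    (fun r => fix_adjoin (φ g : F →ₐ[K] F) (hj g) r r.2)
  map_one' := by
    ext x
    change φ 1 x = x
    rw [map_one, AlgEquiv.one_apply]
  map_mul' a b := by
    ext x
    change φ (a * b) x = φ a (φ b x)
    rw [map_mul, AlgEquiv.mul_apply]

@[simp] theorem overAdjoin_apply {G : Type*} [Group G] (φ : G →* (F ≃ₐ[K] F)) (j : F)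
    (hj : ∀ g, φ g j = j) (g : G) (x : F) : overAdjoin φ j hj g x = φ g x := rfl

/-- A group acting with kernel of index `[F : E]`. -/
theorem galois_of_card {E F : Type*} [Field E] [Field F] [Algebra E F] [FiniteDimensional E F]
    {G : Type*} [Group G] (φ : G →* (F ≃ₐ[E] F)) (h : φ.ker.index = Module.finrank E F) :
    IsGalois E F ∧ Function.Surjective φ := by
  classical
  have h1 : φ.ker.index = Nat.card φ.range := by
    rw [Subgroup.index_ker]
  have h2 : Nat.card φ.range ≤ Nat.card (F ≃ₐ[E] F) := Subgroup.card_le_card_group _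
  have h3 : Nat.card (F ≃ₐ[E] F) ≤ Module.finrank E F := by
    rw [Nat.card_eq_fintype_card]
    exact AlgEquiv.card_le
  have h4 : Nat.card (F ≃ₐ[E] F) = Module.finrank E F := by omega
  refine ⟨IsGalois.of_card_aut_eq_finrank E F h4, ?_⟩
  rw [← MonoidHom.range_eq_top]
  apply Subgroup.eq_top_of_card_eq
  omega

end Abs

variable {K : Type*} [Field K] {ι : K →+* ℂ} {Γ : Subgroup SL(2, ℤ)} {h H : ℕ} {F : ℍ → ℂ}
  {y : LaurentSeries K}

theorem toMerH_congr [NeZero h] {Γ' : Subgroup SL(2, ℤ)} (hΓ : Γ' = Γ) (x : FG ι Γ' h)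
    (x' : FG ι Γ h) (hx : (x : LaurentSeries K) = x') : toMerH x = toMerH x' := by
  subst hΓ
  rw [Subtype.ext hx]

section Normal

variable [IsAlgClosed K] [Γ.FiniteIndex] [NeZero h] [hn : Γ.Normal]

omit [Γ.FiniteIndex] [NeZero h] in
theorem conj_T_pow_mem (hT : ModularGroup.T ^ h ∈ Γ) (γ : SL(2, ℤ)) :
    γ * ModularGroup.T ^ h * γ⁻¹ ∈ Γ := hn.conj_mem _ hT γ

variable (ι) in
/-- `F ↦ F ∘ γ` on the field of modular functions on a normal subgroup. -/
def conjEnd (hT : ModularGroup.T ^ h ∈ Γ) (γ : SL(2, ℤ)) : FG ι Γ h →ₐ[K] FG ι Γ h :=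
  (conjL ι h (conj_T_pow_mem hT γ)).codRestrict (FG ι Γ h).toSubalgebra (fun x => by
    have := conjL_mem ι h (conj_T_pow_mem hT γ) x
    rw [cG_of_normal] at this
    exact this)

@[simp] theorem coe_conjEnd (hT : ModularGroup.T ^ h ∈ Γ) (γ : SL(2, ℤ)) (x : FG ι Γ h) :
    ((conjEnd ι hT γ x : FG ι Γ h) : LaurentSeries K) = conjL ι h (conj_T_pow_mem hT γ) x := rfl

theorem toMerH_conjEnd (hT : ModularGroup.T ^ h ∈ Γ) (γ : SL(2, ℤ)) (x : FG ι Γ h) :
    toMerH (conjEnd ι hT γ x) = γ⁻¹ • toMerH x := by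
  have h1 := toMerH_congr (ι := ι) (h := h) (Γ' := cG γ Γ) (Γ := Γ) cG_of_normal
    (conjHom ι h (conj_T_pow_mem hT γ) x) (conjEnd ι hT γ x)
    ((coe_conjHom ι h (conj_T_pow_mem hT γ) x).trans (coe_conjEnd hT γ x).symm)
  rw [← h1]
  exact toMerH_conjHom ι h (conj_T_pow_mem hT γ) x

variable (ι) in
/-- The action of `SL(2,ℤ)` on the field of modular functions on a normal subgroup:
`γ F = F ∘ γ⁻¹`. -/
def actHom (hT : ModularGroup.T ^ h ∈ Γ) : SL(2, ℤ) →* (FG ι Γ h ≃ₐ[K] FG ι Γ h) where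
  toFun γ := AlgEquiv.ofAlgHom (conjEnd ι hT γ⁻¹) (conjEnd ι hT γ)
    (by
      apply AlgHom.ext
      intro x
      apply (toMerH : FG ι Γ h →+* MerH).injective
      rw [AlgHom.comp_apply, toMerH_conjEnd, toMerH_conjEnd, inv_inv, smul_inv_smul,
        AlgHom.id_apply])
    (by
      apply AlgHom.ext
      intro x
      apply (toMerH : FG ι Γ h →+* MerH).injective
      rw [AlgHom.comp_apply, toMerH_conjEnd, toMerH_conjEnd, inv_inv, inv_smul_smul,
        AlgHom.id_apply])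
  map_one' := by
    apply AlgEquiv.ext
    intro x
    apply (toMerH : FG ι Γ h →+* MerH).injective
    change toMerH (conjEnd ι hT 1⁻¹ x) = toMerH x
    rw [toMerH_conjEnd, inv_inv, one_smul]
  map_mul' γ δ := by
    apply AlgEquiv.ext
    intro x
    apply (toMerH : FG ι Γ h →+* MerH).injective
    change toMerH (conjEnd ι hT (γ * δ)⁻¹ x) = toMerH (conjEnd ι hT γ⁻¹ (conjEnd ι hT δ⁻¹ x))
    rw [toMerH_conjEnd, toMerH_conjEnd, toMerH_conjEnd, inv_inv, inv_inv, inv_inv, mul_smul]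

theorem actHom_apply (hT : ModularGroup.T ^ h ∈ Γ) (γ : SL(2, ℤ)) (x : FG ι Γ h) :
    actHom ι hT γ x = conjEnd ι hT γ⁻¹ x := rfl

theorem toMerH_actHom (hT : ModularGroup.T ^ h ∈ Γ) (γ : SL(2, ℤ)) (x : FG ι Γ h) :
    toMerH (actHom ι hT γ x) = γ • toMerH x := by
  rw [actHom_apply, toMerH_conjEnd, inv_inv]

/-- The action on modular functions. -/
theorem actHom_isMF (hT : ModularGroup.T ^ h ∈ Γ) (γ : SL(2, ℤ)) (hF : IsMF ι Γ h F y) :
    IsMF ι Γ h (fun τ => F (γ⁻¹ • τ)) (actHom ι hT γ ⟨y, hF.mem_FG⟩ : FG ι Γ h) := by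
  have h1 := conjL_isMF (conj_T_pow_mem hT γ⁻¹) hF
  rw [cG_of_normal] at h1
  exact h1

theorem actHom_jG (hT : ModularGroup.T ^ h ∈ Γ) (γ : SL(2, ℤ)) :
    actHom ι hT γ (jG ι Γ h) = jG ι Γ h :=
  Subtype.ext (conjL_jE ι h (conj_T_pow_mem hT γ⁻¹))

variable (ι) in
/-- The action over `K(j)`. -/
def galHom (hT : ModularGroup.T ^ h ∈ Γ) :
    SL(2, ℤ) →* (FG ι Γ h ≃ₐ[K⟮jG ι Γ h⟯] FG ι Γ h) :=
  overAdjoin (actHom ι hT) (jG ι Γ h) (actHom_jG hT)

theorem galHom_apply (hT : ModularGroup.T ^ h ∈ Γ) (γ : SL(2, ℤ)) (x : FG ι Γ h) :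
    galHom ι hT γ x = actHom ι hT γ x := rfl

/-- `Γ` acts trivially. -/
theorem actHom_of_mem (hT : ModularGroup.T ^ h ∈ Γ) {γ : SL(2, ℤ)} (hγ : γ ∈ pm Γ)
    (x : FG ι Γ h) : actHom ι hT γ x = x := by
  have key : ∀ a : AG ι Γ h, actHom ι hT γ (algebraMap (AG ι Γ h) (FG ι Γ h) a) =
      algebraMap (AG ι Γ h) (FG ι Γ h) a := by
    intro a
    have h1 := actHom_isMF hT γ (fn_spec a)
    have h2 : (fun τ => fn a (γ⁻¹ • τ)) = fn a := by
      funext τ
      exact (fn_spec a).pm.inv _ (inv_mem hγ) τ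
    rw [h2] at h1
    exact Subtype.ext (h1.unique (fn_spec a))
  obtain ⟨a, b, -, rfl⟩ := exists_div x
  rw [map_div₀, key, key]

theorem SepData.ker_galHom (S : SepData ι Γ h) (hT : ModularGroup.T ^ h ∈ Γ) :
    (galHom ι hT).ker = pm Γ := by
  ext γ
  rw [MonoidHom.mem_ker]
  constructor
  · intro h1
    have h2 := actHom_isMF hT γ S.mf
    have h3 : actHom ι hT γ ⟨S.y, S.mf.mem_FG⟩ = ⟨S.y, S.mf.mem_FG⟩ := by
      rw [← galHom_apply, h1, AlgEquiv.one_apply]
    rw [h3] at h2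
    have h4 := h2.funext' S.mf
    have h5 : γ⁻¹ ∈ pm Γ := S.sep _ fun τ => congrFun h4 τ
    simpa using inv_mem h5
  · intro hγ
    apply AlgEquiv.ext
    intro x
    rw [galHom_apply, actHom_of_mem hT hγ, AlgEquiv.one_apply]

set_option maxHeartbeats 1000000 in
set_option synthInstance.maxHeartbeats 200000 in
/-- **Galois theory**: the field of modular functions on a normal subgroup is Galois over `K(j)`
and `SL(2,ℤ)` surjects on the Galois group. -/
theorem SepData.galois (S : SepData ι Γ h) (hT : ModularGroup.T ^ h ∈ Γ) :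
    IsGalois K⟮jG ι Γ h⟯ (FG ι Γ h) ∧ Function.Surjective (galHom ι hT) := by
  have := S.finiteDimensional
  exact galois_of_card (galHom ι hT) (by rw [S.ker_galHom hT, S.finrank_eq])

end Normal

end Fermat.Agent.FG
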