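import Mathlib
import Fermat.Agent.FG.Degree
import Fermat.Agent.IntStruct.Division

/-!
# `AG` is the integral closure of `K[j]` in `FG`; denominators in `K[j]`; invariants
-/

set_option autoImplicit false
set_option linter.dupNamespace false

open UpperHalfPlane hiding I
open ModularForm Matrix.SpecialLinearGroup Filter Asymptotics
open scoped MatrixGroups Manifold ModularForm Topology IntermediateField

noncomputable section

namespace Fermat.Agent.FG

open Fermat.Agent.JLevelOne Fermat.Agent.X0Emb Fermat.Agent.ModFun ModularCurve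
  Fermat.Agent.IntStruct

variable {K : Type*} [Field K] {ι : K →+* ℂ} {Γ Γ' : Subgroup SL(2, ℤ)} {h H : ℕ}
  {F : ℍ → ℂ} {x y : LaurentSeries K}

theorem isMF_evJ [NeZero h] (Γ : Subgroup SL(2, ℤ)) (p : Polynomial K) :
    IsMF ι Γ h (fun τ => evJ ι τ p) (Polynomial.aeval (jE K h) p) := by
  have h1 := isMF_eval₂ (IsMF.one (ι := ι) Γ h) (Polynomial.C p)
  simpa using! h1

theorem evJ_smul (γ : SL(2, ℤ)) (τ : ℍ) (p : Polynomial K) : evJ ι (γ • τ) p = evJ ι τ p := by
  rw [evJ_apply, evJ_apply, jFun_smul]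

theorem growthInf_evJ (p : Polynomial K) : GrowthInf (fun τ => evJ ι τ p) := by
  have := (isMF_evJ (ι := ι) (h := 1) ⊤ p).growth.growthInf
  exact this

theorem lexp_vadd {h : ℝ} (hh : h ≠ 0) {f : ℍ → ℂ} {G : LaurentSeries ℂ} (hf : LExp h f G)
    (τ : ℍ) : f (h +ᵥ τ) = f τ := by
  have h1 := hf (h +ᵥ τ)
  have h2 : Function.Periodic.qParam h ((h +ᵥ τ : ℍ) : ℂ) =
      Function.Periodic.qParam h (τ : ℂ) := by
    rw [coe_vadd, Function.Periodic.qParam, Function.Periodic.qParam]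
    have hne : (h : ℂ) ≠ 0 := by exact_mod_cast hh
    have h2 : 2 * (Real.pi : ℂ) * Complex.I * ((h : ℂ) + τ) / (h : ℂ) =
        2 * Real.pi * Complex.I * τ / (h : ℂ) + 2 * Real.pi * Complex.I := by
      field_simp
      ring
    rw [h2, Complex.exp_add, Complex.exp_two_pi_mul_I, mul_one]
  rw [h2] at h1
  exact h1.unique (hf τ)

variable (ι Γ h) in
/-- `j` as an element of `AG`. -/
def jA [NeZero h] : AG ι Γ h := ⟨jE K h, jE_mem_AG Γ h⟩

theorem coe_aeval_jA [NeZero h] (p : Polynomial K) :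
    ((Polynomial.aeval (jA ι Γ h) p : AG ι Γ h) : LaurentSeries K) =
      Polynomial.aeval (jE K h) p := by
  have := Polynomial.aeval_algHom_apply (AG ι Γ h).val (jA ι Γ h) p
  exact this.symm

theorem eval₂_jA_eq_zero_iff [NeZero h] (P : Polynomial (Polynomial K)) (b : AG ι Γ h) :
    P.eval₂ (Polynomial.aeval (jA ι Γ h) : Polynomial K →ₐ[K] AG ι Γ h).toRingHom b = 0 ↔
      P.eval₂ (Polynomial.aeval (jE K h) : Polynomial K →ₐ[K] LaurentSeries K).toRingHom
        (b : LaurentSeries K) = 0 := by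
  have h1 := Polynomial.hom_eval₂ P
    (Polynomial.aeval (jA ι Γ h) : Polynomial K →ₐ[K] AG ι Γ h).toRingHom
    (AG ι Γ h).val.toRingHom b
  have h2 : (AG ι Γ h).val.toRingHom.comp
      (Polynomial.aeval (jA ι Γ h) : Polynomial K →ₐ[K] AG ι Γ h).toRingHom =
      (Polynomial.aeval (jE K h) : Polynomial K →ₐ[K] LaurentSeries K).toRingHom :=
    RingHom.ext fun p => coe_aeval_jA p
  rw [h2] at h1
  have h3 : (AG ι Γ h).val.toRingHom b = (b : LaurentSeries K) := rfl
  rw [h3] at h1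
  rw [← h1]
  constructor
  · intro h0
    rw [h0, map_zero]
  · intro h0
    exact Subtype.ext h0

/-- Every nonzero element divides a nonzero polynomial in `j`. -/
theorem exists_dvd_poly [Γ.FiniteIndex] [NeZero h] (b : AG ι Γ h) (hb : b ≠ 0) :
    ∃ (d : Polynomial K) (c : AG ι Γ h), d ≠ 0 ∧ Polynomial.aeval (jA ι Γ h) d = b * c := by
  let alg : Algebra (Polynomial K) (AG ι Γ h) :=
    (Polynomial.aeval (jA ι Γ h) : Polynomial K →ₐ[K] AG ι Γ h).toRingHom.toAlgebra
  obtain ⟨F, hF⟩ := b.2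
  obtain ⟨P, hPm, -, hP, -⟩ := hF.exists_monic
  have hint : IsIntegral (Polynomial K) b := ⟨P, hPm, (eval₂_jA_eq_zero_iff P b).mpr hP⟩
  obtain ⟨d, hd, c, hc⟩ := hint.isAlgebraic.exists_nonzero_dvd
    (mem_nonZeroDivisors_of_ne_zero hb)
  exact ⟨d, c, hd, hc⟩

include ι in
variable (ι) in
theorem aeval_jE_ne_zero [NeZero h] {d : Polynomial K} (hd : d ≠ 0) :
    Polynomial.aeval (jE K h) d ≠ 0 := fun h0 => hd (aeval_jE_injective ι (h := h) (by
      rw [h0, map_zero]))

/-- Denominators can be taken in `K[j]`. -/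
theorem exists_poly_mul_mem_AG [Γ.FiniteIndex] [NeZero h] (hx : x ∈ FG ι Γ h) :
    ∃ d : Polynomial K, d ≠ 0 ∧ Polynomial.aeval (jE K h) d * x ∈ AG ι Γ h := by
  obtain ⟨a, ha, b, hb, hb0, rfl⟩ := mem_FG_iff.mp hx
  obtain ⟨d, c, hd, hc⟩ := exists_dvd_poly (⟨b, hb⟩ : AG ι Γ h) (fun h0 => hb0
    (congrArg Subtype.val h0))
  refine ⟨d, hd, ?_⟩
  have h1 : Polynomial.aeval (jE K h) d = b * c := by
    rw [← coe_aeval_jA (ι := ι) (Γ := Γ), hc]
    rfl
  rw [h1]
  have h2 : b * (c : LaurentSeries K) * (a / b) = c * a := by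
    field_simp
  rw [h2]
  exact mul_mem c.2 ha

/-- Denominators can be taken in `K[j]`. -/
theorem exists_div_poly [Γ.FiniteIndex] [NeZero h] (x : FG ι Γ h) :
    ∃ (d : Polynomial K) (a : AG ι Γ h), d ≠ 0 ∧
      algebraMap (AG ι Γ h) (FG ι Γ h) (Polynomial.aeval (jA ι Γ h) d) ≠ 0 ∧
      algebraMap (AG ι Γ h) (FG ι Γ h) (Polynomial.aeval (jA ι Γ h) d) * x =
        algebraMap (AG ι Γ h) (FG ι Γ h) a := by
  obtain ⟨d, hd, ha⟩ := exists_poly_mul_mem_AG x.2
  refine ⟨d, ⟨_, ha⟩, hd, ?_, ?_⟩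
  · intro h0
    have h1 := congrArg (fun z : FG ι Γ h => (z : LaurentSeries K)) h0
    simp only [coe_algebraMap_AG, coe_aeval_jA, ZeroMemClass.coe_zero] at h1
    exact aeval_jE_ne_zero ι hd h1
  · apply Subtype.ext
    rw [MulMemClass.coe_mul, coe_algebraMap_AG, coe_algebraMap_AG, coe_aeval_jA]

/-- **`AG` is integrally closed.** -/
theorem mem_AG_of_integral [Γ.FiniteIndex] [NeZero h] (hx : x ∈ FG ι Γ h)
    {P : Polynomial (Polynomial K)} (hPm : P.Monic)
    (hP : P.eval₂ (Polynomial.aeval (jE K h) : Polynomial K →ₐ[K] LaurentSeries K).toRingHom x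
      = 0) : x ∈ AG ι Γ h := by
  obtain ⟨d, hd, U, hU⟩ := exists_poly_mul_mem_AG hx
  set v := Polynomial.aeval (jE K h) d with hv
  have hv0 : v ≠ 0 := aeval_jE_ne_zero ι hd
  have hV := isMF_evJ (ι := ι) (h := h) Γ d
  rw [← hv] at hV
  set V : ℍ → ℂ := fun τ => evJ ι τ d with hVdef
  have hV0 : V ≠ 0 := fun h0 => hv0 (hV.eq_zero_iff.mp h0)
  set n := P.natDegree with hn
  -- the relation
  have hrel : (v * x) ^ n + ∑ i ∈ Finset.range n, Polynomial.aeval (jE K h) (P.coeff i) *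
      (v * x) ^ i * v ^ (n - i) = 0 := by
    have h1 : v ^ n * P.eval₂ (Polynomial.aeval (jE K h) :
        Polynomial K →ₐ[K] LaurentSeries K).toRingHom x = 0 := by rw [hP, mul_zero]
    rw [Polynomial.eval₂_eq_sum_range, Finset.sum_range_succ, ← hn] at h1
    have h2 : P.coeff n = 1 := hPm
    rw [h2, map_one, one_mul, mul_add, ← mul_pow, add_comm, Finset.mul_sum] at h1
    rw [← h1]
    congr 1
    refine Finset.sum_congr rfl fun i hi => ?_
    have h3 : v ^ n = v ^ i * v ^ (n - i) := by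
      rw [← pow_add]
      congr 1
      have := Finset.mem_range.mp hi
      omega
    rw [h3, mul_pow]
    simp only [AlgHom.toRingHom_eq_coe, RingHom.coe_coe]
    ring
  have hfun : ∀ τ, U τ ^ n + ∑ i ∈ Finset.range n, evJ ι τ (P.coeff i) * U τ ^ i *
      V τ ^ (n - i) = 0 := by
    have h1 := (hU.pow n).add (IsMF.sum (Finset.range n)
      (F := fun i => (fun τ => evJ ι τ (P.coeff i)) * U ^ i * V ^ (n - i))
      (x := fun i => Polynomial.aeval (jE K h) (P.coeff i) * (v * x) ^ i * v ^ (n - i))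
      (fun i _ => ((isMF_evJ Γ (P.coeff i)).mul (hU.pow i)).mul (hV.pow _)))
    rw [hrel] at h1
    intro τ
    have h2 := congrFun (h1.funext' (IsMF.zero Γ h)) τ
    simpa [Finset.sum_apply] using h2
  obtain ⟨φ, hφ, hφU⟩ := exists_div_of_integral U V hU.mdiff hV.mdiff hV0 n
    (fun i τ => evJ ι τ (P.coeff i)) (fun i _ => (isMF_evJ (h := h) Γ (P.coeff i)).mdiff) hfun
  have hcancel : ∀ f g : ℍ → ℂ, MDiff f → MDiff g → (∀ τ, f τ * V τ = g τ * V τ) → f = g := by
    intro f g hf hg hfg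
    have h1 : (⟨f, hf⟩ : Hol) * ⟨V, hV.mdiff⟩ = ⟨g, hg⟩ * ⟨V, hV.mdiff⟩ :=
      Subtype.ext (funext hfg)
    have h2 : (⟨V, hV.mdiff⟩ : Hol) ≠ 0 := fun h0 => hV0 (congrArg Subtype.val h0)
    exact congrArg Subtype.val (mul_right_cancel₀ h2 h1)
  have hroot : ∀ τ, φ τ ^ n + ∑ i ∈ Finset.range n, evJ ι τ (P.coeff i) * φ τ ^ i = 0 := by
    have hmd : MDiff (fun τ => φ τ ^ n + ∑ i ∈ Finset.range n, evJ ι τ (P.coeff i) * φ τ ^ i) := by
      have h1 : MDiff (φ ^ n) := hφ.pow n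
      have h2 : ∀ i ∈ Finset.range n, MDiff ((fun τ => evJ ι τ (P.coeff i)) * φ ^ i) :=
        fun i _ => (isMF_evJ (h := h) Γ (P.coeff i)).mdiff.mul (hφ.pow i)
      have h3 : (∑ i ∈ Finset.range n, (fun τ => evJ ι τ (P.coeff i)) * φ ^ i) ∈ Hol :=
        sum_mem fun i hi => h2 i hi
      have h4 : φ ^ n + (∑ i ∈ Finset.range n, (fun τ => evJ ι τ (P.coeff i)) * φ ^ i) ∈ Hol :=
        add_mem h1 h3
      rw [mem_Hol] at h4
      convert h4 using 1
      funext τ
      simp [Finset.sum_apply]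
    -- multiply by `V ^ n`
    have hVn : (⟨V, hV.mdiff⟩ : Hol) ^ n ≠ 0 :=
      pow_ne_zero _ fun h0 => hV0 (congrArg Subtype.val h0)
    have h5 : (⟨_, hmd⟩ : Hol) * (⟨V, hV.mdiff⟩ : Hol) ^ n = 0 := by
      ext τ
      rw [Hol.mul_apply, Hol.pow_apply, Hol.mk_apply, Hol.mk_apply, Hol.zero_apply, ← hfun τ,
        add_mul, Finset.sum_mul, ← mul_pow, ← hφU τ]
      congr 1
      refine Finset.sum_congr rfl fun i hi => ?_
      have h3 : V τ ^ n = V τ ^ i * V τ ^ (n - i) := by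
        rw [← pow_add]
        congr 1
        have := Finset.mem_range.mp hi
        omega
      rw [h3, hφU τ, mul_pow]
      ring
    intro τ
    have h6 := (mul_eq_zero.mp h5).resolve_right hVn
    exact congrFun (congrArg Subtype.val h6) τ
  have hh : (0 : ℝ) < h := by exact_mod_cast Nat.pos_of_ne_zero (NeZero.ne h)
  -- growth
  have hgr : ∀ σ : SL(2, ℤ), GrowthInf (fun τ => φ (σ • τ)) := by
    intro σ
    have h1 : ∀ τ, ‖φ (σ • τ)‖ ≤ 1 + ∑ i ∈ Finset.range n, ‖evJ ι τ (P.coeff i)‖ := by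
      intro τ
      have := norm_le_of_monic_root (hroot (σ • τ))
      simpa only [evJ_smul] using this
    have h2 : GrowthInf (fun τ => ((1 + ∑ i ∈ Finset.range n, ‖evJ ι τ (P.coeff i)‖ : ℝ) : ℂ)) := by
      have h3 : ∀ s : Finset ℕ, GrowthInf
          (fun τ => ((1 + ∑ i ∈ s, ‖evJ ι τ (P.coeff i)‖ : ℝ) : ℂ)) := by
        intro s
        induction s using Finset.induction_on with
        | empty => simpa using GrowthInf.const 1
        | insert a s ha ih =>
          obtain ⟨m, hm⟩ := growthInf_evJ (ι := ι) (P.coeff a)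
          have h4 : GrowthInf (fun τ => ((‖evJ ι τ (P.coeff a)‖ : ℝ) : ℂ)) :=
            ⟨m, hm.norm_left.congr_left (fun τ => by simp) |>.of_norm_left⟩
          have h5 := ih.add h4
          convert! h5 using 1
          funext τ
          simp only [Pi.add_apply]
          rw [Finset.sum_insert ha]
          push_cast
          ring
      exact h3 _
    obtain ⟨m, hm⟩ := h2
    exact ⟨m, (IsBigO.of_norm_le h1).trans (Complex.isBigO_ofReal_left.mp hm)⟩
  -- periodicity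
  have hper : ∀ τ : ℍ, φ ((h : ℝ) +ᵥ τ) = φ τ := by
    have hT : MDiff (fun τ : ℍ => φ ((ModularGroup.T ^ h) • τ)) :=
      hφ.comp (UpperHalfPlane.mdifferentiable_smul (by simp))
    have h1 := hcancel (fun τ => φ ((ModularGroup.T ^ h) • τ)) φ hT hφ (fun τ => by
      rw [← hφU τ]
      have h2 : V τ = V ((ModularGroup.T ^ h) • τ) := (evJ_smul _ τ d).symm
      rw [h2, ← hφU, T_pow_smul]
      exact lexp_vadd hh.ne' hU.lexp τ)
    intro τ
    rw [← T_pow_smul]
    exact congrFun h1 τ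
  obtain ⟨G, hG⟩ := exists_lexp (h := h) hφ hper (by simpa using hgr 1)
  have hGx : G = coeffMap ι x := by
    have h1 := hG.mul hV.lexp
    have h2 : φ * V = U := funext fun τ => (hφU τ).symm
    rw [h2] at h1
    have h3 := h1.unique hh hU.lexp
    rw [map_mul, mul_comm] at h3
    exact mul_left_cancel₀ ((map_ne_zero _).mpr hv0) h3
  refine ⟨φ, hφ, fun γ hγ τ => ?_, hgr, hGx ▸ hG⟩
  have h1 := hcancel (fun τ => φ (γ • τ)) φ
    (hφ.comp (UpperHalfPlane.mdifferentiable_smul (by simp))) hφ (fun τ => by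
      rw [← hφU τ, ← hU.inv γ hγ τ, hφU (γ • τ)]
      congr 1
      exact (evJ_smul γ τ d).symm)
  exact congrFun h1 τ

end Fermat.Agent.FG
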