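import Mathlib
import Fermat.Agent.FG.AbsDegree

/-!
# Abstract Galois theory of a group acting on a field fixing `j`
-/

set_option autoImplicit false

noncomputable section

open scoped IntermediateField

namespace Fermat.Agent.FG

variable {K F : Type*} [Field K] [Field F] [Algebra K F] {G : Type*} [Group G]

/-- A family of endomorphisms compatible with multiplication gives a group action. -/
def mkAct (A : G → (F →ₐ[K] F)) (h1 : ∀ x, A 1 x = x) (hm : ∀ γ δ x, A γ (A δ x) = A (γ * δ) x) :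
    G →* (F ≃ₐ[K] F) where
  toFun γ := AlgEquiv.ofAlgHom (A γ) (A γ⁻¹)
    (AlgHom.ext fun x => by rw [AlgHom.comp_apply, hm, mul_inv_cancel, h1]; rfl)
    (AlgHom.ext fun x => by rw [AlgHom.comp_apply, hm, inv_mul_cancel, h1]; rfl)
  map_one' := AlgEquiv.ext h1
  map_mul' γ δ := AlgEquiv.ext fun x => (hm γ δ x).symm

@[simp] theorem mkAct_apply (A : G → (F →ₐ[K] F)) (h1 : ∀ x, A 1 x = x)
    (hm : ∀ γ δ x, A γ (A δ x) = A (γ * δ) x) (γ : G) (x : F) : mkAct A h1 hm γ x = A γ x := rfl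

theorem fix_of_mem_simple {j : F} {e : F ≃ₐ[K] F} (he : e j = j) {x : F} (hx : x ∈ K⟮j⟯) :
    e x = x := by
  have h1 := algHom_comp_val_eq (φ := e.toAlgHom) (ψ := AlgHom.id K F) (j := j) he
  exact congrArg (fun f : K⟮j⟯ →ₐ[K] F => f ⟨x, hx⟩) h1

/-- An automorphism fixing `j` as an automorphism over `K(j)`. -/
def autOver (j : F) (e : F ≃ₐ[K] F) (he : e j = j) : F ≃ₐ[K⟮j⟯] F :=
  AlgEquiv.ofRingEquiv (f := e.toRingEquiv) fun r => fix_of_mem_simple he r.2

@[simp] theorem autOver_apply (j : F) (e : F ≃ₐ[K] F) (he : e j = j) (x : F) :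
    autOver j e he x = e x := rfl

/-- A group action fixing `j` gives a homomorphism to the automorphism group over `K(j)`. -/
def overJ (φ : G →* (F ≃ₐ[K] F)) (j : F) (hj : ∀ g, φ g j = j) : G →* (F ≃ₐ[K⟮j⟯] F) where
  toFun g := autOver j (φ g) (hj g)
  map_one' := by
    ext x
    rw [autOver_apply, map_one]
    rfl
  map_mul' g g' := by
    ext x
    rw [autOver_apply, map_mul]
    rfl

@[simp] theorem overJ_apply (φ : G →* (F ≃ₐ[K] F)) (j : F) (hj : ∀ g, φ g j = j) (g : G) (x : F) :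
    overJ φ j hj g x = φ g x := rfl

theorem overJ_eq_one_iff (φ : G →* (F ≃ₐ[K] F)) (j : F) (hj : ∀ g, φ g j = j) (g : G) :
    overJ φ j hj g = 1 ↔ φ g = 1 := by
  constructor
  · intro h
    ext x
    exact congrArg (fun e : F ≃ₐ[K⟮j⟯] F => e x) h
  · intro h
    ext x
    exact congrArg (fun e : F ≃ₐ[K] F => e x) h

section

variable (φ : G →* (F ≃ₐ[K] F)) (j : F) (hj : ∀ g, φ g j = j) [FiniteDimensional K⟮j⟯ F]

include φ hj in
theorem galois_aux (N : Subgroup G) (hN : ∀ g, φ g = 1 → g ∈ N)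
    (hcard : Module.finrank K⟮j⟯ F ≤ N.index) :
    Nat.card (F ≃ₐ[K⟮j⟯] F) = Module.finrank K⟮j⟯ F ∧ Function.Surjective (overJ φ j hj) := by
  classical
  set f := overJ φ j hj with hf
  have hfin : Finite f.range := inferInstance
  have hker : f.ker ≤ N := fun g hg => hN g ((overJ_eq_one_iff φ j hj g).mp hg)
  have h1 : f.ker.index = Nat.card f.range := Subgroup.index_ker f
  have h1' : f.ker.index ≠ 0 := by
    rw [h1]
    exact Nat.card_pos.ne'
  have h2 : N.index ≤ f.ker.index := by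
    have : N.index ∣ f.ker.index := Subgroup.index_dvd_of_le hker
    exact Nat.le_of_dvd (Nat.pos_of_ne_zero h1') this
  have h3 : Nat.card f.range ≤ Nat.card (F ≃ₐ[K⟮j⟯] F) :=
    Nat.card_le_card_of_injective _ Subtype.val_injective
  have h4 : Nat.card (F ≃ₐ[K⟮j⟯] F) ≤ Module.finrank K⟮j⟯ F := by
    rw [Nat.card_eq_fintype_card]
    exact AlgEquiv.card_le
  refine ⟨by omega, ?_⟩
  have h5 : Nat.card f.range = Nat.card (F ≃ₐ[K⟮j⟯] F) := by omega
  have h6 : f.range = ⊤ := Subgroup.eq_top_of_card_eq _ h5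
  exact MonoidHom.range_eq_top.mp h6

include φ hj in
theorem isGalois_of_index (N : Subgroup G) (hN : ∀ g, φ g = 1 → g ∈ N)
    (hcard : Module.finrank K⟮j⟯ F ≤ N.index) : IsGalois K⟮j⟯ F :=
  IsGalois.of_card_aut_eq_finrank _ _ (galois_aux φ j hj N hN hcard).1

/-- The elements of `K(j)` are the invariants. -/
theorem mem_simple_iff_fixed [IsGalois K⟮j⟯ F] (hs : Function.Surjective (overJ φ j hj)) (x : F) :
    x ∈ K⟮j⟯ ↔ ∀ g, φ g x = x := by
  constructor
  · intro hx g
    exact fix_of_mem_simple (hj g) hx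
  · intro hx
    have h1 : x ∈ (⊥ : IntermediateField K⟮j⟯ F) := by
      rw [IsGalois.mem_bot_iff_fixed]
      intro f
      obtain ⟨g, rfl⟩ := hs f
      exact hx g
    rw [IntermediateField.mem_bot] at h1
    obtain ⟨y, rfl⟩ := h1
    exact y.2

/-- The fixed field of a subgroup. -/
def fixF (H : Subgroup G) : IntermediateField K⟮j⟯ F :=
  IntermediateField.fixedField (H.map (overJ φ j hj))

omit [FiniteDimensional K⟮j⟯ F] in
theorem mem_fixF (H : Subgroup G) (x : F) : x ∈ fixF φ j hj H ↔ ∀ g ∈ H, φ g x = x := by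
  rw [fixF, IntermediateField.mem_fixedField_iff]
  constructor
  · intro h g hg
    exact h _ (Subgroup.mem_map_of_mem _ hg)
  · rintro h _ ⟨g, hg, rfl⟩
    exact h g hg

theorem exists_of_fix_fixF (H : Subgroup G) (σ : F ≃ₐ[K⟮j⟯] F)
    (hσ : ∀ x ∈ fixF φ j hj H, σ x = x) : ∃ g ∈ H, overJ φ j hj g = σ := by
  have h1 : σ ∈ IntermediateField.fixingSubgroup (fixF φ j hj H) := by
    rw [IntermediateField.mem_fixingSubgroup_iff]
    exact hσ
  rw [fixF, IntermediateField.fixingSubgroup_fixedField] at h1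
  exact h1

end

end Fermat.Agent.FG
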