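import Mathlib
import Fermat.Prelude.Def_ModularCurve_X0ModL
import Fermat.Agent.FG.IntClosure

/-!
# Invariants and change of width
-/

set_option autoImplicit false
set_option linter.dupNamespace false

open UpperHalfPlane hiding I
open ModularForm Matrix.SpecialLinearGroup Filter Asymptotics
open scoped MatrixGroups Manifold ModularForm Topology IntermediateField

noncomputable section

namespace Fermat.Agent.FG

open Fermat.Agent.JLevelOne Fermat.Agent.X0Emb Fermat.Agent.ModFun ModularCurve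
  Fermat.Agent.IntStruct

variable {K : Type*} [Field K] {ι : K →+* ℂ} {Γ Γ' : Subgroup SL(2, ℤ)} {h H : ℕ}
  {F : ℍ → ℂ} {x y : LaurentSeries K}

/-! ### The meromorphic function attached to an expansion does not depend on the group -/

theorem hol_eq {a : AG ι Γ h} {a' : AG ι Γ' h} (haa : (a : LaurentSeries K) = a') :
    hol a = hol a' := by
  apply Subtype.ext
  have h1 := fn_spec a
  rw [haa] at h1
  exact h1.funext' (fn_spec a')

theorem toMerH_eq [NeZero h] {x : FG ι Γ h} {x' : FG ι Γ' h}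
    (hxx : (x : LaurentSeries K) = x') : toMerH x = toMerH x' := by
  obtain ⟨a, b, hb, rfl⟩ := exists_div x
  obtain ⟨a', b', hb', rfl⟩ := exists_div x'
  have hL : ((algebraMap (AG ι Γ h) (FG ι Γ h) a / algebraMap (AG ι Γ h) (FG ι Γ h) b : FG ι Γ h) :
      LaurentSeries K) = (a : LaurentSeries K) / b := rfl
  have hR : ((algebraMap (AG ι Γ' h) (FG ι Γ' h) a' / algebraMap (AG ι Γ' h) (FG ι Γ' h) b' :
      FG ι Γ' h) : LaurentSeries K) = (a' : LaurentSeries K) / b' := rfl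
  have hb0 : (b : LaurentSeries K) ≠ 0 := fun h0 => hb (Subtype.ext h0)
  have hb0' : (b' : LaurentSeries K) ≠ 0 := fun h0 => hb' (Subtype.ext h0)
  rw [hL, hR, div_eq_div_iff hb0 hb0'] at hxx
  set A : AG ι (Γ ⊓ Γ') h := ⟨a, AG_mono inf_le_left a.2⟩
  set B : AG ι (Γ ⊓ Γ') h := ⟨b, AG_mono inf_le_left b.2⟩
  set A' : AG ι (Γ ⊓ Γ') h := ⟨a', AG_mono inf_le_right a'.2⟩
  set B' : AG ι (Γ ⊓ Γ') h := ⟨b', AG_mono inf_le_right b'.2⟩
  have h1 : A * B' = A' * B := Subtype.ext hxx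
  have h2 := congrArg (hol : AG ι (Γ ⊓ Γ') h →+* Hol) h1
  rw [map_mul, map_mul, hol_eq (a := A) (a' := a) rfl, hol_eq (a := B) (a' := b) rfl,
    hol_eq (a := A') (a' := a') rfl, hol_eq (a := B') (a' := b') rfl] at h2
  have h3 := congrArg (algebraMap Hol MerH) h2
  rw [map_mul, map_mul] at h3
  have hb1 : algebraMap Hol MerH (hol b) ≠ 0 := by
    rw [← toMerH_algebraMap]
    exact (map_ne_zero _).mpr hb
  have hb1' : algebraMap Hol MerH (hol b') ≠ 0 := by
    rw [← toMerH_algebraMap]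
    exact (map_ne_zero _).mpr hb'
  rw [map_div₀, map_div₀, toMerH_algebraMap, toMerH_algebraMap, toMerH_algebraMap,
    toMerH_algebraMap, div_eq_div_iff hb1 hb1', h3]

theorem toMerH_injective [NeZero h] : Function.Injective (toMerH : FG ι Γ h →+* MerH) :=
  RingHom.injective (toMerH (ι := ι) (Γ := Γ) (h := h))

theorem toMerH_algebraMap' [NeZero h] (c : K) :
    toMerH (algebraMap K (FG ι Γ h) c) = algebraMap Hol MerH (constHol (ι c)) := by
  rw [IsScalarTower.algebraMap_apply K (AG ι Γ h) (FG ι Γ h), toMerH_algebraMap, hol_algebraMap]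

theorem fn_aeval_jA [NeZero h] (d : Polynomial K) :
    fn (Polynomial.aeval (jA ι Γ h) d : AG ι Γ h) = fun τ => evJ ι τ d := by
  apply fn_eq
  rw [coe_aeval_jA]
  exact isMF_evJ Γ d

theorem smul_hol_aeval_jA [NeZero h] (γ : SL(2, ℤ)) (d : Polynomial K) :
    γ • hol (Polynomial.aeval (jA ι Γ h) d : AG ι Γ h) = hol (Polynomial.aeval (jA ι Γ h) d) := by
  ext τ
  rw [Hol.smul_apply, coe_hol, fn_aeval_jA]
  exact evJ_smul _ τ d

/-! ### Invariants of a larger group -/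

theorem smul_toMerH_of_mem [NeZero h] (x : FG ι Γ h) {γ : SL(2, ℤ)} (hγ : γ ∈ Γ) :
    γ • toMerH x = toMerH x := by
  have key : ∀ a : AG ι Γ h, γ • hol a = hol a := by
    intro a
    ext τ
    rw [Hol.smul_apply, coe_hol]
    exact (fn_spec a).inv _ (inv_mem hγ) τ
  obtain ⟨a, b, hb, rfl⟩ := exists_div x
  rw [map_div₀, smul_div₀', toMerH_algebraMap, toMerH_algebraMap, smul_algebraMap_merH,
    smul_algebraMap_merH, key, key]

/-- Invariants of a larger group. -/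
theorem mem_FG_of_smul_eq [Γ.FiniteIndex] [NeZero h] (x : FG ι Γ h)
    (hx : ∀ γ ∈ Γ', γ • toMerH x = toMerH x) : (x : LaurentSeries K) ∈ FG ι Γ' h := by
  obtain ⟨d, a, hd, hd0, hda⟩ := exists_div_poly x
  have ha : ∀ γ ∈ Γ', γ • hol a = hol a := by
    intro γ hγ
    apply IsFractionRing.injective Hol MerH
    rw [← smul_algebraMap_merH, ← toMerH_algebraMap, ← hda, map_mul, smul_mul', hx γ hγ,
      toMerH_algebraMap, smul_algebraMap_merH, smul_hol_aeval_jA]
  have haG : IsMF ι Γ' h (fn a) a := by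
    refine ⟨(fn_spec a).mdiff, fun γ hγ τ => ?_, (fn_spec a).growth, (fn_spec a).lexp⟩
    have h1 := congrArg (fun f : Hol => f τ) (ha γ⁻¹ (inv_mem hγ))
    simp only [Hol.smul_apply, inv_inv, coe_hol] at h1
    exact h1
  have hdG : Polynomial.aeval (jE K h) d ∈ FG ι Γ' h := (isMF_evJ Γ' d).mem_FG
  have hd1 : Polynomial.aeval (jE K h) d ≠ 0 := aeval_jE_ne_zero ι hd
  have hxa : (x : LaurentSeries K) = a / Polynomial.aeval (jE K h) d := by
    rw [eq_div_iff hd1, mul_comm]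
    have h1 := congrArg (fun z : FG ι Γ h => (z : LaurentSeries K)) hda
    simp only [MulMemClass.coe_mul, coe_algebraMap_AG, coe_aeval_jA] at h1
    exact h1
  rw [hxa]
  exact div_mem haG.mem_FG hdG

theorem mem_FG_iff_smul_eq [Γ.FiniteIndex] [NeZero h] (x : FG ι Γ h) :
    (x : LaurentSeries K) ∈ FG ι Γ' h ↔ ∀ γ ∈ Γ', γ • toMerH x = toMerH x := by
  refine ⟨fun hx γ hγ => ?_, mem_FG_of_smul_eq x⟩
  have h1 := smul_toMerH_of_mem (⟨x, hx⟩ : FG ι Γ' h) hγ
  rwa [toMerH_eq (x := (⟨x, hx⟩ : FG ι Γ' h)) (x' := x) rfl] at h1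

/-! ### Change of width -/

theorem IsMF.descend_width [NeZero h] {e : ℕ} [NeZero e] (hF : IsMF ι Γ (e * h) F y)
    (hper : ∀ τ : ℍ, F ((h : ℝ) +ᵥ τ) = F τ) : ∃ y' : LaurentSeries K, y = qExpand K e y' ∧
      IsMF ι Γ h F y' := by
  have hh : (0 : ℝ) < h := by exact_mod_cast Nat.pos_of_ne_zero (NeZero.ne h)
  have he : (0 : ℝ) < e := by exact_mod_cast Nat.pos_of_ne_zero (NeZero.ne e)
  obtain ⟨G, hG⟩ := exists_lexp hF.mdiff hper hF.growth.growthInf
  have h1 : coeffMap ι y = qExpand ℂ e G := by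
    have h2 := hG.expand hh.ne' e
    have h3 := hF.lexp
    rw [Nat.cast_mul] at h3
    exact h3.unique (by positivity) h2
  have h2 : ∀ n : ℤ, ι (y.coeff (e * n)) = G.coeff n := by
    intro n
    have h3 := congrArg (fun z : LaurentSeries ℂ => z.coeff (e * n)) h1
    simp only [coeffMap_coeff] at h3
    rw [h3, qExpand_coeff_mul]
  let y' : LaurentSeries K := ⟨fun n => y.coeff (e * n), by
    refine G.isPWO_support.mono ?_
    intro n hn
    rw [Function.mem_support] at hn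
    rw [HahnSeries.mem_support, ← h2]
    exact (map_ne_zero ι).mpr hn⟩
  have h3 : coeffMap ι y' = G := by
    ext n
    rw [coeffMap_coeff]
    exact h2 n
  refine ⟨y', ?_, hF.mdiff, hF.inv, hF.growth, by rw [h3]; exact hG⟩
  apply coeffMap_injective ι
  rw [coeffMap_qExpand', h3, h1]

theorem mem_AG_mul_iff [NeZero h] {e : ℕ} [NeZero e] (hT : ModularGroup.T ^ h ∈ Γ) :
    y ∈ AG ι Γ (e * h) ↔ ∃ y' ∈ AG ι Γ h, qExpand K e y' = y := by
  constructor
  · rintro ⟨F, hF⟩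
    obtain ⟨y', h1, h2⟩ := hF.descend_width (fun τ => by
      rw [← T_pow_smul]
      exact hF.inv _ hT τ)
    exact ⟨y', h2.mem_AG, h1.symm⟩
  · rintro ⟨y', ⟨F, hF⟩, rfl⟩
    exact (hF.expand e).mem_AG

theorem mem_FG_mul_iff [NeZero h] {e : ℕ} [NeZero e] (hT : ModularGroup.T ^ h ∈ Γ) :
    y ∈ FG ι Γ (e * h) ↔ ∃ y' ∈ FG ι Γ h, qExpand K e y' = y := by
  rw [mem_FG_iff]
  constructor
  · rintro ⟨a, ha, b, hb, hb0, rfl⟩
    obtain ⟨a', ha', rfl⟩ := (mem_AG_mul_iff hT).mp ha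
    obtain ⟨b', hb', rfl⟩ := (mem_AG_mul_iff hT).mp hb
    exact ⟨a' / b', div_mem (AG_le_FG ha') (AG_le_FG hb'), map_div₀ _ _ _⟩
  · rintro ⟨y', hy', rfl⟩
    obtain ⟨a, ha, b, hb, hb0, rfl⟩ := mem_FG_iff.mp hy'
    exact ⟨_, (mem_AG_mul_iff hT).mpr ⟨a, ha, rfl⟩, _, (mem_AG_mul_iff hT).mpr ⟨b, hb, rfl⟩,
      (map_ne_zero _).mpr hb0, map_div₀ _ _ _⟩

/-- `FG` at a multiple of the width. -/
theorem FG_mul [NeZero h] {e : ℕ} [NeZero e] (hT : ModularGroup.T ^ h ∈ Γ) :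
    FG ι Γ (e * h) = (FG ι Γ h).map (qExpandAlgHomC K e) := by
  ext y
  rw [mem_FG_mul_iff hT, IntermediateField.mem_map]
  rfl

/-- `FG` at width `h` when `T ∈ Γ`. -/
theorem FG_eq_map [NeZero h] (hT : ModularGroup.T ∈ Γ) :
    FG ι Γ h = (FG ι Γ 1).map (qExpandAlgHomC K h) := by
  have h1 := FG_mul (K := K) (ι := ι) (Γ := Γ) (h := 1) (e := h) (by rwa [pow_one])
  rwa [mul_one] at h1

theorem mem_FG_iff_exists_qExpand [NeZero h] (hT : ModularGroup.T ∈ Γ) :
    y ∈ FG ι Γ h ↔ ∃ y' ∈ FG ι Γ 1, qExpand K h y' = y := by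
  rw [FG_eq_map hT, IntermediateField.mem_map]
  rfl

theorem mem_AG_iff_exists_qExpand [NeZero h] (hT : ModularGroup.T ∈ Γ) :
    y ∈ AG ι Γ h ↔ ∃ y' ∈ AG ι Γ 1, qExpand K h y' = y := by
  have h1 := mem_AG_mul_iff (K := K) (ι := ι) (Γ := Γ) (h := 1) (e := h) (y := y)
    (by rwa [pow_one])
  rwa [mul_one] at h1

end Fermat.Agent.FG
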