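import Mathlib
import Fermat.Agent.FG.Inv
import Fermat.Agent.FG.AbsGalois

/-!
# Galois theory of the field of modular functions on a normal subgroup
-/

set_option autoImplicit false
set_option linter.dupNamespace false

open UpperHalfPlane hiding I
open ModularForm Matrix.SpecialLinearGroup Filter Asymptotics
open scoped MatrixGroups Manifold ModularForm Topology IntermediateField

noncomputable section

namespace Fermat.Agent.FG

open Fermat.Agent.JLevelOne Fermat.Agent.X0Emb Fermat.Agent.ModFun ModularCurve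
  Fermat.Agent.IntStruct

variable {K : Type*} [Field K] {ι : K →+* ℂ} {Γ Γ' : Subgroup SL(2, ℤ)} {h H : ℕ}
  {F : ℍ → ℂ} {x y : LaurentSeries K}

/-! ### The action of `SL(2, ℤ)` for normal `Γ` -/

theorem merH_mul_smul (γ δ : SL(2, ℤ)) (z : MerH) : (γ * δ) • z = γ • δ • z := mul_smul γ δ z

theorem merH_one_smul (z : MerH) : (1 : SL(2, ℤ)) • z = z := one_smul _ z

theorem neg_one_smul_merH (z : MerH) : (-1 : SL(2, ℤ)) • z = z := by
  have key : ∀ f : Hol, (-1 : SL(2, ℤ)) • f = f := by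
    intro f
    ext τ
    rw [Hol.smul_apply]
    have h1 : ((-1 : SL(2, ℤ)))⁻¹ = -1 := by
      rw [inv_eq_iff_mul_eq_one, neg_mul_neg, one_mul]
    rw [h1, ModularGroup.SL_neg_smul, one_smul]
  obtain ⟨a, b, hb, rfl⟩ := IsFractionRing.div_surjective (A := Hol) z
  rw [smul_div₀', smul_algebraMap_merH, smul_algebraMap_merH, key, key]

theorem neg_smul_merH (γ : SL(2, ℤ)) (z : MerH) : (-γ) • z = γ • z := by
  have h1 : -γ = γ * (-1 : SL(2, ℤ)) := by rw [mul_neg, mul_one]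
  rw [h1, merH_mul_smul, neg_one_smul_merH]


section action

variable (ι) [IsAlgClosed K] [Γ.FiniteIndex] [hN : Γ.Normal] [NeZero h]
  (hT : ModularGroup.T ^ h ∈ Γ)

/-- `F ↦ F ∘ γ` on the field of modular functions of a normal subgroup. -/
def actL (γ : SL(2, ℤ)) : FG ι Γ h →ₐ[K] FG ι Γ h :=
  (conjL ι h (hN.conj_mem _ hT γ)).codRestrict (FG ι Γ h).toSubalgebra fun x => by
    have := conjL_mem ι h (hN.conj_mem _ hT γ) x
    rw [cG_of_normal] at this
    exact this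

theorem coe_actL (γ : SL(2, ℤ)) (x : FG ι Γ h) : ((actL ι hT γ x : FG ι Γ h) : LaurentSeries K) =
    conjL ι h (hN.conj_mem _ hT γ) x := rfl

theorem toMerH_actL (γ : SL(2, ℤ)) (x : FG ι Γ h) :
    toMerH (actL ι hT γ x) = γ⁻¹ • toMerH x :=
  (toMerH_eq (x := actL ι hT γ x) (x' := conjHom ι h (hN.conj_mem _ hT γ) x)
    (by rw [coe_actL, coe_conjHom])).trans (toMerH_conjHom ι h (hN.conj_mem _ hT γ) x)

theorem toMerH_actL_inv (γ : SL(2, ℤ)) (x : FG ι Γ h) :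
    toMerH (actL ι hT γ⁻¹ x) = γ • toMerH x := by
  rw [toMerH_actL, inv_inv]

theorem actL_one (x : FG ι Γ h) : actL ι hT (1 : SL(2, ℤ))⁻¹ x = x :=
  toMerH_injective (by rw [toMerH_actL_inv, merH_one_smul])

theorem actL_actL (γ δ : SL(2, ℤ)) (x : FG ι Γ h) :
    actL ι hT γ⁻¹ (actL ι hT δ⁻¹ x) = actL ι hT (γ * δ)⁻¹ x :=
  toMerH_injective (by
    rw [toMerH_actL_inv, toMerH_actL_inv, toMerH_actL_inv, merH_mul_smul])

/-- The action of `SL(2, ℤ)` on the field of modular functions of a normal subgroup. -/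
def act : SL(2, ℤ) →* (FG ι Γ h ≃ₐ[K] FG ι Γ h) :=
  mkAct (fun γ => actL ι hT γ⁻¹) (actL_one ι hT) (actL_actL ι hT)

theorem act_apply (γ : SL(2, ℤ)) (x : FG ι Γ h) : act ι hT γ x = actL ι hT γ⁻¹ x := rfl

theorem toMerH_act (γ : SL(2, ℤ)) (x : FG ι Γ h) : toMerH (act ι hT γ x) = γ • toMerH x :=
  toMerH_actL_inv ι hT γ x

theorem coe_act (γ : SL(2, ℤ)) (x : FG ι Γ h) : ((act ι hT γ x : FG ι Γ h) : LaurentSeries K) =
    conjL ι h (hN.conj_mem _ hT γ⁻¹) x := rfl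

theorem act_isMF (γ : SL(2, ℤ)) (hF : IsMF ι Γ h F y) :
    IsMF ι Γ h (fun τ => F (γ⁻¹ • τ)) (act ι hT γ ⟨y, hF.mem_FG⟩ : FG ι Γ h) := by
  have h1 := conjL_isMF (hN.conj_mem _ hT γ⁻¹) hF
  rw [cG_of_normal] at h1
  exact h1

theorem act_jG (γ : SL(2, ℤ)) : act ι hT γ (jG ι Γ h) = jG ι Γ h :=
  Subtype.ext (conjL_jE ι h _)

theorem act_apply_of_mem {γ : SL(2, ℤ)} (hγ : γ ∈ Γ) (x : FG ι Γ h) : act ι hT γ x = x :=
  toMerH_injective (by rw [toMerH_act, smul_toMerH_of_mem x hγ])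

theorem act_of_mem {γ : SL(2, ℤ)} (hγ : γ ∈ Γ) : act ι hT γ = 1 :=
  AlgEquiv.ext (act_apply_of_mem ι hT hγ)

theorem act_neg_apply (γ : SL(2, ℤ)) (x : FG ι Γ h) : act ι hT (-γ) x = act ι hT γ x :=
  toMerH_injective (by
    rw [toMerH_act, toMerH_act, neg_smul_merH])

theorem act_neg (γ : SL(2, ℤ)) : act ι hT (-γ) = act ι hT γ :=
  AlgEquiv.ext (act_neg_apply ι hT γ)

theorem SepData.mem_pm_of_act_eq_one (S : SepData ι Γ h) {γ : SL(2, ℤ)}
    (hγ : act ι hT γ = 1) : γ ∈ pm Γ := by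
  have h1 := act_isMF ι hT γ S.mf
  rw [hγ] at h1
  have h2 : γ⁻¹ ∈ pm Γ := S.sep _ fun τ => congrFun (h1.funext' S.mf) τ
  simpa using inv_mem h2

theorem act_eq_one_iff (S : SepData ι Γ h) {γ : SL(2, ℤ)} :
    act ι hT γ = 1 ↔ γ ∈ pm Γ := by
  refine ⟨S.mem_pm_of_act_eq_one ι hT, ?_⟩
  rintro (h1 | h1)
  · exact act_of_mem ι hT h1
  · rw [← act_neg, act_of_mem ι hT h1]

end action

end Fermat.Agent.FG
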