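import Mathlib
import Fermat.Agent.FG.Action
import Fermat.Agent.FG.Galois
import Fermat.Agent.FG.SepCong

/-!
# The Galois group of the field of modular functions over `K(j)`
-/

set_option autoImplicit false
set_option linter.dupNamespace false

open UpperHalfPlane hiding I
open ModularForm Matrix.SpecialLinearGroup Filter Asymptotics CongruenceSubgroup
open scoped MatrixGroups Manifold ModularForm Topology IntermediateField

noncomputable section

namespace Fermat.Agent.FG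

open Fermat.Agent.JLevelOne Fermat.Agent.X0Emb Fermat.Agent.ModFun ModularCurve
  Fermat.Agent.IntStruct

variable {K : Type*} [Field K] (ι : K →+* ℂ) {Γ Γ' : Subgroup SL(2, ℤ)} {h H : ℕ}
  {F : ℍ → ℂ} {x y : LaurentSeries K}

section galois

variable [IsAlgClosed K] [Γ.FiniteIndex] [hN : Γ.Normal] [NeZero h]
  (hT : ModularGroup.T ^ h ∈ Γ)

/-- The action of `SL(2, ℤ)` by automorphisms over `K(j)`. -/
def actJ : SL(2, ℤ) →* (FG ι Γ h ≃ₐ[K⟮jG ι Γ h⟯] FG ι Γ h) :=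
  overJ (act ι hT) (jG ι Γ h) (act_jG ι hT)

theorem act_eq_actHom : act ι hT = actHom ι hT :=
  MonoidHom.ext fun γ => AlgEquiv.ext fun x => Subtype.ext (by
    rw [coe_act, actHom_apply, coe_conjEnd])

@[simp] theorem actJ_apply (γ : SL(2, ℤ)) (x : FG ι Γ h) : actJ ι hT γ x = act ι hT γ x := rfl

variable {ι}

include hT in
theorem SepData.isGalois (S : SepData ι Γ h) : IsGalois K⟮jG ι Γ h⟯ (FG ι Γ h) := by
  have := S.finiteDimensional
  exact isGalois_of_index (act ι hT) (jG ι Γ h) (act_jG ι hT) (pm Γ)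
    (fun g hg => S.mem_pm_of_act_eq_one ι hT hg) S.finrank_eq.le

theorem SepData.actJ_surjective (S : SepData ι Γ h) : Function.Surjective (actJ ι hT) := by
  have := S.finiteDimensional
  exact (galois_aux (act ι hT) (jG ι Γ h) (act_jG ι hT) (pm Γ)
    (fun g hg => S.mem_pm_of_act_eq_one ι hT hg) S.finrank_eq.le).2

theorem actJ_eq_one_iff (S : SepData ι Γ h) {γ : SL(2, ℤ)} : actJ ι hT γ = 1 ↔ γ ∈ pm Γ :=
  (overJ_eq_one_iff _ _ _ γ).trans (act_eq_one_iff ι hT S)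

theorem actJ_of_mem {γ : SL(2, ℤ)} (hγ : γ ∈ Γ) : actJ ι hT γ = 1 :=
  (overJ_eq_one_iff _ _ _ γ).mpr (act_of_mem ι hT hγ)

variable (ι) in
/-- The subfield of functions on the larger group `Γ'`. -/
def subJ (Γ' : Subgroup SL(2, ℤ)) : IntermediateField K⟮jG ι Γ h⟯ (FG ι Γ h) :=
  fixF (act ι hT) (jG ι Γ h) (act_jG ι hT) Γ'

theorem mem_subJ_iff_act {x : FG ι Γ h} :
    x ∈ subJ ι hT Γ' ↔ ∀ γ ∈ Γ', act ι hT γ x = x := mem_fixF _ _ _ _ _

theorem mem_subJ {x : FG ι Γ h} :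
    x ∈ subJ ι hT Γ' ↔ (x : LaurentSeries K) ∈ FG ι Γ' h := by
  rw [mem_subJ_iff_act, mem_FG_iff_smul_eq]
  refine forall₂_congr fun γ _ => ?_
  rw [← toMerH_act ι hT γ x]
  exact toMerH_injective.eq_iff.symm

/-- Automorphisms fixing the functions on `Γ'` come from `Γ'`. -/
theorem SepData.exists_of_fix (S : SepData ι Γ h) (σ : FG ι Γ h ≃ₐ[K⟮jG ι Γ h⟯] FG ι Γ h)
    (hσ : ∀ x ∈ subJ ι hT Γ', σ x = x) : ∃ γ ∈ Γ', actJ ι hT γ = σ := by
  have := S.finiteDimensional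
  exact exists_of_fix_fixF (act ι hT) (jG ι Γ h) (act_jG ι hT) Γ' σ hσ

/-- Level one functions. -/
theorem SepData.mem_simple_iff (S : SepData ι Γ h) (x : FG ι Γ h) :
    x ∈ K⟮jG ι Γ h⟯ ↔ ∀ γ, act ι hT γ x = x := by
  have := S.finiteDimensional
  have := S.isGalois hT
  exact mem_simple_iff_fixed (act ι hT) (jG ι Γ h) (act_jG ι hT) (S.actJ_surjective hT) x

end galois

/-! ### The action of `T` -/

theorem lexp_T {N : ℕ} [NeZero N] {f : ℍ → ℂ} {G : LaurentSeries ℂ} (hf : LExp N f G) :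
    LExp N (fun τ ↦ f ((ModularGroup.T : SL(2, ℤ))⁻¹ • τ)) (twist (zetaU 1 N)⁻¹ G) := by
  intro τ
  have hN : (N : ℂ) ≠ 0 := by exact_mod_cast NeZero.ne N
  have h1 := hf ((ModularGroup.T : SL(2, ℤ))⁻¹ • τ)
  have h2 : (((ModularGroup.T : SL(2, ℤ))⁻¹ • τ : ℍ) : ℂ) = τ - 1 := by
    have := UpperHalfPlane.modular_T_zpow_smul τ (-1)
    rw [zpow_neg_one] at this
    rw [this, UpperHalfPlane.coe_vadd]; push_cast; ring
  have hq : Function.Periodic.qParam N (((ModularGroup.T : SL(2, ℤ))⁻¹ • τ : ℍ) : ℂ) =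
      ((zetaU 1 N)⁻¹ : ℂˣ) * Function.Periodic.qParam N τ := by
    rw [h2, zetaU, Units.val_inv_eq_inv_val, Units.val_mk0, Function.Periodic.qParam,
      Function.Periodic.qParam, ← Complex.exp_neg, ← Complex.exp_add]
    congr 1
    simp only [Complex.ofReal_natCast, Nat.cast_one]
    field_simp
    ring
  convert! h1 using 2 with n
  rw [hq, mul_zpow, twist_coeff, ← Units.val_zpow_eq_zpow_val]
  ring

/-- The root of unity `exp (2πi/N)` in `K`. -/
theorem exists_zetaU [IsAlgClosed K] (N : ℕ) [NeZero N] :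
    ∃ ζ : Kˣ, Units.map (ι : K →* ℂ) ζ = zetaU 1 N ∧ IsPrimitiveRoot (ζ : K) N := by
  have hch : CharZero K := ι.charZero
  obtain ⟨ζ, hζ⟩ := HasEnoughRootsOfUnity.exists_primitiveRoot K N
  have hζ' : IsPrimitiveRoot (ι ζ) N := hζ.map_of_injective ι.injective
  have h1 : IsPrimitiveRoot ((zetaU 1 N : ℂˣ) : ℂ) N := by
    have := Complex.isPrimitiveRoot_exp N (NeZero.ne N)
    rw [zetaU, Units.val_mk0]
    simpa using this
  obtain ⟨i, -, hi⟩ := hζ'.eq_pow_of_pow_eq_one h1.pow_eq_one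
  have hu : IsUnit (ζ ^ i) := (hζ.isUnit (NeZero.ne N)).pow i
  refine ⟨hu.unit, Units.ext ?_, ?_⟩
  · rw [Units.coe_map, MonoidHom.coe_coe, IsUnit.unit_spec, map_pow, hi]
  · rw [IsUnit.unit_spec]
    apply IsPrimitiveRoot.of_map_of_injective (f := ι) ?_ ι.injective
    rw [map_pow, hi]
    exact h1

theorem act_T_AG [IsAlgClosed K] [Γ.FiniteIndex] [hN : Γ.Normal] [NeZero h]
    (hT : ModularGroup.T ^ h ∈ Γ) {ζ : Kˣ} (hζ : Units.map (ι : K →* ℂ) ζ = zetaU 1 h)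
    (hF : IsMF ι Γ h F y) :
    ((act ι hT ModularGroup.T ⟨y, hF.mem_FG⟩ : FG ι Γ h) : LaurentSeries K) = twist ζ⁻¹ y := by
  have hh : (0 : ℝ) < h := by exact_mod_cast Nat.pos_of_ne_zero (NeZero.ne h)
  have h1 := (act_isMF ι hT ModularGroup.T hF).lexp
  have h2 := lexp_T hF.lexp
  apply coeffMap_injective ι
  rw [twist_coeffMap, map_inv]
  have h3 : (Units.map (ι : K →* ℂ)) ζ = zetaU 1 h := hζ
  exact (h1.unique hh h2).trans (by rw [← h3])

theorem act_T [IsAlgClosed K] [Γ.FiniteIndex] [hN : Γ.Normal] [NeZero h]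
    (hT : ModularGroup.T ^ h ∈ Γ) {ζ : Kˣ} (hζ : Units.map (ι : K →* ℂ) ζ = zetaU 1 h)
    (x : FG ι Γ h) :
    ((act ι hT ModularGroup.T x : FG ι Γ h) : LaurentSeries K) = twist ζ⁻¹ (x : LaurentSeries K) := by
  obtain ⟨a, ha, b, hb, hb0, hx⟩ := mem_FG_iff.mp x.2
  obtain ⟨Fa, hFa⟩ := ha
  obtain ⟨Fb, hFb⟩ := hb
  have h1 : x = (⟨a, hFa.mem_FG⟩ : FG ι Γ h) / ⟨b, hFb.mem_FG⟩ := Subtype.ext hx
  have h2 := act_T_AG ι hT hζ hFa
  have h3 := act_T_AG ι hT hζ hFb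
  rw [h1, map_div₀]
  refine (congrArg₂ (· / ·) h2 h3).trans ?_
  exact (map_div₀ (twist ζ⁻¹) a b).symm

end Fermat.Agent.FG
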